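import Mathlib.Analysis.Complex.RemovableSingularity
import Mathlib.LinearAlgebra.Eigenspace.Basic
import Mathlib.LinearAlgebra.DFinsupp
import Mathlib.Analysis.Complex.Basic
import Mathlib.RingTheory.RootsOfUnity.Complex
import Fermat.Prelude.Def_ModularForm_HeckeOperator
import Mathlib.LinearAlgebra.Vandermonde
import Mathlib.Analysis.Analytic.IsolatedZeros
import Mathlib.Analysis.Complex.CauchyIntegral
import Mathlib.NumberTheory.ModularForms.QExpansion
import Mathlib.GroupTheory.GroupAction.Quotient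
import Mathlib.Dynamics.PeriodicPts.Lemmas
import Mathlib.GroupTheory.Perm.Basic
import Mathlib.GroupTheory.OrderOfElement
import Mathlib.Algebra.BigOperators.Intervals
import Mathlib.Algebra.Order.BigOperators.Group.Finset
import Mathlib.Data.Complex.Basic
import Mathlib.Algebra.BigOperators.Field
import Mathlib.SetTheory.Cardinal.Finite
import Mathlib.Tactic.FieldSimp
import Mathlib.Tactic.Ring
import Mathlib.Tactic.Linarith
import Mathlib.Analysis.SpecialFunctions.Complex.Log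
import Mathlib.Analysis.SpecialFunctions.Trigonometric.Basic
import Mathlib.LinearAlgebra.Matrix.NonsingularInverse
import Mathlib.Algebra.Field.GeomSum
import Mathlib.NumberTheory.ModularForms.Discriminant
import Mathlib.Topology.Instances.Matrix
import Mathlib
import Fermat.Statements.S20
import Fermat.Agent.S20.Basics
import Fermat.Agent.MU.S20.Gens
import Fermat.Agent.S20.PermEigen
import Fermat.Agent.S20.Defs
import Fermat.Agent.MU.S20.LevelOne

section MergeWrap_S20_Division -- from S20/Division.lean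

set_option autoImplicit false

namespace Fermat.Agent.S20

open UpperHalfPlane ModularForm CongruenceSubgroup Filter Topology
open scoped MatrixGroups ModularForm Manifold

/-- The holomorphic extension of `F / Φ` across simple zeros of `Φ` at which `F` vanishes. -/
noncomputable def divFun (F Φ : ℂ → ℂ) (z : ℂ) : ℂ :=
  if Φ z = 0 then deriv F z / deriv Φ z else F z / Φ z

lemma divFun_of_ne {F Φ : ℂ → ℂ} {z : ℂ} (h : Φ z ≠ 0) : divFun F Φ z = F z / Φ z := by
  simp [divFun, h]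

lemma divFun_of_eq {F Φ : ℂ → ℂ} {z : ℂ} (h : Φ z = 0) :
    divFun F Φ z = deriv F z / deriv Φ z := by
  simp [divFun, h]

lemma divFun_mul_eq {F Φ : ℂ → ℂ} {z : ℂ} (h : Φ z = 0 → F z = 0) :
    Φ z * divFun F Φ z = F z := by
  by_cases hz : Φ z = 0
  · rw [hz, zero_mul, h hz]
  · rw [divFun_of_ne hz, mul_div_cancel₀ _ hz]

lemma divFun_eventuallyEq_of_zero {F Φ : ℂ → ℂ} {z0 : ℂ}
    (hΦ : DifferentiableAt ℂ Φ z0)
    (hΦ0 : Φ z0 = 0) (hΦ' : deriv Φ z0 ≠ 0) (hF0 : F z0 = 0) :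
    divFun F Φ =ᶠ[𝓝 z0] fun z => dslope F z0 z / dslope Φ z0 z := by
  have hcont : ContinuousAt (dslope Φ z0) z0 := continuousAt_dslope_same.2 hΦ
  have hne : ∀ᶠ z in 𝓝 z0, dslope Φ z0 z ≠ 0 := by
    apply hcont.eventually_ne
    rwa [dslope_same]
  filter_upwards [hne] with z hz
  by_cases hzz : z = z0
  · subst hzz
    rw [divFun_of_eq hΦ0, dslope_same, dslope_same]
  · have h1 : Φ z = (z - z0) * dslope Φ z0 z := by
      have := sub_smul_dslope Φ z0 z
      rw [hΦ0, sub_zero, smul_eq_mul] at this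
      exact this.symm
    have h2 : F z = (z - z0) * dslope F z0 z := by
      have := sub_smul_dslope F z0 z
      rw [hF0, sub_zero, smul_eq_mul] at this
      exact this.symm
    have hsub : z - z0 ≠ 0 := sub_ne_zero.2 hzz
    have hΦz : Φ z ≠ 0 := by
      rw [h1]
      exact mul_ne_zero hsub hz
    rw [divFun_of_ne hΦz, h1, h2, mul_div_mul_left _ _ hsub]

lemma eventually_ne_of_simple_zero {Φ : ℂ → ℂ} {z0 : ℂ}
    (hΦ : DifferentiableAt ℂ Φ z0) (hΦ0 : Φ z0 = 0) (hΦ' : deriv Φ z0 ≠ 0) :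
    ∀ᶠ z in 𝓝[≠] z0, Φ z ≠ 0 := by
  have hcont : ContinuousAt (dslope Φ z0) z0 := continuousAt_dslope_same.2 hΦ
  have hne : ∀ᶠ z in 𝓝 z0, dslope Φ z0 z ≠ 0 := by
    apply hcont.eventually_ne
    rwa [dslope_same]
  filter_upwards [hne.filter_mono nhdsWithin_le_nhds, self_mem_nhdsWithin] with z hz hzz
  have h1 : Φ z = (z - z0) * dslope Φ z0 z := by
    have := sub_smul_dslope Φ z0 z
    rw [hΦ0, sub_zero, smul_eq_mul] at this
    exact this.symm
  rw [h1]
  exact mul_ne_zero (sub_ne_zero.2 hzz) hz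

lemma differentiableAt_divFun {F Φ : ℂ → ℂ} {U : Set ℂ} (hU : IsOpen U)
    (hF : DifferentiableOn ℂ F U) (hΦ : DifferentiableOn ℂ Φ U)
    (hsimple : ∀ z ∈ U, Φ z = 0 → deriv Φ z ≠ 0) (hzero : ∀ z ∈ U, Φ z = 0 → F z = 0)
    {z0 : ℂ} (hz0 : z0 ∈ U) : DifferentiableAt ℂ (divFun F Φ) z0 := by
  have hUn : U ∈ 𝓝 z0 := hU.mem_nhds hz0
  have hΦz0 : DifferentiableAt ℂ Φ z0 := hΦ.differentiableAt hUn
  have hFz0 : DifferentiableAt ℂ F z0 := hF.differentiableAt hUn
  by_cases h0 : Φ z0 = 0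
  · have hΦ' := hsimple z0 hz0 h0
    have hF0 := hzero z0 hz0 h0
    have hev := divFun_eventuallyEq_of_zero (F := F) hΦz0 h0 hΦ' hF0
    refine DifferentiableAt.congr_of_eventuallyEq ?_ hev
    have d1 : DifferentiableAt ℂ (dslope F z0) z0 :=
      ((Complex.differentiableOn_dslope hUn).2 hF).differentiableAt hUn
    have d2 : DifferentiableAt ℂ (dslope Φ z0) z0 :=
      ((Complex.differentiableOn_dslope hUn).2 hΦ).differentiableAt hUn
    exact d1.div d2 (by rwa [dslope_same])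
  · have hev : divFun F Φ =ᶠ[𝓝 z0] fun z => F z / Φ z := by
      filter_upwards [hΦz0.continuousAt.eventually_ne h0] with z hz
      exact divFun_of_ne hz
    exact DifferentiableAt.congr_of_eventuallyEq (hFz0.div hΦz0 h0) hev

end Fermat.Agent.S20

namespace Fermat.Agent.S20

open UpperHalfPlane ModularForm CongruenceSubgroup Filter Topology
open scoped MatrixGroups ModularForm Manifold

/-- A holomorphic function on `ℍ` killed by multiplication with a function having only
simple zeros is zero. -/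
lemma eq_zero_of_mul_eq_zero_of_simple {φ g : ℍ → ℂ} (hφ : MDiff φ) (hg : MDiff g)
    (hsimple : ∀ z : ℍ, φ z = 0 → deriv (φ ∘ ofComplex) z ≠ 0)
    (hmul : ∀ z : ℍ, φ z * g z = 0) : g = 0 := by
  ext z
  simp only [Pi.zero_apply]
  by_cases hz : φ z = 0
  · have hU : {w : ℂ | 0 < w.im} ∈ 𝓝 (z : ℂ) := isOpen_upperHalfPlaneSet.mem_nhds z.im_pos
    have hΦd : DifferentiableAt ℂ (φ ∘ ofComplex) z :=
      (UpperHalfPlane.mdifferentiable_iff.1 hφ).differentiableAt hU
    have hGd : DifferentiableAt ℂ (g ∘ ofComplex) z :=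
      (UpperHalfPlane.mdifferentiable_iff.1 hg).differentiableAt hU
    have hΦ0 : (φ ∘ ofComplex) z = 0 := by simpa [ofComplex_apply] using hz
    have hne := eventually_ne_of_simple_zero hΦd hΦ0 (hsimple z hz)
    have hev : ∀ᶠ w in 𝓝[≠] (z : ℂ), (g ∘ ofComplex) w = 0 := by
      filter_upwards [hne, mem_nhdsWithin_of_mem_nhds hU] with w hw hwU
      have := hmul ⟨w, hwU⟩
      have hw' : φ ⟨w, hwU⟩ ≠ 0 := by
        simpa [Function.comp_apply, ofComplex_apply_of_im_pos hwU] using hw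
      have hg0 : g ⟨w, hwU⟩ = 0 := by
        rcases mul_eq_zero.1 this with h | h
        · exact absurd h hw'
        · exact h
      simpa [Function.comp_apply, ofComplex_apply_of_im_pos hwU] using hg0
    have h1 : Tendsto (g ∘ ofComplex) (𝓝[≠] (z : ℂ)) (𝓝 ((g ∘ ofComplex) z)) :=
      hGd.continuousAt.tendsto.mono_left nhdsWithin_le_nhds
    have h2 : Tendsto (g ∘ ofComplex) (𝓝[≠] (z : ℂ)) (𝓝 0) :=
      tendsto_const_nhds.congr' (hev.mono fun w hw => hw.symm)
    have : (𝓝[≠] (z : ℂ)).NeBot := NormedField.nhdsNE_neBot _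
    have := tendsto_nhds_unique h1 h2
    simpa [Function.comp_apply, ofComplex_apply] using this
  · rcases mul_eq_zero.1 (hmul z) with h | h
    · exact absurd h hz
    · exact h

theorem exists_isMF_mul_eq {N : ℕ} [NeZero N] {k l : ℤ} {f φ : ℍ → ℂ}
    (hf : IsMF N k f) (hφ : IsMF 1 l φ) {c : ℂ} (hc : c ≠ 0)
    (hlim : Filter.Tendsto φ atImInfty (nhds c))
    (hsimple : ∀ z : ℍ, φ z = 0 → deriv (φ ∘ ofComplex) z ≠ 0)
    (hzero : ∀ z : ℍ, φ z = 0 → f z = 0) :
    ∃ h : ℍ → ℂ, IsMF N (k - l) h ∧ f = φ * h := by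
  have hUo : IsOpen {w : ℂ | 0 < w.im} := isOpen_upperHalfPlaneSet
  have hFd : DifferentiableOn ℂ (f ∘ ofComplex) {w : ℂ | 0 < w.im} := UpperHalfPlane.mdifferentiable_iff.1 hf.holo
  have hΦd : DifferentiableOn ℂ (φ ∘ ofComplex) {w : ℂ | 0 < w.im} := UpperHalfPlane.mdifferentiable_iff.1 hφ.holo
  have hcoe : ∀ (u : ℍ → ℂ) (w : ℂ) (hw : 0 < w.im), (u ∘ ofComplex) w = u ⟨w, hw⟩ := by
    intro u w hw
    simp [Function.comp_apply, ofComplex_apply_of_im_pos hw]
  let h : ℍ → ℂ := fun z => divFun (f ∘ ofComplex) (φ ∘ ofComplex) z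
  have hmul : f = φ * h := by
    ext z
    have h1 := divFun_mul_eq (F := f ∘ ofComplex) (Φ := φ ∘ ofComplex) (z := (z : ℂ))
      (by
        intro h0
        have : φ z = 0 := by simpa [ofComplex_apply] using h0
        simpa [ofComplex_apply] using hzero z this)
    simp only [Function.comp_apply, ofComplex_apply] at h1
    simp only [Pi.mul_apply, h]
    exact h1.symm
  have hholo : MDiff h := by
    rw [UpperHalfPlane.mdifferentiable_iff]
    intro w hw
    have hd : DifferentiableAt ℂ (divFun (f ∘ ofComplex) (φ ∘ ofComplex)) w := by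
      refine differentiableAt_divFun hUo hFd hΦd ?_ ?_ hw
      · intro z hz h0
        have := hsimple ⟨z, hz⟩ (by rw [← hcoe φ z hz]; exact h0)
        exact this
      · intro z hz h0
        rw [hcoe f z hz]
        exact hzero ⟨z, hz⟩ (by rw [← hcoe φ z hz]; exact h0)
    refine (hd.congr_of_eventuallyEq ?_).differentiableWithinAt
    filter_upwards [hUo.mem_nhds hw] with z hz
    simp [h, Function.comp_apply, ofComplex_apply_of_im_pos hz]
  -- the slash relation `f ∣[k] γ = φ * (h ∣[k - l] γ)` for all `γ`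
  have hslash : ∀ γ : SL(2, ℤ), f ∣[k] γ = φ * (h ∣[k - l] γ) := by
    intro γ
    have h1 : f ∣[k] γ = (φ * h) ∣[l + (k - l)] γ := by
      rw [← hmul]
      congr 1
      ring
    rw [h1, mul_slash_SL2, hφ.slash γ (mem_Gamma0_one γ)]
  refine ⟨h, ⟨hholo, ?_, ?_⟩, hmul⟩
  · intro γ hγ
    have h1 := hslash γ
    rw [hf.slash γ hγ] at h1
    have hdiff : h ∣[k - l] γ - h = 0 := by
      apply eq_zero_of_mul_eq_zero_of_simple hφ.holo ?_ hsimple
      · intro z
        have := congrFun h1 z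
        have h2 := congrFun hmul z
        simp only [Pi.mul_apply, Pi.sub_apply] at this h2 ⊢
        rw [mul_sub, ← this, ← h2, sub_self]
      · have : MDiff (h ∣[k - l] (γ : GL (Fin 2) ℝ)) := hholo.slash (k - l) _
        exact this.sub hholo
    exact sub_eq_zero.1 hdiff
  · intro γ
    have h1 := hslash γ
    have hne : ∀ᶠ z in atImInfty, φ z ≠ 0 := hlim.eventually_ne hc
    have hinv : IsBoundedAtImInfty (fun z => (φ z)⁻¹) := by
      have : Tendsto (fun z => (φ z)⁻¹) atImInfty (𝓝 c⁻¹) := hlim.inv₀ hc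
      exact this.isBigO_one ℝ
    have hb : IsBoundedAtImInfty ((f ∣[k] γ) * fun z => (φ z)⁻¹) := (hf.bdd γ).mul hinv
    refine Asymptotics.IsBigO.congr' hb ?_ EventuallyEq.rfl
    filter_upwards [hne] with z hz
    have := congrFun h1 z
    simp only [Pi.mul_apply] at this ⊢
    rw [this, mul_comm (φ z), mul_assoc, mul_inv_cancel₀ hz, mul_one]

end Fermat.Agent.S20
end MergeWrap_S20_Division

section MergeWrap_S20_H69_Core -- from S20/H69/Core.lean

set_option autoImplicit false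
set_option linter.unusedSectionVars false

namespace Fermat.Agent.S20

open UpperHalfPlane hiding I
open ModularForm CongruenceSubgroup Filter Topology Complex
open scoped MatrixGroups ModularForm Manifold Real

namespace Gens

variable {N : ℕ} [NeZero N] (𝔊 : Gens N)

/-- all translates of `f` vanish at `z₀` iff `f` vanishes on the orbit of `z₀`. -/
lemma H69_apply_smul_eq_zero {K : ℤ} {f : ℍ → ℂ} (hf : IsMF N K f) (z₀ : ℍ)
    (h : ∀ x : CosetX N, tr N K f x z₀ = 0) (g : SL(2, ℤ)) : f (g • z₀) = 0 := by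
  rw [slash_apply_eq f K g z₀, hf.slash_eq_tr g, h, zero_mul]

/-- Core of (G2). -/
lemma H69_coeff_eq_zero (z₀ : ℍ) (K l : ℤ) (s : Finset 𝔊.J) (c : 𝔊.J → ℂ)
    (G : 𝔊.J → ℍ → ℂ) (hG : ∀ j ∈ s, IsMF 1 (K - 𝔊.κ j) (G j)) (hG0 : ∀ j ∈ s, G j z₀ ≠ 0)
    (φ : ℍ → ℂ) (hφ : IsMF 1 l φ) (hφ0 : φ z₀ = 0) {a : ℂ} (ha : a ≠ 0)
    (hlim : Tendsto φ atImInfty (𝓝 a))
    (hsimple : ∀ z : ℍ, φ z = 0 → deriv (φ ∘ ofComplex) z ≠ 0)
    (horbit : ∀ z : ℍ, φ z = 0 → ∃ g : SL(2, ℤ), g • z₀ = z)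
    (hrel : ∑ j ∈ s, c j • 𝔊.vec j z₀ = 0) : ∀ j ∈ s, c j = 0 := by
  classical
  -- the form `f`
  set c' : 𝔊.J → ℂ := fun j => c j / G j z₀ with hc'
  set f : ℍ → ℂ := ∑ j ∈ s, c' j • (G j * 𝔊.F j) with hfdef
  have hGF : ∀ j ∈ s, IsMF N K (G j * 𝔊.F j) := fun j hj =>
    (((hG j hj).of_one (N := N)).mul (𝔊.isMF j)).cast (by ring)
  have hf : IsMF N K f := IsMF.sum s fun j hj => (hGF j hj).smul (c' j)
  -- translates of `f`
  have htr : ∀ x : CosetX N, tr N K f x z₀ = 0 := by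
    intro x
    have h1 : tr N K f x = ∑ j ∈ s, c' j • (G j * tr N (𝔊.κ j) (𝔊.F j) x) := by
      rw [hfdef, tr_sum]
      refine Finset.sum_congr rfl fun j hj => ?_
      rw [tr_smul]
      congr 1
      have h2 := tr_mul_of_one (N := N) (k := K - 𝔊.κ j) (l := 𝔊.κ j) (hG j hj) (𝔊.F j) x
      rwa [sub_add_cancel] at h2
    rw [h1]
    have h3 := congrFun hrel x
    simp only [Finset.sum_apply, Pi.smul_apply, Pi.mul_apply, smul_eq_mul, Pi.zero_apply] at h3 ⊢
    rw [← h3]
    refine Finset.sum_congr rfl fun j hj => ?_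
    simp only [hc', Gens.vec]
    field_simp [hG0 j hj]
  -- `f` vanishes at the zeros of `φ`
  have hzero : ∀ z : ℍ, φ z = 0 → f z = 0 := by
    intro z hz
    obtain ⟨g, rfl⟩ := horbit z hz
    exact H69_apply_smul_eq_zero hf z₀ htr g
  obtain ⟨h, hh, hfh⟩ := exists_isMF_mul_eq hf hφ ha hlim hsimple hzero
  have hkey := 𝔊.exists_eq_mul_of_sum_eq_mul K l s c' G hG φ h hφ hh hfh
  intro j hj
  obtain ⟨Q, -, hQ⟩ := hkey j hj
  have h4 := congrFun hQ z₀
  simp only [Pi.smul_apply, Pi.mul_apply, smul_eq_mul, hφ0, zero_mul, hc'] at h4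
  have h5 : c j / G j z₀ * G j z₀ = c j := div_mul_cancel₀ _ (hG0 j hj)
  rw [← h5, h4]

end Gens

end Fermat.Agent.S20
end MergeWrap_S20_H69_Core

section MergeWrap_S20_H69_LinAlg -- from S20/H69/LinAlg.lean

set_option autoImplicit false

namespace Fermat.Agent.S20

/-- A family of eigenvectors of `T`, such that the eigenvalue is an injective function of a class
and each class is linearly independent, is linearly independent. -/
lemma H69_li_of_eigen {V : Type*} [AddCommGroup V] [Module ℂ V] (T : Module.End ℂ V)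
    {J C : Type*} (v : J → V) (cls : J → C) (E : C → ℂ)
    (hT : ∀ j, T (v j) = E (cls j) • v j)
    (hE : ∀ j j', E (cls j) = E (cls j') → cls j = cls j')
    (hclass : ∀ r : C, LinearIndependent ℂ (fun j : {j // cls j = r} => v j)) :
    LinearIndependent ℂ v := by
  classical
  rw [linearIndependent_iff']
  intro s c hsum j hj
  have hind := (iSupIndep_iff_finsetSum_eq_zero_imp_eq_zero _).mp T.eigenspaces_iSupIndep
  set u : ℂ → V := fun e => ∑ i ∈ s.filter (fun i => E (cls i) = e), c i • v i with hu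
  have hu_mem : ∀ e, u e ∈ T.eigenspace e := by
    intro e
    refine Submodule.sum_mem _ fun i hi => ?_
    rw [Finset.mem_filter] at hi
    refine Submodule.smul_mem _ _ ?_
    rw [Module.End.mem_eigenspace_iff, hT i, hi.2]
  have hu_sum : ∑ e ∈ s.image (fun i => E (cls i)), u e = 0 := by
    rw [← hsum]
    exact Finset.sum_fiberwise_of_maps_to (fun i hi => Finset.mem_image_of_mem _ hi) _
  have hu0 : u (E (cls j)) = 0 :=
    hind (s.image (fun i => E (cls i))) u (fun e _ => hu_mem e) hu_sum (E (cls j))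
      (Finset.mem_image_of_mem _ hj)
  have hcl := hclass (cls j)
  rw [linearIndependent_iff'] at hcl
  -- the finset of the subtype
  set s' : Finset {i // cls i = cls j} := (s.filter (fun i => E (cls i) = E (cls j))).subtype _
    with hs'
  have hsum' : ∑ i ∈ s', c i.1 • v i.1 = 0 := by
    rw [hs', Finset.sum_subtype_eq_sum_filter (f := fun i => c i • v i)]
    rw [Finset.filter_filter]
    rw [← hu0, hu]
    refine Finset.sum_congr ?_ fun _ _ => rfl
    ext i
    simp only [Finset.mem_filter]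
    constructor
    · rintro ⟨hi, h1, -⟩
      exact ⟨hi, h1⟩
    · rintro ⟨hi, h1⟩
      exact ⟨hi, h1, hE i j h1⟩
  have := hcl s' (fun i => c i.1) hsum' ⟨j, rfl⟩
    (by rw [hs', Finset.mem_subtype]; exact Finset.mem_filter.mpr ⟨hj, rfl⟩)
  exact this

end Fermat.Agent.S20
end MergeWrap_S20_H69_LinAlg

section MergeWrap_S20_GensIndep -- from S20/GensIndep.lean

set_option autoImplicit false
set_option linter.unusedSectionVars false

namespace Fermat.Agent.S20

open UpperHalfPlane hiding I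
open ModularForm CongruenceSubgroup Filter Topology Complex
open scoped MatrixGroups ModularForm Manifold Real

local notation "Δ" => ModularForm.discriminant

namespace Gens

variable {N : ℕ} [NeZero N] (𝔊 : Gens N)

/-! ### helper lemmas -/

/-- independence of a class of generators, given monomials and a dividing form. -/
lemma H69_linearIndependent_class (p : 𝔊.J → Prop) (z₀ : ℍ) (l : ℤ)
    (hmono : ∀ s : Finset 𝔊.J, (∀ j ∈ s, p j) → ∃ (K : ℤ) (G : 𝔊.J → ℍ → ℂ),
      (∀ j ∈ s, IsMF 1 (K - 𝔊.κ j) (G j)) ∧ ∀ j ∈ s, G j z₀ ≠ 0)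
    (φ : ℍ → ℂ) (hφ : IsMF 1 l φ) (hφ0 : φ z₀ = 0) {a : ℂ} (ha : a ≠ 0)
    (hlim : Tendsto φ atImInfty (𝓝 a))
    (hsimple : ∀ z : ℍ, φ z = 0 → deriv (φ ∘ ofComplex) z ≠ 0)
    (horbit : ∀ z : ℍ, φ z = 0 → ∃ g : SL(2, ℤ), g • z₀ = z) :
    LinearIndependent ℂ (fun j : {j : 𝔊.J // p j} => 𝔊.vec j.1 z₀) := by
  classical
  rw [linearIndependent_iff']
  intro s c hrel i hi
  set s' : Finset 𝔊.J := s.map (Function.Embedding.subtype _) with hs'
  set c' : 𝔊.J → ℂ := fun j => if h : p j then c ⟨j, h⟩ else 0 with hc'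
  have hps' : ∀ j ∈ s', p j := by
    intro j hj
    rw [hs', Finset.mem_map] at hj
    obtain ⟨a, -, rfl⟩ := hj
    exact a.2
  obtain ⟨K, G, hG, hG0⟩ := hmono s' hps'
  have hrel' : ∑ j ∈ s', c' j • 𝔊.vec j z₀ = 0 := by
    rw [hs', Finset.sum_map, ← hrel]
    refine Finset.sum_congr rfl fun a _ => ?_
    simp only [Function.Embedding.coe_subtype, hc', a.2, dite_true]
  have h := H69_coeff_eq_zero 𝔊 z₀ K l s' c' G hG hG0 φ hφ hφ0 ha hlim hsimple horbit hrel' i.1
    (by rw [hs', Finset.mem_map]; exact ⟨i, hi, rfl⟩)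
  simpa only [hc', i.2, dite_true] using h

/-- a weight `K` above all `κ j + 4`, `j ∈ s`, even. -/
lemma H69_exists_large_even (s : Finset 𝔊.J) :
    ∃ K : ℤ, Even K ∧ ∀ j ∈ s, 𝔊.κ j + 4 ≤ K := by
  classical
  refine ⟨2 * (∑ j ∈ s, 𝔊.κ j) + 4, ⟨∑ j ∈ s, 𝔊.κ j + 2, by ring⟩, fun j hj => ?_⟩
  have h1 : 𝔊.κ j ≤ ∑ i ∈ s, 𝔊.κ i :=
    Finset.single_le_sum (f := fun i => 𝔊.κ i) (fun i _ => 𝔊.κ_nonneg i) hj
  have h2 : 0 ≤ ∑ i ∈ s, 𝔊.κ i := Finset.sum_nonneg fun i _ => 𝔊.κ_nonneg i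
  linarith

/-- a weight `K ≡ r mod m` above all `κ j`, `j ∈ s`, if all `κ j ≡ r mod m`. -/
lemma H69_exists_large_modEq (m r : ℤ) (s : Finset 𝔊.J) (hs : ∀ j ∈ s, 𝔊.κ j % m = r) :
    ∃ K : ℤ, ∀ j ∈ s, 0 ≤ K - 𝔊.κ j ∧ m ∣ K - 𝔊.κ j := by
  classical
  rcases s.eq_empty_or_nonempty with rfl | ⟨j₀, hj₀⟩
  · exact ⟨0, fun j hj => absurd hj (Finset.notMem_empty j)⟩
  refine ⟨𝔊.κ j₀ + m * m * (∑ j ∈ s, 𝔊.κ j), fun j hj => ⟨?_, ?_⟩⟩
  · have h1 : 𝔊.κ j ≤ ∑ i ∈ s, 𝔊.κ i :=
      Finset.single_le_sum (f := fun i => 𝔊.κ i) (fun i _ => 𝔊.κ_nonneg i) hj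
    have h2 : 0 ≤ ∑ i ∈ s, 𝔊.κ i := Finset.sum_nonneg fun i _ => 𝔊.κ_nonneg i
    have h3 : 0 ≤ 𝔊.κ j₀ := 𝔊.κ_nonneg j₀
    by_cases hm : m = 0
    · subst hm
      have e1 := hs j hj
      have e2 := hs j₀ hj₀
      rw [Int.emod_zero] at e1 e2
      simp only [mul_zero, zero_mul, add_zero]
      rw [e1, e2, sub_self]
    · have h4 : 1 ≤ m * m := by
        have : 0 < m * m := mul_self_pos.mpr hm
        omega
      nlinarith
  · have e1 := hs j hj
    have e2 := hs j₀ hj₀
    have h5 : m ∣ 𝔊.κ j₀ - 𝔊.κ j := by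
      apply Int.dvd_of_emod_eq_zero
      rw [Int.sub_emod, e1, e2, sub_self, Int.zero_emod]
    have h6 : 𝔊.κ j₀ + m * m * (∑ j ∈ s, 𝔊.κ j) - 𝔊.κ j
        = (𝔊.κ j₀ - 𝔊.κ j) + m * (m * ∑ j ∈ s, 𝔊.κ j) := by ring
    rw [h6]
    exact dvd_add h5 (dvd_mul_right _ _)

/-! ### (G2) linear independence of the evaluation vectors
At a generic point `z₀`: if `∑_{j∈s} c_j vec j z₀ = 0`, choose `K` large and even and monomials `G_j` of weight
`K - κ_j` with `G_j z₀ ≠ 0` (`exists_monomial`); `f := ∑ (c_j / G_j z₀) G_j F_j ∈ M_K(Γ₀(N))` has all translates vanishing at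
`z₀`, hence vanishes on the `SL(2,ℤ)`-orbit of `z₀`, i.e. at all zeros of `phiAt z₀`; these zeros are simple; so
`f = phiAt z₀ * h` (Division.lean); by (G1) `(c_j / G_j z₀) G_j = phiAt z₀ * Q_j`; evaluate at `z₀`. -/
lemma linearIndependent_vec_generic (z₀ : ℍ) (h4 : E₄ z₀ ≠ 0) (h6 : E₆ z₀ ≠ 0) :
    LinearIndependent ℂ (fun j => 𝔊.vec j z₀) := by
  classical
  have key : LinearIndependent ℂ (fun j : {j : 𝔊.J // True} => 𝔊.vec j.1 z₀) := by
    refine H69_linearIndependent_class 𝔊 (fun _ => True) z₀ 12 ?_ (phiAt z₀) (isMF_phiAt z₀)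
      (phiAt_self z₀) (discriminant_ne_zero z₀) (tendsto_phiAt z₀)
      (fun z hz => deriv_phiAt_ne_zero h4 h6 hz) (fun z hz => exists_smul_of_phiAt_eq_zero hz)
    intro s _
    obtain ⟨K, hKe, hK⟩ := H69_exists_large_even 𝔊 s
    have hex : ∀ j : 𝔊.J, ∃ G : ℍ → ℂ, j ∈ s → (IsMF 1 (K - 𝔊.κ j) G ∧ G z₀ ≠ 0) := by
      intro j
      by_cases hj : j ∈ s
      · have h1 : 0 ≤ K - 𝔊.κ j := by have := hK j hj; linarith
        have h2 : K - 𝔊.κ j ≠ 2 := by have := hK j hj; intro h; linarith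
        have h3 : Even (K - 𝔊.κ j) := hKe.sub (𝔊.κ_even j)
        obtain ⟨G, hG, -, hG0⟩ := exists_monomial h1 h2 h3
        exact ⟨G, fun _ => ⟨hG, hG0 z₀ h4 h6⟩⟩
      · exact ⟨0, fun h => absurd h hj⟩
    choose G hG using hex
    exact ⟨K, G, fun j hj => (hG j hj).1, fun j hj => (hG j hj).2⟩
  exact key.comp (fun j => (⟨j, trivial⟩ : {j : 𝔊.J // True})) (fun a b h => by simpa using h)

/-- At `i`, within one class of weights mod 4 (same argument with `φ = E₆`, `G_j` = power of `E₄`). -/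
lemma linearIndependent_vec_I_class (r : ℤ) :
    LinearIndependent ℂ (fun j : {j : 𝔊.J // 𝔊.κ j % 4 = r} => 𝔊.vec j.1 UpperHalfPlane.I) := by
  classical
  refine H69_linearIndependent_class 𝔊 (fun j => 𝔊.κ j % 4 = r) UpperHalfPlane.I 6 ?_ (⇑E₆) isMF_E₆
    E₆_I one_ne_zero tendsto_E₆_atImInfty
    (fun z hz => deriv_E₆_ne_zero hz) (fun z hz => exists_smul_I_of_E₆_eq_zero hz)
  intro s hs
  obtain ⟨K, hK⟩ := H69_exists_large_modEq 𝔊 4 r s hs
  have hex : ∀ j : 𝔊.J, ∃ G : ℍ → ℂ, j ∈ s →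
      (IsMF 1 (K - 𝔊.κ j) G ∧ G UpperHalfPlane.I ≠ 0) := by
    intro j
    by_cases hj : j ∈ s
    · obtain ⟨G, hG, hG0⟩ := exists_monomial_four (hK j hj).1 (hK j hj).2
      exact ⟨G, fun _ => ⟨hG, hG0 _ E₄_I_ne_zero⟩⟩
    · exact ⟨0, fun h => absurd h hj⟩
  choose G hG using hex
  exact ⟨K, G, fun j hj => (hG j hj).1, fun j hj => (hG j hj).2⟩

/-- At `ρ`, within one class of weights mod 6 (same argument with `φ = E₄`, `G_j` = power of `E₆`). -/
lemma linearIndependent_vec_ellRho_class (r : ℤ) :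
    LinearIndependent ℂ (fun j : {j : 𝔊.J // 𝔊.κ j % 6 = r} => 𝔊.vec j.1 ellRho) := by
  classical
  refine H69_linearIndependent_class 𝔊 (fun j => 𝔊.κ j % 6 = r) ellRho 4 ?_ (⇑E₄) isMF_E₄
    E₄_ellRho one_ne_zero tendsto_E₄_atImInfty
    (fun z hz => deriv_E₄_ne_zero hz) (fun z hz => exists_smul_ellRho_of_E₄_eq_zero hz)
  intro s hs
  obtain ⟨K, hK⟩ := H69_exists_large_modEq 𝔊 6 r s hs
  have hex : ∀ j : 𝔊.J, ∃ G : ℍ → ℂ, j ∈ s →
      (IsMF 1 (K - 𝔊.κ j) G ∧ G ellRho ≠ 0) := by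
    intro j
    by_cases hj : j ∈ s
    · obtain ⟨G, hG, hG0⟩ := exists_monomial_six (hK j hj).1 (hK j hj).2
      exact ⟨G, fun _ => ⟨hG, hG0 _ E₆_ellRho_ne_zero⟩⟩
    · exact ⟨0, fun h => absurd h hj⟩
  choose G hG using hex
  exact ⟨K, G, fun j hj => (hG j hj).1, fun j hj => (hG j hj).2⟩

/-- the permutation `x ↦ S⁻¹ • x` of `X`. -/
noncomputable def permS (N : ℕ) : Equiv.Perm (CosetX N) := MulAction.toPerm (ModularGroup.S⁻¹)

/-- the permutation `x ↦ (S*T)⁻¹ • x` of `X`. -/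
noncomputable def permST (N : ℕ) : Equiv.Perm (CosetX N) :=
  MulAction.toPerm ((ModularGroup.S * ModularGroup.T)⁻¹)

/-- the permutation `x ↦ T⁻¹ • x` of `X`. -/
noncomputable def permT (N : ℕ) : Equiv.Perm (CosetX N) := MulAction.toPerm (ModularGroup.T⁻¹)

lemma H69_neg_one_inv : ((-1 : SL(2, ℤ)))⁻¹ = -1 := by
  rw [inv_eq_iff_eq_inv]
  ext i j
  fin_cases i <;> fin_cases j <;> simp

/-- `-1` acts trivially on the coset space. -/
lemma H69_neg_one_smul (x : CosetX N) : (-1 : SL(2, ℤ)) • x = x := by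
  induction x using QuotientGroup.induction_on with
  | H a =>
    show (QuotientGroup.mk ((-1 : SL(2, ℤ)) * a) : CosetX N) = QuotientGroup.mk a
    rw [QuotientGroup.eq]
    have h : ((-1 : SL(2, ℤ)) * a)⁻¹ * a = -1 := by
      rw [mul_inv_rev, mul_assoc, H69_neg_one_inv]
      ext i j
      simp
    rw [h, Gamma0_mem]
    simp

lemma H69_S_mul_S : ModularGroup.S * ModularGroup.S = -1 := by
  ext i j
  fin_cases i <;> fin_cases j <;>
    simp [Matrix.SpecialLinearGroup.coe_mul, ModularGroup.coe_S, Matrix.mul_apply,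
      Fin.sum_univ_two]

lemma H69_ST_pow_three :
    (ModularGroup.S * ModularGroup.T) * (ModularGroup.S * ModularGroup.T) *
      (ModularGroup.S * ModularGroup.T) = -1 := by
  ext i j
  fin_cases i <;> fin_cases j <;>
    simp [Matrix.SpecialLinearGroup.coe_mul, ModularGroup.coe_S, ModularGroup.coe_T,
      Matrix.mul_apply, Fin.sum_univ_two]

lemma H69_isPrimitiveRoot_six {d : ℂ} (h : d ^ 2 - d + 1 = 0) : IsPrimitiveRoot d 6 := by
  have h2 : d ^ 2 = d - 1 := by linear_combination h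
  have h3 : d ^ 3 = -1 := by linear_combination (d + 1) * h
  have h4 : d ^ 4 = -d := by linear_combination (d ^ 2 + d) * h
  have h5 : d ^ 5 = 1 - d := by linear_combination (d ^ 3 + d ^ 2 - 1) * h
  refine IsPrimitiveRoot.mk_of_lt d (by norm_num) ?_ ?_
  · linear_combination (d ^ 4 + d ^ 3 - d - 1) * h
  · intro l hl0 hl6 hl
    interval_cases l
    · rw [pow_one] at hl
      rw [hl] at h
      norm_num at h
    · rw [h2] at hl
      have hd : d = 2 := by linear_combination hl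
      rw [hd] at h
      norm_num at h
    · rw [h3] at hl
      norm_num at hl
    · rw [h4] at hl
      have hd : d = -1 := by linear_combination -hl
      rw [hd] at h
      norm_num at h
    · rw [h5] at hl
      have hd : d = 0 := by linear_combination -hl
      rw [hd] at h
      norm_num at h

/-- a primitive `m`-th root of unity separates residues mod `m`. -/
lemma H69_zpow_neg_emod_inj {d : ℂ} {m : ℕ} (hm : 0 < m) (hd : IsPrimitiveRoot d m) (a b : ℤ)
    (h : d ^ (-(a % (m : ℤ))) = d ^ (-(b % (m : ℤ)))) : a % (m : ℤ) = b % (m : ℤ) := by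
  have hd0 : d ≠ 0 := hd.ne_zero hm.ne'
  have hm' : (0 : ℤ) < m := by exact_mod_cast hm
  have h1 : d ^ (a % (m : ℤ) - b % (m : ℤ)) = 1 := by
    rw [sub_eq_add_neg, zpow_add₀ hd0, ← h, ← zpow_add₀ hd0, add_neg_cancel, zpow_zero]
  have h2 := (hd.zpow_eq_one_iff_dvd _).mp h1
  have ha := Int.emod_nonneg a hm'.ne'
  have hb := Int.emod_nonneg b hm'.ne'
  have ha' := Int.emod_lt_of_pos a hm'
  have hb' := Int.emod_lt_of_pos b hm'
  obtain ⟨t, ht⟩ := h2
  have ht0 : t = 0 := by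
    by_contra hne
    rcases lt_or_gt_of_ne hne with hlt | hgt
    · have : (m : ℤ) * t ≤ -(m : ℤ) := by nlinarith
      omega
    · have : (m : ℤ) ≤ (m : ℤ) * t := by nlinarith
      omega
  rw [ht0, mul_zero] at ht
  omega

lemma H69_zpow_neg_emod {d : ℂ} {m : ℕ} (hd0 : d ≠ 0) (hd : d ^ m = 1) (a : ℤ) :
    d ^ (-a) = d ^ (-(a % (m : ℤ))) := by
  have h1 : -a = -(a % (m : ℤ)) + (m : ℤ) * (-(a / (m : ℤ))) := by
    have := Int.emod_add_mul_ediv a (m : ℤ)
    linarith
  rw [h1, zpow_add₀ hd0, zpow_mul, zpow_natCast, hd, one_zpow, mul_one]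

/-- transport of independence along the action of `SL(2,ℤ)`. -/
lemma H69_li_smul (g : SL(2, ℤ)) (z : ℍ) (h : LinearIndependent ℂ (fun j => 𝔊.vec j z)) :
    LinearIndependent ℂ (fun j => 𝔊.vec j (g • z)) := by
  have h1 : (fun j => 𝔊.vec j (g • z)) =
      (fun j => Units.mk0 (denom g z ^ 𝔊.κ j) (zpow_ne_zero _ (denom_ne_zero g z))) •
        (fun j => (LinearMap.funLeft ℂ ℂ (fun x : CosetX N => g⁻¹ • x)) (𝔊.vec j z)) := by
    funext j
    funext x
    rw [𝔊.vec_smul j g z x]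
    rfl
  rw [h1]
  refine LinearIndependent.units_smul ?_ _
  exact h.map' _ (LinearMap.ker_eq_bot.mpr
    (LinearMap.funLeft_injective_of_surjective _ _ _ (MulAction.surjective g⁻¹)))

lemma permS_mul_self : permS N * permS N = 1 := by
  ext x
  show ModularGroup.S⁻¹ • (ModularGroup.S⁻¹ • x) = x
  rw [← mul_smul, ← mul_inv_rev, H69_S_mul_S, H69_neg_one_inv, H69_neg_one_smul]

lemma permST_pow_three : permST N * permST N * permST N = 1 := by
  ext x
  show (ModularGroup.S * ModularGroup.T)⁻¹ • ((ModularGroup.S * ModularGroup.T)⁻¹ •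
    ((ModularGroup.S * ModularGroup.T)⁻¹ • x)) = x
  rw [← mul_smul, ← mul_smul, ← mul_inv_rev, ← mul_inv_rev, ← mul_assoc, H69_ST_pow_three,
    H69_neg_one_inv, H69_neg_one_smul]

/-- `vec j i` is an eigenvector of `x ↦ S⁻¹ • x` with eigenvalue `i^{-κ_j}` (`= ±1`). -/
lemma vec_I_mem_permEigen (j : 𝔊.J) :
    𝔊.vec j UpperHalfPlane.I ∈ permEigen (permS N) (Complex.I ^ (-𝔊.κ j)) := by
  show ∀ x, 𝔊.vec j UpperHalfPlane.I (permS N x) =
    Complex.I ^ (-𝔊.κ j) * 𝔊.vec j UpperHalfPlane.I x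
  intro x
  have h := 𝔊.vec_smul j ModularGroup.S UpperHalfPlane.I x
  rw [S_smul_I, denom_S_I] at h
  show 𝔊.vec j UpperHalfPlane.I (ModularGroup.S⁻¹ • x) = _
  rw [h, ← mul_assoc, ← zpow_add₀ Complex.I_ne_zero, neg_add_cancel, zpow_zero, one_mul]

/-- `vec j ρ` is an eigenvector of `x ↦ (S*T)⁻¹ • x` with eigenvalue `(ρ+1)^{-κ_j}`. -/
lemma vec_ellRho_mem_permEigen (j : 𝔊.J) :
    𝔊.vec j ellRho ∈
      permEigen (permST N) ((denom (ModularGroup.S * ModularGroup.T) ellRho) ^ (-𝔊.κ j)) := by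
  show ∀ x, 𝔊.vec j ellRho (permST N x) =
    (denom (ModularGroup.S * ModularGroup.T) ellRho) ^ (-𝔊.κ j) * 𝔊.vec j ellRho x
  intro x
  have h := 𝔊.vec_smul j (ModularGroup.S * ModularGroup.T) ellRho x
  rw [ST_smul_ellRho] at h
  have hcoe : denom ((ModularGroup.S * ModularGroup.T : SL(2, ℤ)) : GL (Fin 2) ℝ) ellRho =
      denom (ModularGroup.S * ModularGroup.T) ellRho := by
    simp only [map_mul]
  rw [hcoe] at h
  show 𝔊.vec j ellRho ((ModularGroup.S * ModularGroup.T)⁻¹ • x) = _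
  rw [h, ← mul_assoc, ← zpow_add₀ (denom_ne_zero _ _), neg_add_cancel, zpow_zero, one_mul]

/-- independence at `i` (classes mod 4 lie in different eigenspaces of `permS`). -/
lemma linearIndependent_vec_I : LinearIndependent ℂ (fun j => 𝔊.vec j UpperHalfPlane.I) := by
  classical
  refine H69_li_of_eigen (PermEigenAux.pull (permS N)) (fun j => 𝔊.vec j UpperHalfPlane.I)
    (fun j => 𝔊.κ j % ((4 : ℕ) : ℤ)) (fun r => Complex.I ^ (-r)) ?_ ?_ ?_
  · intro j
    funext x
    have h := 𝔊.vec_I_mem_permEigen j x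
    rw [PermEigenAux.pull_apply, h, Pi.smul_apply, smul_eq_mul,
      H69_zpow_neg_emod Complex.I_ne_zero Complex.I_pow_four]
  · intro j j' h
    exact H69_zpow_neg_emod_inj (by norm_num) Complex.isPrimitiveRoot_I _ _ h
  · intro r
    exact 𝔊.linearIndependent_vec_I_class r

lemma linearIndependent_vec_ellRho : LinearIndependent ℂ (fun j => 𝔊.vec j ellRho) := by
  classical
  have hd := H69_isPrimitiveRoot_six denom_ST_ellRho
  refine H69_li_of_eigen (PermEigenAux.pull (permST N)) (fun j => 𝔊.vec j ellRho)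
    (fun j => 𝔊.κ j % ((6 : ℕ) : ℤ))
    (fun r => (denom (ModularGroup.S * ModularGroup.T) ellRho) ^ (-r)) ?_ ?_ ?_
  · intro j
    funext x
    have h := 𝔊.vec_ellRho_mem_permEigen j x
    rw [PermEigenAux.pull_apply, h, Pi.smul_apply, smul_eq_mul,
      H69_zpow_neg_emod (denom_ne_zero _ _) hd.pow_eq_one]
  · intro j j' h
    exact H69_zpow_neg_emod_inj (by norm_num) hd _ _ h
  · intro r
    exact 𝔊.linearIndependent_vec_ellRho_class r

/-- independence at every point (generic / orbit of `i` / orbit of `ρ`, using `vec_smul`). -/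
lemma linearIndependent_vec (z : ℍ) : LinearIndependent ℂ (fun j => 𝔊.vec j z) := by
  by_cases h6 : E₆ z = 0
  · obtain ⟨g, rfl⟩ := exists_smul_I_of_E₆_eq_zero h6
    exact H69_li_smul 𝔊 g _ 𝔊.linearIndependent_vec_I
  by_cases h4 : E₄ z = 0
  · obtain ⟨g, rfl⟩ := exists_smul_ellRho_of_E₄_eq_zero h4
    exact H69_li_smul 𝔊 g _ 𝔊.linearIndependent_vec_ellRho
  exact 𝔊.linearIndependent_vec_generic z h4 h6

end Gens

end Fermat.Agent.S20
end MergeWrap_S20_GensIndep

section MergeWrap_S20_Separating -- from S20/Separating.lean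

set_option autoImplicit false

namespace Fermat.Agent.S20

open UpperHalfPlane ModularForm CongruenceSubgroup
open scoped MatrixGroups ModularForm Manifold

/-- Integer version of the decomposition `diag(N,1) g = g' (h B; 0 D)`. -/
lemma sep_decomp_int (N : ℕ) (hN : N ≠ 0) (g : SL(2, ℤ)) :
    ∃ (g' : SL(2, ℤ)) (h D : ℕ) (B : ℤ), h * D = N ∧ ((h : ℤ) ∣ g 1 0) ∧
      (N : ℤ) * g 0 0 = g' 0 0 * h ∧ (N : ℤ) * g 0 1 = g' 0 0 * B + g' 0 1 * D ∧
      g 1 0 = g' 1 0 * h ∧ g 1 1 = g' 1 0 * B + g' 1 1 * D := by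
  have hdet : g 0 0 * g 1 1 - g 0 1 * g 1 0 = 1 := by
    have := g.det_coe
    rw [Matrix.det_fin_two] at this
    exact this
  set a := g 0 0 with ha
  set b := g 0 1 with hb
  set c := g 1 0 with hc
  set d := g 1 1 with hd
  set h : ℕ := Int.gcd (N : ℤ) c with hh
  have hhpos : 0 < h := Int.gcd_pos_of_ne_zero_left _ (by exact_mod_cast hN)
  obtain ⟨D, hD⟩ : (h : ℤ) ∣ (N : ℤ) := Int.gcd_dvd_left _ _
  obtain ⟨c₁, hc₁⟩ : (h : ℤ) ∣ c := Int.gcd_dvd_right _ _
  have hDpos : 0 < D := by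
    by_contra hcon
    have hNpos : (0 : ℤ) < N := by exact_mod_cast Nat.pos_of_ne_zero hN
    have : (h : ℤ) * D ≤ 0 := mul_nonpos_of_nonneg_of_nonpos (by positivity) (by omega)
    omega
  have hcop : IsCoprime D c₁ := by
    rw [Int.isCoprime_iff_gcd_eq_one]
    have h1 : Int.gcd ((h : ℤ) * D) ((h : ℤ) * c₁) = h := by rw [← hD, ← hc₁]
    rw [Int.gcd_mul_left] at h1
    simp only [Int.natAbs_natCast] at h1
    have : h * Int.gcd D c₁ = h * 1 := by rw [h1, mul_one]
    exact Nat.eq_of_mul_eq_mul_left hhpos this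
  have hcop2 : IsCoprime a c₁ := ⟨d, -b * h, by rw [hc₁] at hdet; linear_combination hdet⟩
  obtain ⟨x, y, hxy⟩ : IsCoprime (D * a) c₁ := IsCoprime.mul_left hcop hcop2
  refine ⟨⟨!![D * a, -y; c₁, x], ?_⟩, h, D.toNat, x * N * b + y * d, ?_, ⟨c₁, hc₁⟩, ?_, ?_, ?_, ?_⟩
  · rw [Matrix.det_fin_two_of]; linear_combination hxy
  · have : ((h * D.toNat : ℕ) : ℤ) = N := by
      push_cast
      rw [Int.toNat_of_nonneg hDpos.le, hD]
    exact_mod_cast this
  · simp only [Matrix.of_apply, Matrix.cons_val', Matrix.cons_val_zero,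
      Matrix.cons_val_fin_one]
    rw [hD]; ring
  · simp only [Matrix.of_apply, Matrix.cons_val', Matrix.cons_val_zero,
      Matrix.cons_val_fin_one, Matrix.cons_val_one]
    rw [Int.toNat_of_nonneg hDpos.le, hD]
    rw [hc₁] at hdet
    linear_combination (-(D * b * h)) * hxy + (-(D * y)) * hdet
  · simp only [Matrix.of_apply, Matrix.cons_val', Matrix.cons_val_zero,
      Matrix.cons_val_fin_one, Matrix.cons_val_one]
    rw [hc₁]; ring
  · simp only [Matrix.of_apply, Matrix.cons_val', Matrix.cons_val_zero,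
      Matrix.cons_val_fin_one, Matrix.cons_val_one]
    rw [Int.toNat_of_nonneg hDpos.le, hD]
    rw [hc₁] at hdet
    linear_combination (-d) * hxy + (x * D) * hdet

/-- Entries of `upperTriangularGL`. -/
lemma sep_upper_apply (a b d : ℝ) (had : a * d ≠ 0) (i j : Fin 2) :
    (upperTriangularGL a b d had : GL (Fin 2) ℝ) i j = !![a, b; 0, d] i j := rfl

/-- The decomposition `diag(N,1) g = g' (h B; 0 D)` in `GL(2,ℝ)`. -/
lemma sep_decomp (N : ℕ) (hN : N ≠ 0) (g : SL(2, ℤ)) :
    ∃ (g' : SL(2, ℤ)) (h D : ℕ) (B : ℤ) (hhD : (h : ℝ) * (D : ℝ) ≠ 0),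
      h * D = N ∧ ((h : ℤ) ∣ g 1 0) ∧
      upperTriangularGL N 0 1 (by rw [mul_one]; exact_mod_cast hN) * (g : GL (Fin 2) ℝ)
        = (g' : GL (Fin 2) ℝ) * upperTriangularGL h B D hhD := by
  obtain ⟨g', h, D, B, hhD, hdvd, e00, e01, e10, e11⟩ := sep_decomp_int N hN g
  have hne : (h : ℝ) * (D : ℝ) ≠ 0 := by
    have : h * D ≠ 0 := by rw [hhD]; exact hN
    exact_mod_cast this
  refine ⟨g', h, D, B, hne, hhD, hdvd, ?_⟩
  have r00 : (N : ℝ) * (g 0 0 : ℝ) = (g' 0 0 : ℝ) * h := by exact_mod_cast e00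
  have r01 : (N : ℝ) * (g 0 1 : ℝ) = (g' 0 0 : ℝ) * B + (g' 0 1 : ℝ) * D := by exact_mod_cast e01
  have r10 : (g 1 0 : ℝ) = (g' 1 0 : ℝ) * h := by exact_mod_cast e10
  have r11 : (g 1 1 : ℝ) = (g' 1 0 : ℝ) * B + (g' 1 1 : ℝ) * D := by exact_mod_cast e11
  apply Matrix.GeneralLinearGroup.ext
  intro i j
  fin_cases i <;> fin_cases j <;>
    simp [Matrix.mul_apply, Fin.sum_univ_two, r00, r01, r10, r11]

/-- `Δ` is invariant under `SL(2,ℤ)`. -/
lemma sep_discriminant_slash (g : SL(2, ℤ)) :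
    ModularForm.discriminant ∣[(12 : ℤ)] (g : GL (Fin 2) ℝ) = ModularForm.discriminant := by
  rw [← SL_slash]
  exact SlashInvariantForm.slash_action_generators_SL2Z discriminant_S_invariant
    discriminant_T_invariant g

open Filter Asymptotics in
/-- Comparing exponential decay rates along `atImInfty`. -/
lemma sep_exp_isBigO_imp_le {a b : ℝ}
    (h : (fun τ : ℍ => Real.exp (-a * τ.im)) =O[atImInfty] (fun τ : ℍ => Real.exp (-b * τ.im))) :
    b ≤ a := by
  by_contra hlt
  push Not at hlt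
  obtain ⟨c, hc⟩ := h.bound
  rw [Filter.Eventually, UpperHalfPlane.atImInfty_mem] at hc
  obtain ⟨A, hA⟩ := hc
  set y : ℝ := max A 1 + |c| / (b - a) + 1 with hy
  have hba : 0 < b - a := sub_pos.mpr hlt
  have hy1 : 1 ≤ y := by
    have : 0 ≤ |c| / (b - a) := div_nonneg (abs_nonneg _) hba.le
    have := le_max_right A 1
    linarith
  have hyA : A ≤ y := by
    have : 0 ≤ |c| / (b - a) := div_nonneg (abs_nonneg _) hba.le
    have := le_max_left A 1
    linarith
  have hypos : 0 < y := by linarith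
  have key := hA ⟨⟨0, y⟩, by simpa using hypos⟩ (by simpa using hyA)
  simp only [Set.mem_ofPred_eq, Real.norm_eq_abs, abs_of_pos (Real.exp_pos _)] at key
  have him : (⟨⟨0, y⟩, by simpa using hypos⟩ : ℍ).im = y := rfl
  rw [him] at key
  have h1 : Real.exp ((b - a) * y) ≤ c := by
    have h2 : Real.exp (-a * y) = Real.exp ((b - a) * y) * Real.exp (-b * y) := by
      rw [← Real.exp_add]; congr 1; ring
    rw [h2] at key
    have h3 : 0 < Real.exp (-b * y) := Real.exp_pos _
    exact le_of_mul_le_mul_right key h3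
  have h4 : (b - a) * y + 1 ≤ Real.exp ((b - a) * y) := Real.add_one_le_exp _
  have h5 : |c| < (b - a) * y := by
    have : (b - a) * y = (b - a) * (max A 1 + 1) + |c| := by
      rw [hy]; field_simp; ring
    rw [this]
    have : 0 < (b - a) * (max A 1 + 1) := by
      apply mul_pos hba
      have := le_max_right A 1
      linarith
    linarith
  have h6 : c ≤ |c| := le_abs_self c
  linarith

lemma sep_det_upper (a b d : ℝ) (had : a * d ≠ 0) :
    ((upperTriangularGL a b d had).det : ℝ) = a * d := by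
  rw [Matrix.GeneralLinearGroup.val_det_apply, val_upperTriangularGL, Matrix.det_fin_two_of]
  ring

lemma sep_denom_upper (a b d : ℝ) (had : a * d ≠ 0) (τ : ℍ) :
    denom (upperTriangularGL a b d had) τ = d := by
  simp [denom, val_upperTriangularGL]

/-- Slash by an upper triangular matrix with positive diagonal entries. -/
lemma sep_slash_upper_apply (k : ℤ) {a d : ℝ} (b : ℝ) (ha : 0 < a) (hd : 0 < d) (f : ℍ → ℂ)
    (τ : ℍ) :
    (f ∣[k] upperTriangularGL a b d (mul_pos ha hd).ne') τ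
      = f (upperTriangularGL a b d (mul_pos ha hd).ne' • τ) * ((a * d : ℝ) : ℂ) ^ (k - 1)
          * (d : ℂ) ^ (-k) := by
  rw [ModularForm.slash_apply]
  have hσ : σ (upperTriangularGL a b d (mul_pos ha hd).ne') = .refl ℝ ℂ := by
    rw [UpperHalfPlane.σ, if_pos (by rw [sep_det_upper]; exact mul_pos ha hd)]
  rw [hσ, sep_det_upper, sep_denom_upper, abs_of_pos (mul_pos ha hd)]
  simp

lemma sep_im_upper_smul {a d : ℝ} (b : ℝ) (ha : 0 < a) (hd : 0 < d) (τ : ℍ) :
    (upperTriangularGL a b d (mul_pos ha hd).ne' • τ).im = a / d * τ.im := by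
  rw [UpperHalfPlane.im_smul_eq_div_normSq, sep_det_upper, sep_denom_upper,
    abs_of_pos (mul_pos ha hd), Complex.normSq_ofReal]
  field_simp

/-- `diag(N, 1)`. -/
noncomputable def sepAlpha (N : ℕ) [NeZero N] : GL (Fin 2) ℝ :=
  upperTriangularGL N 0 1 (by rw [mul_one]; exact_mod_cast NeZero.ne N)

/-- The separating form `N¹¹ Δ(N z)`. -/
noncomputable def sepForm (N : ℕ) [NeZero N] : ℍ → ℂ :=
  ModularForm.discriminant ∣[(12 : ℤ)] sepAlpha N

lemma sepForm_slash_SL (N : ℕ) [NeZero N] (g : SL(2, ℤ)) :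
    ∃ (h D : ℕ) (B : ℤ) (hh : 0 < (h : ℝ)) (hD : 0 < (D : ℝ)),
      h * D = N ∧ ((h : ℤ) ∣ g 1 0) ∧
      sepForm N ∣[(12 : ℤ)] g =
        ModularForm.discriminant ∣[(12 : ℤ)] upperTriangularGL h B D (mul_pos hh hD).ne' := by
  obtain ⟨g', h, D, B, hne, hhD, hdvd, hmat⟩ := sep_decomp N (NeZero.ne N) g
  have hh : 0 < (h : ℝ) := by
    have : h ≠ 0 := by rintro rfl; simp at hne
    exact_mod_cast Nat.pos_of_ne_zero this
  have hD : 0 < (D : ℝ) := by
    have : D ≠ 0 := by rintro rfl; simp at hne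
    exact_mod_cast Nat.pos_of_ne_zero this
  refine ⟨h, D, B, hh, hD, hhD, hdvd, ?_⟩
  rw [sepForm, SL_slash, ← SlashAction.slash_mul, sepAlpha, hmat, SlashAction.slash_mul,
    sep_discriminant_slash]

lemma sep_conj_mem (N : ℕ) [NeZero N] (γ : SL(2, ℤ)) (hγ : γ ∈ Gamma0 N) :
    ∃ γ' : SL(2, ℤ), sepAlpha N * (γ : GL (Fin 2) ℝ) = (γ' : GL (Fin 2) ℝ) * sepAlpha N := by
  rw [Gamma0_mem, ZMod.intCast_zmod_eq_zero_iff_dvd] at hγ
  obtain ⟨c', hc'⟩ := hγ
  have hdet : γ 0 0 * γ 1 1 - γ 0 1 * γ 1 0 = 1 := by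
    have := γ.det_coe
    rw [Matrix.det_fin_two] at this
    exact this
  refine ⟨⟨!![γ 0 0, N * γ 0 1; c', γ 1 1], ?_⟩, ?_⟩
  · rw [Matrix.det_fin_two_of]; rw [hc'] at hdet; linear_combination hdet
  · have r10 : (γ 1 0 : ℝ) = (N : ℝ) * (c' : ℝ) := by exact_mod_cast hc'
    apply Matrix.GeneralLinearGroup.ext
    intro i j
    fin_cases i <;> fin_cases j <;>
      simp [sepAlpha, Matrix.mul_apply, Fin.sum_univ_two, r10, mul_comm]

lemma sepForm_isMF (N : ℕ) [NeZero N] : IsMF N 12 (sepForm N) where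
  holo := (CuspForm.discriminant).holo'.slash 12 _
  slash γ hγ := by
    obtain ⟨γ', hγ'⟩ := sep_conj_mem N γ hγ
    rw [sepForm, SL_slash, ← SlashAction.slash_mul, hγ', SlashAction.slash_mul,
      sep_discriminant_slash]
  bdd g := by
    obtain ⟨h, D, B, hh, hD, hhD, hdvd, hslash⟩ := sepForm_slash_SL N g
    rw [hslash]
    exact IsBoundedAtImInfty.slash 12 (by simp [sep_upper_apply])
      discriminant_isZeroAtImInfty.boundedAtFilter

open Filter Asymptotics in
lemma sepForm_separates (N : ℕ) [NeZero N] (g : SL(2, ℤ))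
    (hg : sepForm N ∣[(12 : ℤ)] g = sepForm N) : g ∈ Gamma0 N := by
  obtain ⟨h, D, B, hh, hD, hhD, hdvd, hslash⟩ := sepForm_slash_SL N g
  rw [hslash] at hg
  have hN : 0 < (N : ℝ) := by exact_mod_cast Nat.pos_of_ne_zero (NeZero.ne N)
  have hhDr : (h : ℝ) * (D : ℝ) = N := by exact_mod_cast hhD
  have key : ∀ τ : ℍ,
      ModularForm.discriminant (upperTriangularGL h B D (mul_pos hh hD).ne' • τ)
      = (D : ℂ) ^ (12 : ℕ) *
        ModularForm.discriminant (upperTriangularGL N 0 1 (mul_pos hN one_pos).ne' • τ) := by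
    intro τ
    have h1 := congrFun hg τ
    rw [sepForm, sepAlpha, sep_slash_upper_apply 12 B hh hD,
      sep_slash_upper_apply 12 0 hN one_pos] at h1
    have hNc : (N : ℂ) ≠ 0 := by exact_mod_cast NeZero.ne N
    have hDc : (D : ℂ) ≠ 0 := by
      have : (D : ℝ) ≠ 0 := hD.ne'
      exact_mod_cast this
    have e : (((h : ℝ) * (D : ℝ) : ℝ) : ℂ) = (N : ℂ) := by rw [hhDr]; simp
    rw [e] at h1
    simp only [mul_one, Complex.ofReal_natCast, Complex.ofReal_one, one_zpow] at h1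
    have h2 : ((N : ℂ) ^ ((12 : ℤ) - 1)) ≠ 0 := zpow_ne_zero _ hNc
    have h3 : ModularForm.discriminant (upperTriangularGL h B D (mul_pos hh hD).ne' • τ)
        * (D : ℂ) ^ (-(12 : ℤ))
        = ModularForm.discriminant (upperTriangularGL N 0 1 (mul_pos hN one_pos).ne' • τ) := by
      have h4 : ModularForm.discriminant (upperTriangularGL h B D (mul_pos hh hD).ne' • τ)
          * (D : ℂ) ^ (-(12 : ℤ)) * (N : ℂ) ^ ((12 : ℤ) - 1)
          = ModularForm.discriminant (upperTriangularGL N 0 1 (mul_pos hN one_pos).ne' • τ)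
            * (N : ℂ) ^ ((12 : ℤ) - 1) := by
        rw [← h1]; ring
      exact mul_right_cancel₀ h2 h4
    rw [← h3]
    generalize ModularForm.discriminant (upperTriangularGL h B D (mul_pos hh hD).ne' • τ) = X
    rw [zpow_neg, show ((12 : ℤ)) = ((12 : ℕ) : ℤ) by rfl, zpow_natCast]
    field_simp
  set β : GL (Fin 2) ℝ := upperTriangularGL h B D (mul_pos hh hD).ne' with hβ
  set α : GL (Fin 2) ℝ := upperTriangularGL N 0 1 (mul_pos hN one_pos).ne' with hα
  have hβ10 : (β : Matrix (Fin 2) (Fin 2) ℝ) 1 0 = 0 := by simp [hβ, sep_upper_apply]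
  have hα10 : (α : Matrix (Fin 2) (Fin 2) ℝ) 1 0 = 0 := by simp [hα, sep_upper_apply]
  have lower := exp_isBigO_discriminant.comp_tendsto (tendsto_smul_atImInfty hβ10)
  have upper := (CuspFormClass.exp_decay_atImInfty (h := 1) CuspForm.discriminant one_pos
    one_mem_strictPeriods_SL).comp_tendsto (tendsto_smul_atImInfty hα10)
  have mid : (fun τ : ℍ => ModularForm.discriminant (β • τ))
      =O[atImInfty] (fun τ : ℍ => ModularForm.discriminant (α • τ)) := by
    have : (fun τ : ℍ => ModularForm.discriminant (β • τ))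
        = fun τ : ℍ => (D : ℂ) ^ (12 : ℕ) * ModularForm.discriminant (α • τ) := funext key
    rw [this]
    exact (isBigO_refl _ _).const_mul_left _
  have all : (fun τ : ℍ => Real.exp (-(2 * Real.pi * (h / D)) * τ.im))
      =O[atImInfty] (fun τ : ℍ => Real.exp (-(2 * Real.pi * N) * τ.im)) := by
    have e1 : (fun τ : ℍ => Real.exp (-(2 * Real.pi * (h / D)) * τ.im))
        = (fun τ : ℍ => Real.exp (-2 * Real.pi * τ.im)) ∘ (fun τ : ℍ => β • τ) := by
      funext τ
      simp only [Function.comp_apply, hβ, sep_im_upper_smul B hh hD]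
      congr 1; ring
    have e2 : (fun τ : ℍ => Real.exp (-(2 * Real.pi * N) * τ.im))
        = (fun τ : ℍ => Real.exp (-2 * Real.pi * τ.im / 1)) ∘ (fun τ : ℍ => α • τ) := by
      funext τ
      simp only [Function.comp_apply, hα, sep_im_upper_smul 0 hN one_pos]
      congr 1; ring
    rw [e1, e2]
    exact (lower.trans mid).trans upper
  have hle := sep_exp_isBigO_imp_le all
  -- `N ≤ h / D`
  have h1 : (N : ℝ) ≤ h / D := by
    have hpi : 0 < 2 * Real.pi := by positivity
    exact le_of_mul_le_mul_left hle hpi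
  have h2 : (N : ℝ) * D ≤ h := by rwa [le_div_iff₀ hD] at h1
  have h3 : (h : ℝ) * D * D ≤ h * 1 := by rw [hhDr, mul_one]; exact h2
  have hDone : D = 1 := by
    have hD1 : 1 ≤ D := by
      have : (0 : ℝ) < D := hD
      exact_mod_cast this
    have h4 : (D : ℝ) * D ≤ 1 := by
      have : (h : ℝ) * (D * D) ≤ h * 1 := by rw [← mul_assoc]; exact h3
      exact le_of_mul_le_mul_left this hh
    have h5 : D * D ≤ 1 := by exact_mod_cast h4
    nlinarith
  rw [hDone, mul_one] at hhD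
  rw [Gamma0_mem, ZMod.intCast_zmod_eq_zero_iff_dvd, ← hhD]
  exact hdvd

theorem exists_separating_form (N : ℕ) [NeZero N] :
    ∃ f : ℍ → ℂ, IsMF N 12 f ∧ ∀ g : SL(2, ℤ), f ∣[(12 : ℤ)] g = f → g ∈ Gamma0 N :=
  ⟨sepForm N, sepForm_isMF N, sepForm_separates N⟩

end Fermat.Agent.S20
end MergeWrap_S20_Separating

section MergeWrap_S20_GensRank -- from S20/GensRank.lean

set_option autoImplicit false
set_option linter.unusedSectionVars false
set_option linter.style.haveILetI false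

namespace Fermat.Agent.S20

open UpperHalfPlane hiding I
open ModularForm CongruenceSubgroup Filter Topology Complex
open scoped MatrixGroups ModularForm Manifold Real

local notation "Δ" => ModularForm.discriminant

namespace GensRankAux

variable {N : ℕ} [NeZero N]

instance finite_cosetX : Finite (CosetX N) := by
  unfold CosetX
  infer_instance

/-- slash of a power by an element of `SL(2,ℤ)`. -/
lemma pow_slash_SL (f : ℍ → ℂ) (k : ℤ) (g : SL(2, ℤ)) (l : ℕ) :
    (f ^ l) ∣[(l : ℤ) * k] g = (f ∣[k] g) ^ l := by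
  induction l with
  | zero =>
    simp only [Nat.cast_zero, zero_mul, pow_zero]
    exact ModularForm.is_invariant_one g
  | succ l ih =>
    rw [pow_succ, pow_succ, ← ih, ← ModularForm.mul_slash_SL2]
    congr 1
    push_cast
    ring

/-- translate of a power. -/
lemma tr_pow (f : ℍ → ℂ) (k : ℤ) (x : CosetX N) (l : ℕ) :
    tr N ((l : ℤ) * k) (f ^ l) x = (tr N k f x) ^ l := by
  unfold tr
  exact pow_slash_SL f k _ l

/-- powers of modular forms are modular forms. -/
lemma isMF_pow {k : ℤ} {f : ℍ → ℂ} (hf : IsMF N k f) (l : ℕ) : IsMF N ((l : ℤ) * k) (f ^ l) := by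
  induction l with
  | zero =>
    simp only [Nat.cast_zero, zero_mul, pow_zero]
    exact IsMF.const (N := N) 1
  | succ l ih =>
    rw [pow_succ]
    exact (ih.mul hf).cast (by push_cast; ring)

omit [NeZero N] in
lemma tr_mul_of_one' {k k' l : ℤ} (hk : k' + l = k) {P : ℍ → ℂ} (hP : IsMF 1 k' P) (f : ℍ → ℂ)
    (x : CosetX N) : tr N k (P * f) x = P * tr N l f x := by
  subst hk
  exact tr_mul_of_one hP f x

/-- the translates of the separating form are pairwise distinct functions. -/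
lemma tr_sepForm_injective :
    Function.Injective (fun x : CosetX N => tr N 12 (sepForm N) x) := by
  intro x y h
  induction x using QuotientGroup.induction_on with
  | H a =>
    induction y using QuotientGroup.induction_on with
    | H b =>
      simp only at h
      rw [(sepForm_isMF N).tr_mk, (sepForm_isMF N).tr_mk] at h
      have h2 : sepForm N ∣[(12 : ℤ)] (a⁻¹ * b) = sepForm N := by
        rw [SlashAction.slash_mul, h, ← SlashAction.slash_mul, inv_mul_cancel,
          SlashAction.slash_one]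
      exact QuotientGroup.eq.mpr (sepForm_separates N _ h2)

/-- Vandermonde: powers of pairwise distinct numbers are linearly independent. -/
lemma linearIndependent_pow_of_injective {X : Type} [Fintype X] (t : X → ℂ)
    (ht : Function.Injective t) :
    LinearIndependent ℂ (fun l : Fin (Fintype.card X) => fun x : X => t x ^ (l : ℕ)) := by
  rw [Fintype.linearIndependent_iff]
  intro c hc
  have e := (Fintype.equivFin X).symm
  have key : c = 0 := by
    apply Matrix.eq_zero_of_forall_index_sum_mul_pow_eq_zero (f := fun i => t (e i))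
      (ht.comp e.injective)
    intro j
    have := congrFun hc (e j)
    simpa [Finset.sum_apply, Pi.smul_apply, smul_eq_mul] using this
  intro l
  rw [key]
  rfl

/-- a point where finitely many pairwise distinct holomorphic functions take pairwise distinct
values. -/
lemma exists_point_injective {X : Type} [Finite X] (φ : X → ℍ → ℂ) (hφ : ∀ x, MDiff (φ x))
    (hinj : Function.Injective φ) : ∃ z₀ : ℍ, Function.Injective (fun x => φ x z₀) := by
  classical
  set U : Set ℂ := {z | 0 < z.im} with hU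
  have hUo : IsOpen U := isOpen_lt continuous_const Complex.continuous_im
  have hUc : IsPreconnected U := (convex_halfSpace_im_gt 0).isPreconnected
  have han : ∀ x, AnalyticOnNhd ℂ (φ x ∘ ofComplex) U := fun x =>
    (UpperHalfPlane.mdifferentiable_iff.mp (hφ x)).analyticOnNhd hUo
  have hne : ∀ p : X × X, ∀ᶠ z in codiscreteWithin U,
      p.1 ≠ p.2 → (φ p.1 ∘ ofComplex) z ≠ (φ p.2 ∘ ofComplex) z := by
    rintro ⟨x, y⟩
    by_cases hxy : x = y
    · exact Eventually.of_forall fun z h => absurd hxy h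
    rcases (han x).eqOn_or_eventually_ne_of_preconnected (han y) hUc with h | h
    · exfalso
      apply hxy
      apply hinj
      funext τ
      have := h (show (τ : ℂ) ∈ U from τ.im_pos)
      simpa [Function.comp_apply, ofComplex_apply] using this
    · exact h.mono fun z hz _ => hz
  have hall := (eventually_all.mpr hne).and (eventually_of_mem (self_mem_codiscreteWithin U)
    fun z hz => hz)
  have hI : (Complex.I : ℂ) ∈ U := by simp [hU]
  have hmem := mem_codiscreteWithin.mp hall Complex.I hI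
  -- the bad set is disjoint from a punctured neighbourhood of `I`
  rw [disjoint_principal_right] at hmem
  have hU' : U ∈ 𝓝[≠] (Complex.I : ℂ) := mem_nhdsWithin_of_mem_nhds (hUo.mem_nhds hI)
  obtain ⟨z, hz⟩ := Filter.nonempty_of_mem (f := 𝓝[≠] (Complex.I : ℂ)) (Filter.inter_mem hmem hU')
  obtain ⟨hz1, hz2⟩ := hz
  have hz3 : z ∈ {z | (∀ p : X × X, p.1 ≠ p.2 → (φ p.1 ∘ ofComplex) z ≠ (φ p.2 ∘ ofComplex) z) ∧
      z ∈ U} := by
    by_contra hcon
    exact hz1 ⟨hz2, hcon⟩
  refine ⟨⟨z, hz2⟩, fun x y hxy => ?_⟩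
  by_contra hne'
  apply hz3.1 (x, y) hne'
  simp only [Function.comp_apply]
  rw [ofComplex_apply_of_im_pos hz2]
  exact hxy

end GensRankAux

namespace Gens

variable {N : ℕ} [NeZero N] (𝔊 : Gens N)

open GensRankAux

/-! ### (G3) rank -/

lemma finite_J : Finite 𝔊.J :=
  (𝔊.linearIndependent_vec UpperHalfPlane.I).finite

lemma card_J_le : Nat.card 𝔊.J ≤ Nat.card (CosetX N) := by
  have := 𝔊.finite_J
  letI : Fintype 𝔊.J := Fintype.ofFinite _
  letI : Fintype (CosetX N) := Fintype.ofFinite _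
  have h := (𝔊.linearIndependent_vec UpperHalfPlane.I).fintype_card_le_finrank
  rw [Module.finrank_fintype_fun_eq_card] at h
  rwa [Nat.card_eq_fintype_card, Nat.card_eq_fintype_card]

/-- the evaluation vector of any modular form lies in the span of the `vec j z`. -/
lemma ev_mem_span {k : ℤ} {f : ℍ → ℂ} (hf : IsMF N k f) (z : ℍ) :
    (fun x : CosetX N => tr N k f x z) ∈
      Submodule.span ℂ (Set.range (fun j => 𝔊.vec j z)) := by
  obtain ⟨s, P, hP, rfl⟩ := 𝔊.gen k f hf
  have : (fun x : CosetX N => tr N k (∑ j ∈ s, P j * 𝔊.F j) x z)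
      = ∑ j ∈ s, P j z • 𝔊.vec j z := by
    funext x
    rw [tr_sum, Finset.sum_apply, Finset.sum_apply]
    refine Finset.sum_congr rfl fun j hj => ?_
    rw [tr_mul_of_one' (show k - 𝔊.κ j + 𝔊.κ j = k by ring) (hP j hj)]
    simp [vec]
  rw [this]
  exact Submodule.sum_mem _ fun j _ =>
    Submodule.smul_mem _ _ (Submodule.subset_span ⟨j, rfl⟩)

/-- `|J| = n`.  (≥): take the separating form `f₀` (Separating.lean); its translates `tr N 12 f₀ x` are pairwise distinct
functions; pick a generic `z₀` where their values are pairwise distinct; with monomials `G_l` of weight `K - 12 l`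
the vectors `ev(G_l f₀^l)`, `l < n`, form a Vandermonde system, so evaluation `M_K(Γ₀(N)) → ℂ^X` is onto; but its image lies
in the span of the `vec j z₀`. -/
lemma card_J : Nat.card 𝔊.J = Nat.card (CosetX N) := by
  refine le_antisymm 𝔊.card_J_le ?_
  have := 𝔊.finite_J
  letI : Fintype 𝔊.J := Fintype.ofFinite _
  letI : Fintype (CosetX N) := Fintype.ofFinite _
  obtain ⟨z₀, hz₀⟩ := exists_point_injective (fun x : CosetX N => tr N 12 (sepForm N) x)
    (fun x => (sepForm_isMF N).tr_holo x) tr_sepForm_injective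
  have hli := linearIndependent_pow_of_injective _ hz₀
  have hspan : Submodule.span ℂ (Set.range
      (fun l : Fin (Fintype.card (CosetX N)) => fun x : CosetX N =>
        (tr N 12 (sepForm N) x z₀) ^ (l : ℕ)))
      ≤ Submodule.span ℂ (Set.range (fun j => 𝔊.vec j z₀)) := by
    rw [Submodule.span_le]
    rintro _ ⟨l, rfl⟩
    have h1 := 𝔊.ev_mem_span (isMF_pow (sepForm_isMF N) (l : ℕ)) z₀
    have h2 : (fun x : CosetX N => tr N ((l : ℕ) * 12) (sepForm N ^ (l : ℕ)) x z₀)
        = fun x : CosetX N => (tr N 12 (sepForm N) x z₀) ^ (l : ℕ) := by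
      funext x
      rw [tr_pow]
      rfl
    rw [h2] at h1
    exact h1
  have h3 := Submodule.finrank_mono hspan
  rw [finrank_span_eq_card hli, finrank_span_eq_card (𝔊.linearIndependent_vec z₀),
    Fintype.card_fin] at h3
  rwa [Nat.card_eq_fintype_card, Nat.card_eq_fintype_card]

end Gens

end Fermat.Agent.S20
end MergeWrap_S20_GensRank

section MergeWrap_S20_GensCount -- from S20/GensCount.lean

set_option autoImplicit false
set_option linter.unusedSectionVars false

namespace Fermat.Agent.S20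

open UpperHalfPlane hiding I
open ModularForm CongruenceSubgroup Filter Topology Complex
open scoped MatrixGroups ModularForm Manifold Real

local notation "Δ" => ModularForm.discriminant

namespace GensCountAux

/-- Abstract counting: a linearly independent family of `dim V` vectors, each lying in one of finitely many
subspaces whose dimensions add up to `dim V`, has exactly `dim E i` members in class `i`. -/
lemma card_class_eq_finrank {V : Type} [AddCommGroup V] [Module ℂ V] [FiniteDimensional ℂ V]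
    {J : Type} [Finite J] {ι : Type} [Fintype ι] [DecidableEq ι] (v : J → V)
    (hv : LinearIndependent ℂ v) (c : J → ι) (E : ι → Submodule ℂ V)
    (hmem : ∀ j, v j ∈ E (c j))
    (hsum : ∑ i, Module.finrank ℂ (E i) = Nat.card J) (i : ι) :
    Nat.card {j : J // c j = i} = Module.finrank ℂ (E i) := by
  classical
  have : Fintype J := Fintype.ofFinite J
  have hle : ∀ i, Nat.card {j : J // c j = i} ≤ Module.finrank ℂ (E i) := by
    intro i
    let w : {j : J // c j = i} → E i := fun j => ⟨v j.1, by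
      have h := hmem j.1
      rwa [j.2] at h⟩
    have hw : LinearIndependent ℂ w := by
      apply LinearIndependent.of_comp (E i).subtype
      exact hv.comp (fun j : {j : J // c j = i} => j.1) Subtype.val_injective
    rw [Nat.card_eq_fintype_card]
    exact hw.fintype_card_le_finrank
  have htot : ∑ i, Nat.card {j : J // c j = i} = Nat.card J := by
    rw [Nat.card_eq_fintype_card, ← Finset.card_univ,
      Finset.card_eq_sum_card_fiberwise (f := c) (s := Finset.univ) (t := Finset.univ)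
        (fun _ _ => Finset.mem_univ _)]
    refine Finset.sum_congr rfl fun i _ => ?_
    rw [Nat.card_eq_fintype_card, Fintype.card_subtype]
  have := (Finset.sum_eq_sum_iff_of_le (fun i _ => hle i)).mp (htot.trans hsum.symm)
  exact this i (Finset.mem_univ i)

lemma I_zpow_four : (Complex.I : ℂ) ^ (4 : ℤ) = 1 := by
  have : (Complex.I : ℂ) ^ (4 : ℤ) = Complex.I ^ (4 : ℕ) := by norm_cast
  rw [this, Complex.I_pow_four]

lemma I_zpow_neg_of_four_dvd {k : ℤ} (h : (4 : ℤ) ∣ k) : Complex.I ^ (-k) = 1 := by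
  obtain ⟨t, rfl⟩ := h
  rw [← mul_neg, zpow_mul, I_zpow_four, one_zpow]

lemma I_zpow_neg_of_even_not_four_dvd {k : ℤ} (he : Even k) (h : ¬ (4 : ℤ) ∣ k) :
    Complex.I ^ (-k) = -1 := by
  obtain ⟨r, hr⟩ := he
  have hodd : Odd r := by
    rcases Int.even_or_odd r with ⟨s, hs⟩ | ho
    · exact absurd ⟨s, by rw [hr, hs]; ring⟩ h
    · exact ho
  obtain ⟨s, hs⟩ := hodd
  have hk : -k = 4 * (-s - 1) + 2 := by rw [hr, hs]; ring
  rw [hk, zpow_add₀ Complex.I_ne_zero, zpow_mul, I_zpow_four, one_zpow, one_mul]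
  have : (Complex.I : ℂ) ^ (2 : ℤ) = Complex.I ^ (2 : ℕ) := by norm_cast
  rw [this, Complex.I_sq]

/-- fixed points of `g⁻¹` as a permutation = fixed points of `g`. -/
lemma card_fixed_toPerm_inv {G X : Type} [Group G] [MulAction G X] (g : G) :
    Nat.card {x : X // (MulAction.toPerm g⁻¹ : Equiv.Perm X) x = x} =
      Nat.card (MulAction.fixedBy X g) := by
  refine Nat.card_congr (Equiv.subtypeEquivRight fun x => ?_)
  simp only [MulAction.toPerm_apply, MulAction.mem_fixedBy]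
  rw [inv_smul_eq_iff, eq_comm]

end GensCountAux

namespace Gens

open GensCountAux

variable {N : ℕ} [NeZero N] (𝔊 : Gens N)

/-! ### (G4) counts at the elliptic points -/

lemma two_mul_card_four_dvd :
    2 * Nat.card {j : 𝔊.J // (4 : ℤ) ∣ 𝔊.κ j} = Nat.card (CosetX N) + ModularCurve.nuTwo N := by
  classical
  have : Finite 𝔊.J := 𝔊.finite_J
  let _ : Fintype (CosetX N) := Fintype.ofFinite _
  let c : 𝔊.J → Fin 2 := fun j => if (4 : ℤ) ∣ 𝔊.κ j then 0 else 1
  let E : Fin 2 → Submodule ℂ (CosetX N → ℂ) :=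
    ![permEigen (permS N) 1, permEigen (permS N) (-1)]
  have hmem : ∀ j, 𝔊.vec j UpperHalfPlane.I ∈ E (c j) := by
    intro j
    have h := 𝔊.vec_I_mem_permEigen j
    by_cases h4 : (4 : ℤ) ∣ 𝔊.κ j
    · have hc : c j = 0 := if_pos h4
      rw [hc]
      rw [I_zpow_neg_of_four_dvd h4] at h
      exact h
    · have hc : c j = 1 := if_neg h4
      rw [hc]
      rw [I_zpow_neg_of_even_not_four_dvd (𝔊.κ_even j) h4] at h
      exact h
  have h1 := finrank_permEigen_two_one (permS N) (permS_mul_self (N := N))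
  have h2 := finrank_permEigen_two_neg_one (permS N) (permS_mul_self (N := N))
  rw [← Nat.card_eq_fintype_card, ← Nat.card_eq_fintype_card] at h1 h2
  have hfix : Nat.card {x : CosetX N // (permS N) x = x} = ModularCurve.nuTwo N := by
    rw [← card_fixedBy_S N]
    exact card_fixed_toPerm_inv ModularGroup.S
  rw [hfix] at h1 h2
  have hsum : ∑ i, Module.finrank ℂ (E i) = Nat.card 𝔊.J := by
    rw [Fin.sum_univ_two, 𝔊.card_J]
    have e0 : Module.finrank ℂ (E 0) = Module.finrank ℂ (permEigen (permS N) 1) := rfl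
    have e1 : Module.finrank ℂ (E 1) = Module.finrank ℂ (permEigen (permS N) (-1)) := rfl
    rw [e0, e1]
    clear_value E c
    omega
  have key := card_class_eq_finrank (fun j => 𝔊.vec j UpperHalfPlane.I)
    𝔊.linearIndependent_vec_I c E hmem hsum 0
  have hcongr : Nat.card {j : 𝔊.J // (4 : ℤ) ∣ 𝔊.κ j} = Nat.card {j : 𝔊.J // c j = 0} := by
    refine Nat.card_congr (Equiv.subtypeEquivRight fun j => ?_)
    simp only [c]
    split_ifs with h <;> simp [h]
  rw [hcongr, key]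
  exact h1

/-! the point `ρ` -/

section rho

/-- `d = denom (S*T) ρ = ρ + 1`, a primitive sixth root of unity. -/
noncomputable def dRho : ℂ := denom (ModularGroup.S * ModularGroup.T) ellRho

lemma dRho_eq : dRho ^ 2 - dRho + 1 = 0 := denom_ST_ellRho

lemma dRho_ne_zero : dRho ≠ 0 := by
  intro h
  have := dRho_eq
  rw [h] at this
  norm_num at this

lemma dRho_pow_three : dRho ^ 3 = -1 := by
  linear_combination (dRho + 1) * dRho_eq

lemma dRho_zpow_six : dRho ^ (6 : ℤ) = 1 := by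
  have : dRho ^ (6 : ℤ) = dRho ^ (6 : ℕ) := by norm_cast
  rw [this, show (6 : ℕ) = 3 * 2 from rfl, pow_mul, dRho_pow_three]
  norm_num

lemma dRho_zpow_neg_two : dRho ^ (-2 : ℤ) = -dRho := by
  have h6 := dRho_zpow_six
  have h4 : dRho ^ (-2 : ℤ) = dRho ^ (6 : ℤ) * dRho ^ (-2 : ℤ) := by rw [h6, one_mul]
  rw [h4, ← zpow_add₀ dRho_ne_zero]
  have : dRho ^ ((6 : ℤ) + -2) = dRho ^ (4 : ℕ) := by norm_cast
  rw [this]
  linear_combination dRho * dRho_pow_three

lemma dRho_zpow_neg_four : dRho ^ (-4 : ℤ) = dRho - 1 := by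
  have h6 := dRho_zpow_six
  have h4 : dRho ^ (-4 : ℤ) = dRho ^ (6 : ℤ) * dRho ^ (-4 : ℤ) := by rw [h6, one_mul]
  rw [h4, ← zpow_add₀ dRho_ne_zero]
  have : dRho ^ ((6 : ℤ) + -4) = dRho ^ (2 : ℕ) := by norm_cast
  rw [this]
  linear_combination dRho_eq

lemma dRho_zpow_neg (t r : ℤ) : dRho ^ (-(6 * t + r)) = dRho ^ (-r) := by
  rw [neg_add, zpow_add₀ dRho_ne_zero, ← mul_neg, zpow_mul, dRho_zpow_six, one_zpow, one_mul]

end rho

/-- the class of a weight mod 6 -/
noncomputable def cls6 (k : ℤ) : Fin 3 :=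
  if (6 : ℤ) ∣ k then 0 else if k % 6 = 2 then 1 else 2

/-- the eigenvalue attached to a class -/
noncomputable def eig6 : Fin 3 → ℂ := ![1, -dRho, dRho - 1]

lemma zpow_neg_eq_eig6 {k : ℤ} (he : Even k) : dRho ^ (-k) = eig6 (cls6 k) := by
  have hk := Int.emod_add_mul_ediv k 6
  have h0 := Int.emod_nonneg k (show (6 : ℤ) ≠ 0 by norm_num)
  have h6 := Int.emod_lt_of_pos k (show (0 : ℤ) < 6 by norm_num)
  obtain ⟨r, hr⟩ := he
  have hcases : k % 6 = 0 ∨ k % 6 = 2 ∨ k % 6 = 4 := by omega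
  have hk' : k = 6 * (k / 6) + k % 6 := by omega
  rcases hcases with h | h | h
  · have hd : (6 : ℤ) ∣ k := Int.dvd_of_emod_eq_zero h
    rw [cls6, if_pos hd]
    rw [hk', dRho_zpow_neg, h]
    simp [eig6]
  · have hd : ¬ (6 : ℤ) ∣ k := fun hd => by
      have := Int.emod_eq_zero_of_dvd hd
      omega
    rw [cls6, if_neg hd, if_pos h]
    rw [hk', dRho_zpow_neg, h, dRho_zpow_neg_two]
    simp [eig6]
  · have hd : ¬ (6 : ℤ) ∣ k := fun hd => by
      have := Int.emod_eq_zero_of_dvd hd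
      omega
    have h2 : ¬ k % 6 = 2 := by omega
    rw [cls6, if_neg hd, if_neg h2]
    rw [hk', dRho_zpow_neg, h, dRho_zpow_neg_four]
    simp [eig6]

lemma card_cls6 (i : Fin 3) :
    Nat.card {j : 𝔊.J // cls6 (𝔊.κ j) = i} =
      Module.finrank ℂ (permEigen (permST N) (eig6 i)) := by
  classical
  have : Finite 𝔊.J := 𝔊.finite_J
  let _ : Fintype (CosetX N) := Fintype.ofFinite _
  let E : Fin 3 → Submodule ℂ (CosetX N → ℂ) := fun i => permEigen (permST N) (eig6 i)
  have hmem : ∀ j, 𝔊.vec j ellRho ∈ E (cls6 (𝔊.κ j)) := by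
    intro j
    have h := 𝔊.vec_ellRho_mem_permEigen j
    have e : denom (ModularGroup.S * ModularGroup.T) ellRho ^ (-𝔊.κ j) = eig6 (cls6 (𝔊.κ j)) :=
      zpow_neg_eq_eig6 (𝔊.κ_even j)
    rw [e] at h
    exact h
  have h1 := finrank_permEigen_three_one (permST N) (permST_pow_three (N := N))
  have h2 := finrank_permEigen_three_omega (permST N) (permST_pow_three (N := N)) (-dRho)
    (by linear_combination dRho_eq)
  have h3 := finrank_permEigen_three_omega (permST N) (permST_pow_three (N := N)) (dRho - 1)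
    (by linear_combination dRho_eq)
  rw [← Nat.card_eq_fintype_card, ← Nat.card_eq_fintype_card] at h1 h2 h3
  have hsum : ∑ i, Module.finrank ℂ (E i) = Nat.card 𝔊.J := by
    rw [Fin.sum_univ_three, 𝔊.card_J]
    have e0 : Module.finrank ℂ (E 0) = Module.finrank ℂ (permEigen (permST N) 1) := rfl
    have e1 : Module.finrank ℂ (E 1) = Module.finrank ℂ (permEigen (permST N) (-dRho)) := rfl
    have e2 : Module.finrank ℂ (E 2) = Module.finrank ℂ (permEigen (permST N) (dRho - 1)) := rfl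
    rw [e0, e1, e2]
    clear_value E
    omega
  exact card_class_eq_finrank (fun j => 𝔊.vec j ellRho)
    𝔊.linearIndependent_vec_ellRho (fun j => cls6 (𝔊.κ j)) E hmem hsum i

lemma card_fixed_permST :
    Nat.card {x : CosetX N // (permST N) x = x} = ModularCurve.nuThree N := by
  rw [← card_fixedBy_ST N]
  exact card_fixed_toPerm_inv (ModularGroup.S * ModularGroup.T)

lemma three_mul_card_six_dvd :
    3 * Nat.card {j : 𝔊.J // (6 : ℤ) ∣ 𝔊.κ j} =
      Nat.card (CosetX N) + 2 * ModularCurve.nuThree N := by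
  classical
  let _ : Fintype (CosetX N) := Fintype.ofFinite _
  have h1 := finrank_permEigen_three_one (permST N) (permST_pow_three (N := N))
  rw [← Nat.card_eq_fintype_card, ← Nat.card_eq_fintype_card, card_fixed_permST] at h1
  have hcongr : Nat.card {j : 𝔊.J // (6 : ℤ) ∣ 𝔊.κ j} =
      Nat.card {j : 𝔊.J // cls6 (𝔊.κ j) = 0} := by
    refine Nat.card_congr (Equiv.subtypeEquivRight fun j => ?_)
    simp only [cls6]
    split_ifs with h h' <;> simp [h]
  rw [hcongr, 𝔊.card_cls6 0]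
  exact h1

lemma three_mul_card_mod_six_two :
    3 * Nat.card {j : 𝔊.J // 𝔊.κ j % 6 = 2} + ModularCurve.nuThree N = Nat.card (CosetX N) := by
  classical
  let _ : Fintype (CosetX N) := Fintype.ofFinite _
  have h2 := finrank_permEigen_three_omega (permST N) (permST_pow_three (N := N)) (-dRho)
    (by linear_combination dRho_eq)
  rw [← Nat.card_eq_fintype_card, ← Nat.card_eq_fintype_card, card_fixed_permST] at h2
  have hcongr : Nat.card {j : 𝔊.J // 𝔊.κ j % 6 = 2} =
      Nat.card {j : 𝔊.J // cls6 (𝔊.κ j) = 1} := by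
    refine Nat.card_congr (Equiv.subtypeEquivRight fun j => ?_)
    simp only [cls6]
    split_ifs with h h'
    · have := Int.emod_eq_zero_of_dvd h
      simp; omega
    · simp [h']
    · simp [h']
  rw [hcongr, 𝔊.card_cls6 1]
  exact h2

lemma three_mul_card_mod_six_four :
    3 * Nat.card {j : 𝔊.J // 𝔊.κ j % 6 = 4} + ModularCurve.nuThree N = Nat.card (CosetX N) := by
  classical
  let _ : Fintype (CosetX N) := Fintype.ofFinite _
  have h3 := finrank_permEigen_three_omega (permST N) (permST_pow_three (N := N)) (dRho - 1)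
    (by linear_combination dRho_eq)
  rw [← Nat.card_eq_fintype_card, ← Nat.card_eq_fintype_card, card_fixed_permST] at h3
  have hcongr : Nat.card {j : 𝔊.J // 𝔊.κ j % 6 = 4} =
      Nat.card {j : 𝔊.J // cls6 (𝔊.κ j) = 2} := by
    refine Nat.card_congr (Equiv.subtypeEquivRight fun j => ?_)
    obtain ⟨r, hr⟩ := 𝔊.κ_even j
    simp only [cls6]
    split_ifs with h h'
    · have := Int.emod_eq_zero_of_dvd h
      simp; omega
    · simp; omega
    · have h0 : ¬ 𝔊.κ j % 6 = 0 := fun h0 => h (Int.dvd_of_emod_eq_zero h0)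
      simp; omega
  rw [hcongr, 𝔊.card_cls6 2]
  exact h3

end Gens

end Fermat.Agent.S20
end MergeWrap_S20_GensCount

section MergeWrap_S20_Fourier -- from S20/Fourier.lean

set_option autoImplicit false

namespace Fermat.Agent.S20

open UpperHalfPlane hiding I
open Filter Topology Asymptotics Complex Function
open scoped Manifold Real

/-- The auxiliary function `g z * exp ((2πi - c) z)`. -/
noncomputable def fourierTwistAux (g : ℍ → ℂ) (c : ℂ) : ℍ → ℂ :=
  fun z => g z * Complex.exp ((2 * π * I - c) * z)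

lemma fourierTwistAux_mdiff {g : ℍ → ℂ} (hg : MDiff g) (c : ℂ) : MDiff (fourierTwistAux g c) := by
  have h1 : MDiff (fun z : ℍ => Complex.exp ((2 * π * I - c) * (z : ℂ))) := by
    rw [UpperHalfPlane.mdifferentiable_iff]
    have : DifferentiableOn ℂ (fun z : ℂ => Complex.exp ((2 * π * I - c) * z)) {z | 0 < z.im} :=
      (differentiable_exp.comp (differentiable_id.const_mul _)).differentiableOn
    refine this.congr fun z hz => ?_
    simp [Function.comp, ofComplex_apply_of_im_pos hz]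
  exact hg.mul h1

lemma fourierTwistAux_periodic {g : ℍ → ℂ} {c : ℂ}
    (hper : ∀ z : ℍ, g ((1 : ℝ) +ᵥ z) = Complex.exp c * g z) :
    Periodic (fourierTwistAux g c ∘ ofComplex) (1 : ℝ) := by
  intro z
  by_cases hz : 0 < z.im
  · have hz1 : 0 < (z + (1 : ℝ)).im := by simpa using hz
    simp only [comp_apply, ofComplex_apply_of_im_pos hz1, ofComplex_apply_of_im_pos hz, fourierTwistAux]
    have e1 : (⟨z + (1 : ℝ), hz1⟩ : ℍ) = (1 : ℝ) +ᵥ (⟨z, hz⟩ : ℍ) := by
      ext; simp [add_comm]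
    rw [e1, hper]
    have : (2 * π * I - c) * (z + (1 : ℝ)) = (2 * π * I - c) * z + 2 * π * I - c := by
      push_cast; ring
    rw [this, sub_eq_add_neg, Complex.exp_add, Complex.exp_add, Complex.exp_two_pi_mul_I,
      Complex.exp_neg]
    have hc : cexp c ≠ 0 := Complex.exp_ne_zero c
    field_simp
  · have hz' : z.im ≤ 0 := not_lt.mp hz
    have hz1 : (z + (1 : ℝ)).im ≤ 0 := by simpa using hz'
    simp only [comp_apply, ofComplex_apply_of_im_nonpos hz1, ofComplex_apply_of_im_nonpos hz']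

/-- `exp ((2πi - 2πi t / w) z)` tends to `0` at `i∞` when `t < w`. -/
lemma fourier_tendsto_exp_twist {w t : ℕ} (ht : t < w) :
    Tendsto (fun z : ℍ => Complex.exp ((2 * π * I - 2 * π * I * t / w) * z)) atImInfty (𝓝 0) := by
  have hw : (0 : ℝ) < w := by exact_mod_cast (Nat.zero_le t).trans_lt ht
  have htw : (0 : ℝ) < (w : ℝ) - t := by
    have : (t : ℝ) < w := by exact_mod_cast ht
    linarith
  have hh : (0 : ℝ) < (w : ℝ) / ((w : ℝ) - t) := div_pos hw htw
  refine (qParam_tendsto_atImInfty hh).congr fun z => ?_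
  simp only [Periodic.qParam]
  congr 1
  have hw' : (w : ℂ) ≠ 0 := by exact_mod_cast hw.ne'
  have htw' : (w : ℂ) - t ≠ 0 := by exact_mod_cast htw.ne'
  push_cast
  field_simp

lemma fourierTwistAux_isZeroAtImInfty {g : ℍ → ℂ} (hb : IsBoundedAtImInfty g) {w t : ℕ} (ht : t < w) :
    IsZeroAtImInfty (fourierTwistAux g (2 * π * I * t / w)) := by
  have h1 := fourier_tendsto_exp_twist ht
  have h2 : IsBoundedUnder (· ≤ ·) atImInfty (norm ∘ g) := by
    have := hb
    unfold IsBoundedAtImInfty BoundedAtFilter at this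
    exact this.isBoundedUnder_le
  exact isBoundedUnder_le_mul_tendsto_zero h2 h1

theorem exists_tendsto_twisted {g : ℍ → ℂ} (hg : MDiff g) (hb : IsBoundedAtImInfty g) {w t : ℕ}
    (ht : t < w)
    (hper : ∀ z : ℍ, g ((1 : ℝ) +ᵥ z) = Complex.exp (2 * π * I * t / w) * g z) :
    ∃ a : ℂ, Tendsto (fun z : ℍ => g z * Complex.exp (-(2 * π * I * t / w) * z)) atImInfty (𝓝 a) ∧
      (a = 0 → g =O[atImInfty] (fun z : ℍ => Complex.exp (2 * π * I * z))) := by
  set c : ℂ := 2 * π * I * t / w with hc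
  set F : ℍ → ℂ := fourierTwistAux g c with hF
  have hFper : Periodic (F ∘ ofComplex) (1 : ℝ) := fourierTwistAux_periodic hper
  have hFhol : MDiff F := fourierTwistAux_mdiff hg c
  have hFzero : IsZeroAtImInfty F := fourierTwistAux_isZeroAtImInfty hb ht
  have hFbdd : IsBoundedAtImInfty F := hFzero.isBoundedAtImInfty
  set K : ℂ → ℂ := cuspFunction 1 F with hK
  have hKdiff : ∀ q : ℂ, ‖q‖ < 1 → DifferentiableAt ℂ K q := fun q hq =>
    differentiableAt_cuspFunction one_pos hFper hFhol hFbdd hq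
  have hK0 : K 0 = 0 := UpperHalfPlane.IsZeroAtImInfty.cuspFunction_apply_zero hFzero one_pos
  have hKq : ∀ z : ℍ, K (Periodic.qParam 1 z) = F z := fun z =>
    eq_cuspFunction z one_ne_zero hFper
  have hqexp : ∀ z : ℍ, Periodic.qParam 1 (z : ℂ) = Complex.exp (2 * π * I * z) := fun z => by
    simp [Periodic.qParam]
  have hqtend : Tendsto (fun z : ℍ => Periodic.qParam 1 (z : ℂ)) atImInfty (𝓝[≠] 0) :=
    (Periodic.qParam_tendsto one_pos).comp tendsto_coe_atImInfty
  have hgF : ∀ z : ℍ, g z * Complex.exp (-c * z) = (Periodic.qParam 1 (z : ℂ))⁻¹ * F z := by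
    intro z
    rw [hqexp, hF, fourierTwistAux, ← Complex.exp_neg, mul_left_comm, ← Complex.exp_add]
    congr 2
    ring
  refine ⟨deriv K 0, ?_, ?_⟩
  · have hd : HasDerivAt K (deriv K 0) 0 := (hKdiff 0 (by simp)).hasDerivAt
    have hs := (hasDerivAt_iff_tendsto_slope.mp hd).comp hqtend
    refine hs.congr fun z => ?_
    simp only [comp_apply, slope, sub_zero, vsub_eq_sub, hK0, smul_eq_mul, hKq]
    exact (hgF z).symm
  · intro ha
    -- `K = O(q ^ 2)` near `0`
    have hball : Metric.ball (0 : ℂ) 1 ∈ 𝓝 (0 : ℂ) := Metric.ball_mem_nhds _ one_pos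
    have hKon : DifferentiableOn ℂ K (Metric.ball 0 1) := fun q hq =>
      (hKdiff q (by simpa using hq)).differentiableWithinAt
    have hG : DifferentiableAt ℂ (dslope K 0) 0 :=
      ((Complex.differentiableOn_dslope hball).mpr hKon).differentiableAt hball
    have hG0 : dslope K 0 0 = 0 := by rw [dslope_same, ha]
    have hGO : (dslope K 0) =O[𝓝 0] (fun q : ℂ => q) := by
      have := hG.isBigO_sub
      simpa [hG0, ha] using this
    have hKO : K =O[𝓝 0] (fun q : ℂ => q * q) := by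
      have hKeq : K = fun q => q * dslope K 0 q := by
        funext q
        have := sub_smul_dslope K 0 q
        simpa [hK0] using this.symm
      rw [hKeq]
      exact (isBigO_refl _ _).mul hGO
    have hFO : F =O[atImInfty] (fun z : ℍ => Periodic.qParam 1 (z : ℂ) * Periodic.qParam 1 (z : ℂ)) := by
      have := hKO.comp_tendsto (hqtend.mono_right nhdsWithin_le_nhds)
      refine this.congr_left fun z => ?_
      simp [hKq]
    -- now transfer to `g`
    have hgeq : ∀ z : ℍ, g z = F z * Complex.exp (-(2 * π * I - c) * z) := by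
      intro z
      rw [hF, fourierTwistAux, mul_assoc, ← Complex.exp_add]
      have : (2 * π * I - c) * (z : ℂ) + -(2 * π * I - c) * z = 0 := by ring
      rw [this, Complex.exp_zero, mul_one]
    have hbound : ∀ z : ℍ, ‖Complex.exp (-(2 * π * I - c) * z)‖ * ‖Periodic.qParam 1 (z : ℂ)‖ ≤ 1 := by
      intro z
      rw [hqexp, ← norm_mul, ← Complex.exp_add, Complex.norm_exp]
      have : (-(2 * π * I - c) * z + 2 * π * I * z).re = - (2 * π * t / w) * z.im := by
        rw [hc]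
        have : -(2 * π * I - 2 * π * I * t / w) * (z : ℂ) + 2 * π * I * z
            = (((2 * π * t / w : ℝ) : ℂ) * I) * z := by
          push_cast; ring
        rw [this]
        simp [Complex.mul_re]
      rw [this]
      rw [Real.exp_le_one_iff]
      have : 0 ≤ 2 * π * (t : ℝ) / w * z.im :=
        mul_nonneg (by positivity) z.im_pos.le
      linarith
    rw [isBigO_iff] at hFO ⊢
    obtain ⟨C, hC⟩ := hFO
    refine ⟨|C|, ?_⟩
    filter_upwards [hC] with z hz
    rw [hgeq z, norm_mul, ← hqexp]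
    rw [norm_mul] at hz
    have hq0 : 0 ≤ ‖Periodic.qParam 1 (z : ℂ)‖ := norm_nonneg _
    calc ‖F z‖ * ‖Complex.exp (-(2 * π * I - c) * z)‖
        ≤ (C * (‖Periodic.qParam 1 (z : ℂ)‖ * ‖Periodic.qParam 1 (z : ℂ)‖)) *
            ‖Complex.exp (-(2 * π * I - c) * z)‖ :=
          mul_le_mul_of_nonneg_right hz (norm_nonneg _)
      _ = C * ‖Periodic.qParam 1 (z : ℂ)‖ *
            (‖Complex.exp (-(2 * π * I - c) * z)‖ * ‖Periodic.qParam 1 (z : ℂ)‖) := by ring
      _ ≤ |C| * ‖Periodic.qParam 1 (z : ℂ)‖ * 1 := by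
          refine mul_le_mul ?_ (hbound z) (by positivity) (by positivity)
          exact mul_le_mul_of_nonneg_right (le_abs_self C) hq0
      _ = |C| * ‖Periodic.qParam 1 (z : ℂ)‖ := by ring

end Fermat.Agent.S20
end MergeWrap_S20_Fourier

section MergeWrap_S20_CuspFamily_Orbit -- from S20/CuspFamily/Orbit.lean

set_option autoImplicit false
set_option linter.unusedSectionVars false

namespace Fermat.Agent.S20

variable {X : Type} [Fintype X] [DecidableEq X] (τ : Equiv.Perm X)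

/-- The chosen base point of the `τ`-orbit of `x`. -/
noncomputable def cfBase (x : X) : X :=
  (Quotient.mk (MulAction.orbitRel (Subgroup.zpowers τ) X) x).out

/-- The size of the `τ`-orbit of `x` (minimal period of the base point). -/
noncomputable def cfPeriod (x : X) : ℕ := Function.minimalPeriod τ (cfBase τ x)

lemma cf_pow_orderOf_apply (x : X) : (τ ^ orderOf τ) x = x := by
  rw [pow_orderOf_eq_one]; rfl

lemma cf_isPeriodicPt (x : X) : Function.IsPeriodicPt τ (orderOf τ) x := by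
  unfold Function.IsPeriodicPt Function.IsFixedPt
  rw [Equiv.Perm.iterate_eq_pow]
  exact cf_pow_orderOf_apply τ x

lemma cfPeriod_pos (x : X) : 0 < cfPeriod τ x :=
  Function.minimalPeriod_pos_of_mem_periodicPts
    (Function.mk_mem_periodicPts (orderOf_pos τ) (cf_isPeriodicPt τ _))

lemma cf_pow_period_apply (x : X) : (τ ^ cfPeriod τ x) (cfBase τ x) = cfBase τ x := by
  have := Function.isPeriodicPt_minimalPeriod τ (cfBase τ x)
  unfold Function.IsPeriodicPt Function.IsFixedPt at this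
  rwa [Equiv.Perm.iterate_eq_pow] at this

lemma cf_period_dvd_of_pow_apply {x : X} {n : ℕ} (h : (τ ^ n) (cfBase τ x) = cfBase τ x) :
    cfPeriod τ x ∣ n := by
  apply Function.IsPeriodicPt.minimalPeriod_dvd
  unfold Function.IsPeriodicPt Function.IsFixedPt
  rwa [Equiv.Perm.iterate_eq_pow]

lemma cf_exists_zpow (x : X) : ∃ k : ℤ, (τ ^ k) (cfBase τ x) = x := by
  have h : (MulAction.orbitRel (Subgroup.zpowers τ) X) (cfBase τ x) x := Quotient.mk_out (s := MulAction.orbitRel (Subgroup.zpowers τ) X) x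
  rw [MulAction.orbitRel_apply, MulAction.mem_orbit_iff] at h
  obtain ⟨⟨g, hg⟩, hgx⟩ := h
  obtain ⟨k, rfl⟩ := Subgroup.mem_zpowers_iff.mp hg
  refine ⟨-k, ?_⟩
  have : (τ ^ k) x = cfBase τ x := hgx
  rw [← this, ← Equiv.Perm.mul_apply, ← zpow_add]
  simp

lemma cf_exists_pow (x : X) : ∃ s : ℕ, (τ ^ s) (cfBase τ x) = x := by
  obtain ⟨k, hk⟩ := cf_exists_zpow τ x
  refine ⟨(k % (orderOf τ : ℤ)).toNat, ?_⟩
  have hpos : (0 : ℤ) < orderOf τ := by exact_mod_cast orderOf_pos τ
  have h1 : ((k % (orderOf τ : ℤ)).toNat : ℤ) = k % (orderOf τ : ℤ) :=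
    Int.toNat_of_nonneg (Int.emod_nonneg _ hpos.ne')
  rw [← zpow_natCast, h1, zpow_mod_orderOf]
  exact hk

open Classical in
/-- The index of `x` in its orbit: the least `s` with `τ ^ s (cfBase τ x) = x`. -/
noncomputable def cfIdx (x : X) : ℕ := Nat.find (cf_exists_pow τ x)

open Classical in
lemma cf_pow_idx_apply (x : X) : (τ ^ cfIdx τ x) (cfBase τ x) = x :=
  Nat.find_spec (cf_exists_pow τ x)

open Classical in
lemma cfIdx_lt (x : X) : cfIdx τ x < cfPeriod τ x := by
  by_contra hlt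
  rw [not_lt] at hlt
  have hmin := Nat.find_min (cf_exists_pow τ x) (m := cfIdx τ x - cfPeriod τ x)
    (Nat.sub_lt_self (cfPeriod_pos τ x) hlt)
  apply hmin
  have h := cf_pow_idx_apply τ x
  have e : cfIdx τ x = (cfIdx τ x - cfPeriod τ x) + cfPeriod τ x := by omega
  rw [e, pow_add, Equiv.Perm.mul_apply, cf_pow_period_apply] at h
  exact h

lemma cfBase_eq_of_rel {x y : X} (h : ∃ k : ℤ, (τ ^ k) x = y) : cfBase τ x = cfBase τ y := by
  unfold cfBase
  congr 1
  apply Quotient.sound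
  show (MulAction.orbitRel (Subgroup.zpowers τ) X) x y
  rw [MulAction.orbitRel_apply, MulAction.mem_orbit_iff]
  obtain ⟨k, hk⟩ := h
  refine ⟨⟨τ ^ (-k), Subgroup.mem_zpowers_iff.mpr ⟨-k, rfl⟩⟩, ?_⟩
  show (τ ^ (-k)) y = x
  rw [← hk, ← Equiv.Perm.mul_apply, ← zpow_add]
  simp

lemma cfBase_apply (x : X) : cfBase τ (τ x) = cfBase τ x :=
  (cfBase_eq_of_rel τ ⟨1, by simp⟩).symm

lemma cfBase_pow_apply (s : ℕ) (x : X) : cfBase τ ((τ ^ s) x) = cfBase τ x :=
  (cfBase_eq_of_rel τ ⟨s, by simp⟩).symm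

lemma cfBase_cfBase (x : X) : cfBase τ (cfBase τ x) = cfBase τ x := by
  obtain ⟨k, hk⟩ := cf_exists_zpow τ x
  exact cfBase_eq_of_rel τ ⟨k, hk⟩

lemma cfPeriod_apply (x : X) : cfPeriod τ (τ x) = cfPeriod τ x := by
  unfold cfPeriod; rw [cfBase_apply]

lemma cfPeriod_cfBase (x : X) : cfPeriod τ (cfBase τ x) = cfPeriod τ x := by
  unfold cfPeriod; rw [cfBase_cfBase]

lemma cfPeriod_eq_of_base_eq {x y : X} (h : cfBase τ x = cfBase τ y) :
    cfPeriod τ x = cfPeriod τ y := by
  unfold cfPeriod; rw [h]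

/-- Two exponents giving the same point of the orbit are congruent modulo the period. -/
lemma cf_modEq_of_pow_apply_eq {x : X} {a a' : ℕ}
    (h : (τ ^ a) (cfBase τ x) = (τ ^ a') (cfBase τ x)) : a ≡ a' [MOD cfPeriod τ x] := by
  wlog hle : a ≤ a' generalizing a a'
  · exact (this h.symm (le_of_not_ge hle)).symm
  have e : a' = (a' - a) + a := by omega
  rw [e, pow_add, Equiv.Perm.mul_apply] at h
  have h2 : (τ ^ (a' - a)) ((τ ^ a) (cfBase τ x)) = (τ ^ a) (cfBase τ x) := h.symm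
  have h3 : (τ ^ (a' - a)) (cfBase τ x) = cfBase τ x := by
    apply (τ ^ a).injective
    rw [← Equiv.Perm.mul_apply, ← pow_add, add_comm, pow_add, Equiv.Perm.mul_apply]
    exact h2
  have hd := cf_period_dvd_of_pow_apply τ h3
  exact (Nat.modEq_of_dvd (by
    have : ((a' : ℤ) - a) = ((a' - a : ℕ) : ℤ) := by omega
    rw [this]; exact_mod_cast hd))

/-- `cfIdx (τ x) ≡ cfIdx x + 1` modulo the period. -/
lemma cfIdx_apply_modEq (x : X) : cfIdx τ (τ x) ≡ cfIdx τ x + 1 [MOD cfPeriod τ x] := by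
  apply cf_modEq_of_pow_apply_eq τ (x := x)
  have h1 := cf_pow_idx_apply τ (τ x)
  rw [cfBase_apply] at h1
  rw [h1, pow_succ', Equiv.Perm.mul_apply, cf_pow_idx_apply]

/-- A point is determined by its base point and index. -/
lemma cf_eq_iff {x y : X} : x = y ↔ cfBase τ x = cfBase τ y ∧ cfIdx τ x = cfIdx τ y := by
  constructor
  · rintro rfl; exact ⟨rfl, rfl⟩
  · rintro ⟨h1, h2⟩
    rw [← cf_pow_idx_apply τ x, ← cf_pow_idx_apply τ y, h1, h2]

/-- The index of `τ ^ s (base)` is `s` for `s` below the period. -/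
lemma cfIdx_pow_base {x : X} {s : ℕ} (hs : s < cfPeriod τ x) :
    cfIdx τ ((τ ^ s) (cfBase τ x)) = s := by
  set y := (τ ^ s) (cfBase τ x) with hy
  have hb : cfBase τ y = cfBase τ x := by
    rw [hy, cfBase_pow_apply, cfBase_cfBase]
  have h1 := cf_pow_idx_apply τ y
  rw [hb] at h1
  have hmod := cf_modEq_of_pow_apply_eq τ (x := x) (h1.trans hy)
  have hlt := cfIdx_lt τ y
  rw [cfPeriod_eq_of_base_eq τ hb] at hlt
  exact Nat.ModEq.eq_of_lt_of_lt hmod hlt hs

end Fermat.Agent.S20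
end MergeWrap_S20_CuspFamily_Orbit

section MergeWrap_S20_CuspFamily_Count -- from S20/CuspFamily/Count.lean

set_option autoImplicit false
set_option linter.unusedSectionVars false

namespace Fermat.Agent.S20

open Finset

variable {X : Type} [Fintype X] [DecidableEq X] (τ : Equiv.Perm X)

/-- A sum over the orbit of `x` is a sum over the indices below the period. -/
lemma cf_sum_orbit {M : Type*} [AddCommMonoid M] (x : X) (F : X → M) :
    ∑ y ∈ univ.filter (fun y => cfBase τ y = cfBase τ x), F y =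
      ∑ s ∈ range (cfPeriod τ x), F ((τ ^ s) (cfBase τ x)) := by
  refine Finset.sum_nbij' (fun y => cfIdx τ y) (fun s => (τ ^ s) (cfBase τ x)) ?_ ?_ ?_ ?_ ?_
  · intro y hy
    simp only [mem_filter, mem_univ, true_and] at hy
    simp only [mem_range]
    rw [← cfPeriod_eq_of_base_eq τ hy]
    exact cfIdx_lt τ y
  · intro s _
    simp only [mem_filter, mem_univ, true_and]
    rw [cfBase_pow_apply, cfBase_cfBase]
  · intro y hy
    simp only [mem_filter, mem_univ, true_and] at hy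
    show (τ ^ cfIdx τ y) (cfBase τ x) = y
    rw [← hy]
    exact cf_pow_idx_apply τ y
  · intro s hs
    simp only [mem_range] at hs
    exact cfIdx_pow_base τ hs
  · intro y hy
    simp only [mem_filter, mem_univ, true_and] at hy
    show F y = F ((τ ^ cfIdx τ y) (cfBase τ x))
    rw [← hy, cf_pow_idx_apply]

/-- The set of base points. -/
noncomputable def cfBasePts : Finset X := univ.filter (fun x => cfBase τ x = x)

lemma mem_cfBasePts {x : X} : x ∈ cfBasePts τ ↔ cfBase τ x = x := by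
  simp [cfBasePts]

/-- A sum over `X` is a double sum over base points and indices. -/
lemma cf_sum_eq_sum_base {M : Type*} [AddCommMonoid M] (F : X → M) :
    ∑ y : X, F y = ∑ x₀ ∈ cfBasePts τ, ∑ s ∈ range (cfPeriod τ x₀), F ((τ ^ s) x₀) := by
  rw [← Finset.sum_fiberwise (s := univ) (g := cfBase τ) (f := F)]
  rw [← Finset.sum_filter_add_sum_filter_not univ (fun x₀ => cfBase τ x₀ = x₀)]
  have h0 : ∑ x₀ ∈ univ.filter (fun x₀ => ¬ cfBase τ x₀ = x₀),
      ∑ y ∈ univ.filter (fun y => cfBase τ y = x₀), F y = 0 := by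
    refine Finset.sum_eq_zero fun x₀ hx₀ => ?_
    simp only [mem_filter, mem_univ, true_and] at hx₀
    have : univ.filter (fun y => cfBase τ y = x₀) = ∅ := by
      ext y
      simp only [mem_filter, mem_univ, true_and, notMem_empty, iff_false]
      intro hy
      exact hx₀ (by rw [← hy, cfBase_cfBase])
    rw [this, sum_empty]
  rw [h0, add_zero]
  refine Finset.sum_congr rfl fun x₀ hx₀ => ?_
  have hx₀' : cfBase τ x₀ = x₀ := (mem_cfBasePts τ).mp hx₀
  have := cf_sum_orbit τ x₀ F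
  rw [hx₀'] at this
  exact this

/-- The number of orbits equals the number of base points. -/
lemma cf_card_basePts :
    Nat.card (MulAction.orbitRel.Quotient (Subgroup.zpowers τ) X) = (cfBasePts τ).card := by
  classical
  have e : MulAction.orbitRel.Quotient (Subgroup.zpowers τ) X ≃ {x // x ∈ cfBasePts τ} :=
    { toFun := fun q => ⟨q.out, by
        rw [mem_cfBasePts]
        unfold cfBase
        rw [Quotient.out_eq]⟩
      invFun := fun x => Quotient.mk _ x.1
      left_inv := fun q => Quotient.out_eq q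
      right_inv := fun x => by
        have hx : cfBase τ x.1 = x.1 := (mem_cfBasePts τ).mp x.2
        exact Subtype.ext hx }
  rw [Nat.card_congr e, Nat.card_eq_fintype_card, Fintype.card_coe]

lemma cf_card_eq_sum_period : Fintype.card X = ∑ x₀ ∈ cfBasePts τ, cfPeriod τ x₀ := by
  have := cf_sum_eq_sum_base τ (fun _ : X => (1 : ℕ))
  simpa using this

lemma cf_sum_range_cast (n : ℕ) : ∑ s ∈ range n, (s : ℂ) = (n : ℂ) * ((n : ℂ) - 1) / 2 := by
  induction n with
  | zero => simp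
  | succ k ih =>
    rw [Finset.sum_range_succ, ih]
    push_cast
    ring

/-- `∑_y idx(y) / period(y) = (n - c) / 2`. -/
lemma cf_sum_idx_div_period :
    ∑ y : X, ((cfIdx τ y : ℂ) / (cfPeriod τ y : ℂ)) =
      ((Fintype.card X : ℂ) -
        (Nat.card (MulAction.orbitRel.Quotient (Subgroup.zpowers τ) X) : ℂ)) / 2 := by
  have hA : ∑ y : X, ((cfIdx τ y : ℂ) / (cfPeriod τ y : ℂ)) =
      ∑ x₀ ∈ cfBasePts τ, ((cfPeriod τ x₀ : ℂ) - 1) / 2 := by
    rw [cf_sum_eq_sum_base τ]
    refine Finset.sum_congr rfl fun x₀ hx₀ => ?_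
    have hx₀' : cfBase τ x₀ = x₀ := (mem_cfBasePts τ).mp hx₀
    have hW : (cfPeriod τ x₀ : ℂ) ≠ 0 := by
      exact_mod_cast (cfPeriod_pos τ x₀).ne'
    have h1 : ∀ s ∈ range (cfPeriod τ x₀),
        ((cfIdx τ ((τ ^ s) x₀) : ℂ) / (cfPeriod τ ((τ ^ s) x₀) : ℂ)) =
          (s : ℂ) / (cfPeriod τ x₀ : ℂ) := by
      intro s hs
      simp only [mem_range] at hs
      have e1 : cfIdx τ ((τ ^ s) x₀) = s := by
        have := cfIdx_pow_base τ (x := x₀) hs
        rwa [hx₀'] at this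
      have e2 : cfPeriod τ ((τ ^ s) x₀) = cfPeriod τ x₀ :=
        cfPeriod_eq_of_base_eq τ (cfBase_pow_apply τ s x₀)
      rw [e1, e2]
    rw [Finset.sum_congr rfl h1, ← Finset.sum_div, cf_sum_range_cast]
    field_simp
  have hn : (Fintype.card X : ℂ) = ∑ x₀ ∈ cfBasePts τ, (cfPeriod τ x₀ : ℂ) := by
    rw [cf_card_eq_sum_period τ, Nat.cast_sum]
  have hc : (Nat.card (MulAction.orbitRel.Quotient (Subgroup.zpowers τ) X) : ℂ) =
      ∑ _x₀ ∈ cfBasePts τ, (1 : ℂ) := by
    rw [cf_card_basePts, Finset.sum_const, nsmul_eq_mul, mul_one]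
  rw [hA, hn, hc, ← Finset.sum_sub_distrib, Finset.sum_div]

end Fermat.Agent.S20
end MergeWrap_S20_CuspFamily_Count

section MergeWrap_S20_CuspFamily_DFT -- from S20/CuspFamily/DFT.lean

set_option autoImplicit false
set_option linter.unusedSectionVars false

namespace Fermat.Agent.S20

open Finset Complex
open scoped Real

/-- The phase `exp (2πi a / W)`. -/
noncomputable def cfPhase (a : ℤ) (W : ℕ) : ℂ := Complex.exp (2 * π * I * a / W)

lemma cfPhase_add (a b : ℤ) (W : ℕ) : cfPhase (a + b) W = cfPhase a W * cfPhase b W := by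
  unfold cfPhase
  rw [← Complex.exp_add]
  congr 1
  push_cast
  ring

lemma cfPhase_zero (W : ℕ) : cfPhase 0 W = 1 := by
  simp [cfPhase]

lemma cfPhase_ne_zero (a : ℤ) (W : ℕ) : cfPhase a W ≠ 0 := Complex.exp_ne_zero _

lemma cfPhase_eq_one_iff {a : ℤ} {W : ℕ} (hW : 0 < W) : cfPhase a W = 1 ↔ (W : ℤ) ∣ a := by
  have hW' : (W : ℂ) ≠ 0 := by exact_mod_cast hW.ne'
  unfold cfPhase
  rw [Complex.exp_eq_one_iff]
  constructor
  · rintro ⟨n, hn⟩
    refine ⟨n, ?_⟩
    have h2 : (2 * (π : ℂ) * I) ≠ 0 := by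
      simp [Real.pi_ne_zero, Complex.I_ne_zero]
    rw [div_eq_iff hW'] at hn
    have h3 : (2 * (π : ℂ) * I) * a = (2 * (π : ℂ) * I) * (W * n) := by
      rw [hn]; ring
    have := mul_left_cancel₀ h2 h3
    exact_mod_cast this
  · rintro ⟨n, rfl⟩
    refine ⟨n, ?_⟩
    push_cast
    field_simp

lemma cfPhase_of_dvd {a : ℤ} {W : ℕ} (hW : 0 < W) (h : (W : ℤ) ∣ a) : cfPhase a W = 1 :=
  (cfPhase_eq_one_iff hW).mpr h

lemma cfPhase_eq_of_modEq {a b : ℤ} {W : ℕ} (hW : 0 < W) (h : a ≡ b [ZMOD W]) :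
    cfPhase a W = cfPhase b W := by
  have : a = b + (a - b) := by ring
  rw [this, cfPhase_add, cfPhase_of_dvd hW (a := a - b) (Int.modEq_iff_dvd.mp h.symm), mul_one]

lemma cfPhase_mul_nat (k : ℤ) (s : ℕ) (W : ℕ) : cfPhase (s * k) W = cfPhase k W ^ s := by
  unfold cfPhase
  rw [← Complex.exp_nat_mul]
  congr 1
  push_cast
  ring

/-- Orthogonality of the characters of `ℤ / W`. -/
lemma cfPhase_sum (k : ℤ) {W : ℕ} (hW : 0 < W) :
    ∑ s ∈ range W, cfPhase (s * k) W = if (W : ℤ) ∣ k then (W : ℂ) else 0 := by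
  simp_rw [cfPhase_mul_nat]
  split_ifs with h
  · rw [cfPhase_of_dvd hW h]
    simp
  · have hne : cfPhase k W ≠ 1 := fun h1 => h ((cfPhase_eq_one_iff hW).mp h1)
    rw [geom_sum_eq hne]
    have : cfPhase k W ^ W = 1 := by
      rw [← cfPhase_mul_nat]
      exact cfPhase_of_dvd hW ⟨k, rfl⟩
    rw [this, sub_self, zero_div]

variable {X : Type} [Fintype X] [DecidableEq X] (τ : Equiv.Perm X)

/-- The block DFT matrix. -/
noncomputable def cfD : Matrix X X ℂ := Matrix.of fun x y =>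
  if cfBase τ x = cfBase τ y then cfPhase (-((cfIdx τ y : ℤ) * (cfIdx τ x : ℤ))) (cfPeriod τ y)
  else 0

/-- The inverse of the block DFT matrix. -/
noncomputable def cfD' : Matrix X X ℂ := Matrix.of fun y x =>
  if cfBase τ x = cfBase τ y then
    (cfPeriod τ y : ℂ)⁻¹ * cfPhase ((cfIdx τ y : ℤ) * (cfIdx τ x : ℤ)) (cfPeriod τ y)
  else 0

lemma cfD_apply (x y : X) : cfD τ x y =
    if cfBase τ x = cfBase τ y then cfPhase (-((cfIdx τ y : ℤ) * (cfIdx τ x : ℤ))) (cfPeriod τ y)
    else 0 := rfl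

lemma cfD'_apply (y x : X) : cfD' τ y x =
    if cfBase τ x = cfBase τ y then
      (cfPeriod τ y : ℂ)⁻¹ * cfPhase ((cfIdx τ y : ℤ) * (cfIdx τ x : ℤ)) (cfPeriod τ y)
    else 0 := rfl

/-- Behaviour of the DFT matrix under `τ`. -/
lemma cfD_apply_perm (x y : X) :
    cfD τ (τ x) y = cfPhase (-(cfIdx τ y : ℤ)) (cfPeriod τ y) * cfD τ x y := by
  rw [cfD_apply, cfD_apply, cfBase_apply]
  split_ifs with h
  · rw [← cfPhase_add]
    apply cfPhase_eq_of_modEq (cfPeriod_pos τ y)
    have hmod := cfIdx_apply_modEq τ x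
    rw [cfPeriod_eq_of_base_eq τ h] at hmod
    have hmod' : (cfIdx τ (τ x) : ℤ) ≡ (cfIdx τ x : ℤ) + 1 [ZMOD (cfPeriod τ y : ℤ)] := by
      have := (Int.natCast_modEq_iff).mpr hmod
      simpa using this
    have h2 := (hmod'.mul_left (cfIdx τ y : ℤ)).neg
    calc -((cfIdx τ y : ℤ) * (cfIdx τ (τ x) : ℤ))
        ≡ -((cfIdx τ y : ℤ) * ((cfIdx τ x : ℤ) + 1)) [ZMOD (cfPeriod τ y : ℤ)] := h2
      _ = -(cfIdx τ y : ℤ) + -((cfIdx τ y : ℤ) * (cfIdx τ x : ℤ)) := by ring
  · rw [mul_zero]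

/-- `D * D' = 1`. -/
lemma cfD_mul_cfD' : cfD τ * cfD' τ = 1 := by
  ext x x'
  rw [Matrix.mul_apply, Matrix.one_apply]
  by_cases hb : cfBase τ x = cfBase τ x'
  · -- same orbit
    have hW : cfPeriod τ x = cfPeriod τ x' := cfPeriod_eq_of_base_eq τ hb
    have hWpos := cfPeriod_pos τ x
    have hWne : (cfPeriod τ x : ℂ) ≠ 0 := by exact_mod_cast hWpos.ne'
    have hterm : ∀ y : X, cfD τ x y * cfD' τ y x' =
        if cfBase τ y = cfBase τ x then
          (cfPeriod τ x : ℂ)⁻¹ *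
            cfPhase ((cfIdx τ y : ℤ) * ((cfIdx τ x' : ℤ) - (cfIdx τ x : ℤ))) (cfPeriod τ x)
        else 0 := by
      intro y
      rw [cfD_apply, cfD'_apply]
      by_cases hy : cfBase τ y = cfBase τ x
      · have hWy : cfPeriod τ y = cfPeriod τ x := cfPeriod_eq_of_base_eq τ hy
        rw [if_pos hy.symm, if_pos (hb.symm.trans hy.symm), if_pos hy, hWy]
        rw [mul_left_comm, ← cfPhase_add]
        congr 2
        ring
      · rw [if_neg (fun h => hy h.symm), if_neg hy, zero_mul]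
    simp_rw [hterm]
    rw [← Finset.sum_filter, cf_sum_orbit τ x]
    have hterm2 : ∀ s ∈ range (cfPeriod τ x),
        (cfPeriod τ x : ℂ)⁻¹ * cfPhase ((cfIdx τ ((τ ^ s) (cfBase τ x)) : ℤ) *
          ((cfIdx τ x' : ℤ) - (cfIdx τ x : ℤ))) (cfPeriod τ x) =
        (cfPeriod τ x : ℂ)⁻¹ * cfPhase ((s : ℤ) * ((cfIdx τ x' : ℤ) - (cfIdx τ x : ℤ)))
          (cfPeriod τ x) := by
      intro s hs
      rw [cfIdx_pow_base τ (mem_range.mp hs)]
    rw [Finset.sum_congr rfl hterm2, ← Finset.mul_sum, cfPhase_sum _ hWpos]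
    have hlt := cfIdx_lt τ x
    have hlt' := cfIdx_lt τ x'
    rw [← hW] at hlt'
    by_cases hxx : x = x'
    · subst hxx
      rw [if_pos rfl, sub_self, if_pos (dvd_zero _), inv_mul_cancel₀ hWne]
    · rw [if_neg hxx]
      have hidx : cfIdx τ x ≠ cfIdx τ x' := fun h => hxx ((cf_eq_iff τ).mpr ⟨hb, h⟩)
      have hnd : ¬ ((cfPeriod τ x : ℤ) ∣ (cfIdx τ x' : ℤ) - (cfIdx τ x : ℤ)) := by
        intro hd
        have h0 : (cfIdx τ x' : ℤ) - (cfIdx τ x : ℤ) = 0 := by
          apply Int.eq_zero_of_abs_lt_dvd hd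
          rw [abs_lt]
          constructor <;> omega
        apply hidx
        omega
      rw [if_neg hnd, mul_zero]
  · -- different orbits
    have hxx : x ≠ x' := fun h => hb (by rw [h])
    rw [if_neg hxx]
    refine Finset.sum_eq_zero fun y _ => ?_
    rw [cfD_apply, cfD'_apply]
    by_cases hy : cfBase τ x = cfBase τ y
    · rw [if_pos hy, if_neg (fun h => hb (hy.trans h.symm)), mul_zero]
    · rw [if_neg hy, zero_mul]

lemma cfD'_mul_cfD : cfD' τ * cfD τ = 1 :=
  mul_eq_one_comm.mp (cfD_mul_cfD' τ)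

lemma cfD_det_ne_zero : (cfD τ).det ≠ 0 := by
  have h := congrArg Matrix.det (cfD_mul_cfD' τ)
  rw [Matrix.det_mul, Matrix.det_one] at h
  exact left_ne_zero_of_mul_eq_one h

lemma cfD'_det_ne_zero : (cfD' τ).det ≠ 0 := by
  have h := congrArg Matrix.det (cfD_mul_cfD' τ)
  rw [Matrix.det_mul, Matrix.det_one] at h
  exact right_ne_zero_of_mul_eq_one h

end Fermat.Agent.S20
end MergeWrap_S20_CuspFamily_DFT

section MergeWrap_S20_CuspFamily -- from S20/CuspFamily.lean

set_option autoImplicit false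

namespace Fermat.Agent.S20

open UpperHalfPlane hiding I
open Filter Topology Asymptotics Complex
open scoped Manifold Real

variable {X : Type} [Fintype X] [DecidableEq X]

/-- families `(f_x)` of holomorphic functions, bounded at `i∞`, with `f_x(z+1) = f_{τ x}(z)`. -/
def CuspFamily (τ : Equiv.Perm X) : Submodule ℂ (X → ℍ → ℂ) where
  carrier := {f | ∀ x, MDiff (f x) ∧ IsBoundedAtImInfty (f x) ∧
    ∀ z : ℍ, f x ((1 : ℝ) +ᵥ z) = f (τ x) z}
  add_mem' := by
    intro a b ha hb x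
    refine ⟨(ha x).1.add (hb x).1, (ha x).2.1.add (hb x).2.1, fun z => ?_⟩
    simp [(ha x).2.2 z, (hb x).2.2 z]
  zero_mem' := by
    intro x
    refine ⟨mdifferentiable_const, ?_, fun z => rfl⟩
    exact (zero_form_isBoundedAtImInfty : IsBoundedAtImInfty (0 : ℍ → ℂ))
  smul_mem' := by
    intro c a ha x
    refine ⟨(ha x).1.const_smul c, (ha x).2.1.const_smul_left c, fun z => ?_⟩
    simp [(ha x).2.2 z]

/-- the number of orbits (cycles, including fixed points) of `τ` on `X`. -/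
noncomputable def numOrbits (τ : Equiv.Perm X) : ℕ :=
  Nat.card (MulAction.orbitRel.Quotient (Subgroup.zpowers τ) X)

section Proof

variable (τ : Equiv.Perm X)

/-- The twisted sums `g_y(z) = ∑_x f_x(z) D_{x,y}`. -/
noncomputable def cfG (f : X → ℍ → ℂ) (y : X) : ℍ → ℂ := fun z => ∑ x, f x z * cfD τ x y

/-- The exponent `2πi t / w` attached to the index `y`. -/
noncomputable def cfExpo (y : X) : ℂ := 2 * π * I * (cfIdx τ y : ℕ) / (cfPeriod τ y : ℕ)

/-- The normalised twisted sums `g_y(z) e^{-2πi t z / w}`. -/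
noncomputable def cfA (f : X → ℍ → ℂ) (y : X) : ℍ → ℂ :=
  fun z => cfG τ f y z * Complex.exp (-(cfExpo τ y) * z)

/-- The leading coefficient. -/
noncomputable def cfL (f : X → ℍ → ℂ) (y : X) : ℂ := limUnder atImInfty (cfA τ f y)

lemma cfG_mdiff (f : CuspFamily τ) (y : X) : MDiff (cfG τ f.1 y) := by
  have h : cfG τ f.1 y = ∑ x, (fun z => f.1 x z * cfD τ x y) := by
    funext z; simp [cfG]
  rw [h]
  refine MDifferentiable.sum fun x _ => ?_
  exact (f.2 x).1.mul mdifferentiable_const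

lemma cfG_bdd (f : CuspFamily τ) (y : X) : IsBoundedAtImInfty (cfG τ f.1 y) := by
  have h : cfG τ f.1 y = ∑ x, (fun z => f.1 x z * cfD τ x y) := by
    funext z; simp [cfG]
  rw [h]
  unfold IsBoundedAtImInfty BoundedAtFilter
  refine IsBigO.sum fun x _ => ?_
  have h1 : BoundedAtFilter atImInfty (f.1 x) := (f.2 x).2.1
  have h2 : BoundedAtFilter atImInfty (fun _ : ℍ => cfD τ x y) := const_boundedAtFilter _ _
  exact h1.mul h2

lemma cfPhase_eq_exp_cfExpo (y : X) :
    cfPhase (cfIdx τ y : ℤ) (cfPeriod τ y) = Complex.exp (cfExpo τ y) := by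
  unfold cfPhase cfExpo
  push_cast
  rfl

lemma cfG_twist (f : CuspFamily τ) (y : X) (z : ℍ) :
    cfG τ f.1 y ((1 : ℝ) +ᵥ z) =
      Complex.exp (2 * π * I * (cfIdx τ y : ℕ) / (cfPeriod τ y : ℕ)) * cfG τ f.1 y z := by
  have hexp : Complex.exp (2 * π * I * (cfIdx τ y : ℕ) / (cfPeriod τ y : ℕ)) =
      cfPhase (cfIdx τ y : ℤ) (cfPeriod τ y) := (cfPhase_eq_exp_cfExpo τ y).symm
  rw [hexp]
  unfold cfG
  simp_rw [(f.2 _).2.2 z]
  rw [Finset.mul_sum]
  rw [← Equiv.sum_comp τ (fun x => cfPhase (cfIdx τ y : ℤ) (cfPeriod τ y) * (f.1 x z * cfD τ x y))]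
  refine Finset.sum_congr rfl fun x _ => ?_
  have hPP : cfPhase (cfIdx τ y : ℤ) (cfPeriod τ y) * cfPhase (-(cfIdx τ y : ℤ)) (cfPeriod τ y) = 1 := by
    rw [← cfPhase_add, add_neg_cancel, cfPhase_zero]
  rw [cfD_apply_perm]
  linear_combination (-(f.1 (τ x) z * cfD τ x y)) * hPP

lemma cfA_exists (f : CuspFamily τ) (y : X) :
    ∃ a : ℂ, Tendsto (cfA τ f.1 y) atImInfty (𝓝 a) ∧
      (a = 0 → cfG τ f.1 y =O[atImInfty] (fun z : ℍ => Complex.exp (2 * π * I * z))) :=
  exists_tendsto_twisted (cfG_mdiff τ f y) (cfG_bdd τ f y) (cfIdx_lt τ y) (cfG_twist τ f y)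

lemma cfA_tendsto (f : CuspFamily τ) (y : X) :
    Tendsto (cfA τ f.1 y) atImInfty (𝓝 (cfL τ f.1 y)) := by
  obtain ⟨a, ha, -⟩ := cfA_exists τ f y
  have : cfL τ f.1 y = a := ha.limUnder_eq
  rw [this]
  exact ha

lemma cfG_isBigO_of_cfL_eq_zero (f : CuspFamily τ) (y : X) (h : cfL τ f.1 y = 0) :
    cfG τ f.1 y =O[atImInfty] (fun z : ℍ => Complex.exp (2 * π * I * z)) := by
  obtain ⟨a, ha, ha0⟩ := cfA_exists τ f y
  have : cfL τ f.1 y = a := ha.limUnder_eq
  exact ha0 (this ▸ h)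

/-- The leading-coefficient map as a linear map. -/
noncomputable def cfLin : CuspFamily τ →ₗ[ℂ] (X → ℂ) where
  toFun f := fun y => cfL τ f.1 y
  map_add' f g := by
    funext y
    have h1 := (cfA_tendsto τ f y).add (cfA_tendsto τ g y)
    have h2 := cfA_tendsto τ (f + g) y
    have e : cfA τ (f + g).1 y = fun z => cfA τ f.1 y z + cfA τ g.1 y z := by
      funext z
      simp [cfA, cfG, add_mul, Finset.sum_add_distrib]
    rw [e] at h2
    exact tendsto_nhds_unique h2 h1
  map_smul' c f := by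
    funext y
    have h1 := (cfA_tendsto τ f y).const_mul c
    have h2 := cfA_tendsto τ (c • f) y
    have e : cfA τ (c • f).1 y = fun z => c * cfA τ f.1 y z := by
      funext z
      simp only [cfA, cfG, Submodule.coe_smul, Pi.smul_apply, smul_eq_mul]
      rw [← mul_assoc, Finset.mul_sum]
      congr 1
      refine Finset.sum_congr rfl fun x _ => ?_
      ring
    rw [e] at h2
    exact tendsto_nhds_unique h2 h1

lemma cfLin_apply (f : CuspFamily τ) (y : X) : cfLin τ f y = cfL τ f.1 y := rfl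

/-- Recovering the family from its twisted sums. -/
lemma cf_eq_sum_cfG (f : X → ℍ → ℂ) (x : X) (z : ℍ) :
    f x z = ∑ y, cfG τ f y z * cfD' τ y x := by
  have h := congrFun (Matrix.vecMul_vecMul (fun x => f x z) (cfD τ) (cfD' τ)) x
  rw [cfD_mul_cfD', Matrix.vecMul_one] at h
  rw [← h]
  simp only [Matrix.vecMul, dotProduct, cfG]

/-- (∞1) -/
lemma cf_isBigO_of_cfLin_eq_zero (f : CuspFamily τ) (h : cfLin τ f = 0) (x : X) :
    (f.1 x) =O[atImInfty] (fun z : ℍ => Complex.exp (2 * π * I * z)) := by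
  have h1 : f.1 x = fun z => ∑ y, cfG τ f.1 y z * cfD' τ y x := by
    funext z; exact cf_eq_sum_cfG τ f.1 x z
  rw [h1]
  refine IsBigO.fun_sum fun y _ => ?_
  have hy : cfL τ f.1 y = 0 := by
    have := congrFun h y
    simpa [cfLin_apply] using this
  have h2 := cfG_isBigO_of_cfL_eq_zero τ f y hy
  have h3 := h2.mul (isBigO_refl (fun _ : ℍ => cfD' τ y x) atImInfty)
  refine h3.trans ?_
  refine IsBigO.of_bound ‖cfD' τ y x‖ (Filter.Eventually.of_forall fun z => ?_)
  rw [norm_mul, mul_comm]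

/-- (∞2) -/
lemma cfLin_mul (f Pf : CuspFamily τ) (P : ℍ → ℂ) (p : ℂ) (hP : Tendsto P atImInfty (𝓝 p))
    (hPf : ∀ x, Pf.1 x = P * f.1 x) : cfLin τ Pf = p • cfLin τ f := by
  funext y
  have h1 := hP.mul (cfA_tendsto τ f y)
  have h2 := cfA_tendsto τ Pf y
  have e : cfA τ Pf.1 y = fun z => P z * cfA τ f.1 y z := by
    funext z
    simp only [cfA, cfG, hPf, Pi.mul_apply]
    rw [← mul_assoc, Finset.mul_sum]
    congr 1
    refine Finset.sum_congr rfl fun x _ => ?_
    ring
  rw [e] at h2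
  exact tendsto_nhds_unique h2 h1

/-- The matrix of values `(f_j x z)`. -/
noncomputable def cfM (f : X → CuspFamily τ) (z : ℍ) : Matrix X X ℂ :=
  Matrix.of fun j x => (f j).1 x z

/-- The matrix of normalised twisted sums. -/
noncomputable def cfAmat (f : X → CuspFamily τ) (z : ℍ) : Matrix X X ℂ :=
  Matrix.of fun j y => cfA τ (f j).1 y z

/-- The matrix of leading coefficients. -/
noncomputable def cfLmat (f : X → CuspFamily τ) : Matrix X X ℂ :=
  Matrix.of fun j y => cfLin τ (f j) y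

/-- The diagonal matrix of the exponentials `e^{2πi t z / w}`. -/
noncomputable def cfE (z : ℍ) : Matrix X X ℂ :=
  Matrix.diagonal fun y => Complex.exp (cfExpo τ y * z)

/-- The diagonal matrix of the exponentials `e^{-2πi t z / w}`. -/
noncomputable def cfE' (z : ℍ) : Matrix X X ℂ :=
  Matrix.diagonal fun y => Complex.exp (-(cfExpo τ y) * z)

lemma cfM_mul_cfD (f : X → CuspFamily τ) (z : ℍ) :
    cfM τ f z * cfD τ = cfAmat τ f z * cfE τ z := by
  ext j y
  rw [Matrix.mul_apply, cfE, Matrix.mul_diagonal]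
  simp only [cfM, cfAmat, Matrix.of_apply, cfA]
  rw [mul_assoc, ← Complex.exp_add]
  have : -cfExpo τ y * (z : ℂ) + cfExpo τ y * z = 0 := by ring
  rw [this, Complex.exp_zero, mul_one]
  rfl

lemma cfM_eq (f : X → CuspFamily τ) (z : ℍ) :
    cfM τ f z = cfAmat τ f z * cfE τ z * cfD' τ := by
  rw [← cfM_mul_cfD, Matrix.mul_assoc, cfD_mul_cfD', Matrix.mul_one]

lemma cfE_mul_cfE' (z : ℍ) : cfE τ z * cfE' τ z = 1 := by
  rw [cfE, cfE', Matrix.diagonal_mul_diagonal, ← Matrix.diagonal_one]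
  congr 1
  funext y
  rw [← Complex.exp_add]
  have : cfExpo τ y * (z : ℂ) + -cfExpo τ y * z = 0 := by ring
  rw [this, Complex.exp_zero]

lemma cfE_det_sq (z : ℍ) :
    (cfE τ z).det ^ 2 =
      Complex.exp ((2 * π * I * ((Fintype.card X : ℂ) - (numOrbits τ : ℂ))) * z) := by
  rw [cfE, Matrix.det_diagonal, ← Complex.exp_sum, ← Complex.exp_nat_mul]
  congr 1
  rw [← Finset.sum_mul]
  have h := cf_sum_idx_div_period τ
  have h2 : ∑ y, cfExpo τ y = 2 * π * I * ∑ y : X, ((cfIdx τ y : ℂ) / (cfPeriod τ y : ℂ)) := by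
    rw [Finset.mul_sum]
    refine Finset.sum_congr rfl fun y _ => ?_
    unfold cfExpo
    ring
  rw [h2, h]
  unfold numOrbits
  ring

lemma cfAmat_tendsto (f : X → CuspFamily τ) :
    Tendsto (cfAmat τ f) atImInfty (𝓝 (cfLmat τ f)) := by
  exact tendsto_pi_nhds.mpr fun j => tendsto_pi_nhds.mpr fun y => cfA_tendsto τ (f j) y

/-- (∞3) -/
lemma cf_det_tendsto (f : X → CuspFamily τ) :
    Tendsto (fun z : ℍ => (Matrix.det (Matrix.of fun j x => (f j).1 x z)) ^ 2 *
        Complex.exp (-(2 * π * I * ((Fintype.card X : ℂ) - (numOrbits τ : ℂ))) * z))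
      atImInfty (𝓝 (((cfD' τ).det ^ 2) * (Matrix.det (Matrix.of fun j y => cfLin τ (f j) y)) ^ 2)) := by
  have hdet : Tendsto (fun z => (cfAmat τ f z).det) atImInfty (𝓝 (cfLmat τ f).det) :=
    ((continuous_id.matrix_det).tendsto (cfLmat τ f)).comp (cfAmat_tendsto τ f)
  have h1 : Tendsto (fun z => ((cfD' τ).det ^ 2) * (cfAmat τ f z).det ^ 2) atImInfty
      (𝓝 (((cfD' τ).det ^ 2) * (cfLmat τ f).det ^ 2)) :=
    (hdet.pow 2).const_mul _
  refine h1.congr fun z => ?_
  have hM : (Matrix.of fun j x => (f j).1 x z : Matrix X X ℂ) = cfM τ f z := rfl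
  rw [hM, cfM_eq, Matrix.det_mul, Matrix.det_mul, mul_pow, mul_pow, cfE_det_sq]
  have hexp : Complex.exp ((2 * π * I * ((Fintype.card X : ℂ) - (numOrbits τ : ℂ))) * z) *
      Complex.exp (-(2 * π * I * ((Fintype.card X : ℂ) - (numOrbits τ : ℂ))) * z) = 1 := by
    rw [← Complex.exp_add]
    have : (2 * π * I * ((Fintype.card X : ℂ) - (numOrbits τ : ℂ))) * (z : ℂ) +
        -(2 * π * I * ((Fintype.card X : ℂ) - (numOrbits τ : ℂ))) * z = 0 := by ring
    rw [this, Complex.exp_zero]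
  linear_combination (-((cfD' τ).det ^ 2 * (cfAmat τ f z).det ^ 2)) * hexp

lemma cfM_inv (f : X → CuspFamily τ) (z : ℍ) :
    (cfM τ f z)⁻¹ = cfD τ * cfE' τ z * (cfAmat τ f z)⁻¹ := by
  rw [cfM_eq, Matrix.mul_inv_rev, Matrix.mul_inv_rev,
    Matrix.inv_eq_left_inv (cfD_mul_cfD' τ), Matrix.inv_eq_right_inv (cfE_mul_cfE' τ z),
    Matrix.mul_assoc]

lemma cfAmat_inv_tendsto (f : X → CuspFamily τ) (h : (cfLmat τ f).det ≠ 0) :
    Tendsto (fun z => (cfAmat τ f z)⁻¹) atImInfty (𝓝 (cfLmat τ f)⁻¹) := by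
  have hc : ContinuousAt Ring.inverse (cfLmat τ f).det := by
    have := NormedRing.inverse_continuousAt (Units.mk0 _ h)
    simpa using this
  exact (continuousAt_matrix_inv (cfLmat τ f) hc).tendsto.comp (cfAmat_tendsto τ f)

lemma cf_tendsto_exp_twist' {w t : ℕ} (ht : t < w) :
    Tendsto (fun z : ℍ => Complex.exp ((2 * π * I - 2 * π * I * t / w) * z)) atImInfty (𝓝 0) := by
  have hw : (0 : ℝ) < w := by exact_mod_cast (Nat.zero_le t).trans_lt ht
  have htw : (0 : ℝ) < (w : ℝ) - t := by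
    have : (t : ℝ) < w := by exact_mod_cast ht
    linarith
  have hh : (0 : ℝ) < (w : ℝ) / ((w : ℝ) - t) := div_pos hw htw
  refine (qParam_tendsto_atImInfty hh).congr fun z => ?_
  simp only [Function.Periodic.qParam]
  congr 1
  have hw' : (w : ℂ) ≠ 0 := by exact_mod_cast hw.ne'
  have htw' : (w : ℂ) - t ≠ 0 := by exact_mod_cast htw.ne'
  push_cast
  field_simp

lemma cf_discriminant_mul_exp_tendsto (y : X) :
    Tendsto (fun z : ℍ => ModularForm.discriminant z * Complex.exp (-(cfExpo τ y) * z))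
      atImInfty (𝓝 0) := by
  have h1 := cf_tendsto_exp_twist' (cfIdx_lt τ y)
  have h2 := ModularForm.tendsto_atImInfty_tprod_one_sub_eta_q_pow
  have h3 := h1.mul h2
  rw [zero_mul] at h3
  refine h3.congr fun z => ?_
  rw [ModularForm.discriminant_eq_q_prod]
  have : Function.Periodic.qParam 1 (z : ℂ) * Complex.exp (-(cfExpo τ y) * z) =
      Complex.exp ((2 * π * I - 2 * π * I * (cfIdx τ y : ℕ) / (cfPeriod τ y : ℕ)) * z) := by
    unfold Function.Periodic.qParam cfExpo
    rw [← Complex.exp_add]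
    congr 1
    push_cast
    ring
  rw [← this]
  ring

/-- (∞4) -/
lemma cf_inv_tendsto (f : X → CuspFamily τ)
    (h : Matrix.det (Matrix.of fun j y => cfLin τ (f j) y) ≠ 0) (x j : X) :
    Tendsto (fun z : ℍ => ModularForm.discriminant z *
        (Matrix.of fun j x => (f j).1 x z : Matrix X X ℂ)⁻¹ x j) atImInfty (𝓝 0) := by
  have hinv := cfAmat_inv_tendsto τ f h
  have hentry : ∀ y : X, Tendsto (fun z => (cfAmat τ f z)⁻¹ y j) atImInfty
      (𝓝 ((cfLmat τ f)⁻¹ y j)) := fun y =>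
    tendsto_pi_nhds.mp (tendsto_pi_nhds.mp hinv y) j
  have hsum : Tendsto (fun z : ℍ => ∑ y, cfD τ x y *
      ((ModularForm.discriminant z * Complex.exp (-(cfExpo τ y) * z)) * (cfAmat τ f z)⁻¹ y j))
      atImInfty (𝓝 (∑ y, cfD τ x y * (0 * (cfLmat τ f)⁻¹ y j))) :=
    tendsto_finsetSum _ fun y _ =>
      (((cf_discriminant_mul_exp_tendsto τ y).mul (hentry y)).const_mul _)
  simp only [zero_mul, mul_zero, Finset.sum_const_zero] at hsum
  refine hsum.congr fun z => ?_
  have hM : (Matrix.of fun j x => (f j).1 x z : Matrix X X ℂ) = cfM τ f z := rfl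
  rw [hM, cfM_inv, Matrix.mul_apply, Finset.mul_sum]
  refine Finset.sum_congr rfl fun y _ => ?_
  rw [cfE', Matrix.mul_diagonal]
  ring

end Proof

theorem exists_leadingCoeff (τ : Equiv.Perm X) :
    ∃ (L : CuspFamily τ →ₗ[ℂ] (X → ℂ)) (C : ℂ), C ≠ 0 ∧
      -- (∞1) vanishing leading coefficients ⇒ `O(q)`
      (∀ f : CuspFamily τ, L f = 0 →
        ∀ x, (f.1 x) =O[atImInfty] (fun z : ℍ => Complex.exp (2 * π * I * z))) ∧
      -- (∞2) multiplication by a `1`-periodic function with a limit at `i∞`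
      (∀ (f Pf : CuspFamily τ) (P : ℍ → ℂ) (p : ℂ), Tendsto P atImInfty (𝓝 p) →
        (∀ x, Pf.1 x = P * f.1 x) → L Pf = p • L f) ∧
      -- (∞3) asymptotics of the determinant
      (∀ f : X → CuspFamily τ,
        Tendsto (fun z : ℍ => (Matrix.det (Matrix.of fun j x => (f j).1 x z)) ^ 2 *
            Complex.exp (-(2 * π * I * ((Fintype.card X : ℂ) - (numOrbits τ : ℂ))) * z))
          atImInfty (𝓝 (C * (Matrix.det (Matrix.of fun j y => L (f j) y)) ^ 2))) ∧
      -- (∞4) decay of `Δ • (matrix)⁻¹`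
      (∀ f : X → CuspFamily τ, Matrix.det (Matrix.of fun j y => L (f j) y) ≠ 0 →
        ∀ x j, Tendsto (fun z : ℍ => ModularForm.discriminant z *
            (Matrix.of fun j x => (f j).1 x z : Matrix X X ℂ)⁻¹ x j) atImInfty (𝓝 0)) := by
  refine ⟨cfLin τ, (cfD' τ).det ^ 2, pow_ne_zero 2 (cfD'_det_ne_zero τ), ?_, ?_, ?_, ?_⟩
  · exact fun f hf x => cf_isBigO_of_cfLin_eq_zero τ f hf x
  · exact fun f Pf P p hP hPf => cfLin_mul τ f Pf P p hP hPf
  · exact fun f => cf_det_tendsto τ f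
  · exact fun f hf x j => cf_inv_tendsto τ f hf x j

end Fermat.Agent.S20
end MergeWrap_S20_CuspFamily

section MergeWrap_S20_GensCusp_Fam -- from S20/GensCusp/Fam.lean

set_option autoImplicit false
set_option linter.unusedSectionVars false

namespace Fermat.Agent.S20

open UpperHalfPlane hiding I
open ModularForm CongruenceSubgroup Filter Topology Complex
open scoped MatrixGroups ModularForm Manifold Real

namespace Gens

variable {N : ℕ} [NeZero N]

set_option backward.isDefEq.respectTransparency.types false in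
/-- slashing with `T` is translation by `1`. -/
lemma slash_T_apply (F : ℍ → ℂ) (k : ℤ) (z : ℍ) :
    (F ∣[k] ModularGroup.T) z = F ((1 : ℝ) +ᵥ z) := by
  rw [ModularForm.SL_slash_apply, denom, UpperHalfPlane.modular_T_smul, ModularGroup.T]
  simp

/-- the family of translates of a form of level `N`, as a `CuspFamily` for `x ↦ T⁻¹ • x`. -/
noncomputable def famOf {k : ℤ} {f : ℍ → ℂ} (hf : IsMF N k f) : CuspFamily (permT N) :=
  ⟨fun x => tr N k f x, by
    intro x
    refine ⟨hf.tr_holo x, hf.tr_bdd x, fun z => ?_⟩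
    show tr N k f x ((1 : ℝ) +ᵥ z) = tr N k f ((permT N) x) z
    rw [← slash_T_apply (tr N k f x) k z, hf.tr_slash]
    rfl⟩

@[simp] lemma famOf_apply {k : ℤ} {f : ℍ → ℂ} (hf : IsMF N k f) (x : CosetX N) :
    (famOf hf).1 x = tr N k f x := rfl

lemma numOrbits_permT : numOrbits (permT N) = ModularCurve.cuspCount N := by
  rw [← card_orbits_T N]
  unfold numOrbits
  refine Nat.card_congr (Quotient.congr (Equiv.refl _) ?_)
  intro x y
  show (MulAction.orbitRel (Subgroup.zpowers (permT N)) (CosetX N)) x y ↔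
    (MulAction.orbitRel (Subgroup.zpowers ModularGroup.T) (CosetX N)) x y
  rw [MulAction.orbitRel_apply, MulAction.orbitRel_apply, MulAction.mem_orbit_iff,
    MulAction.mem_orbit_iff]
  have hpow : ∀ (k : ℤ) (y : CosetX N), ((permT N) ^ k) y = (ModularGroup.T ^ (-k)) • y := by
    intro k y
    have h1 : (permT N) ^ k = MulAction.toPerm ((ModularGroup.T⁻¹) ^ k) := by
      unfold permT
      exact (map_zpow (MulAction.toPermHom SL(2, ℤ) (CosetX N)) (ModularGroup.T⁻¹) k).symm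
    rw [h1, inv_zpow', MulAction.toPerm_apply]
  constructor
  · rintro ⟨⟨g, hg⟩, hgx⟩
    obtain ⟨k, rfl⟩ := Subgroup.mem_zpowers_iff.mp hg
    refine ⟨⟨ModularGroup.T ^ (-k), Subgroup.mem_zpowers_iff.mpr ⟨-k, rfl⟩⟩, ?_⟩
    have : ((permT N) ^ k) y = x := hgx
    rw [hpow] at this
    exact this
  · rintro ⟨⟨g, hg⟩, hgx⟩
    obtain ⟨k, rfl⟩ := Subgroup.mem_zpowers_iff.mp hg
    refine ⟨⟨(permT N) ^ (-k), Subgroup.mem_zpowers_iff.mpr ⟨-k, rfl⟩⟩, ?_⟩
    have : (ModularGroup.T ^ k) • y = x := hgx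
    show ((permT N) ^ (-k)) y = x
    rw [hpow, neg_neg]
    exact this

end Gens

end Fermat.Agent.S20
end MergeWrap_S20_GensCusp_Fam

section MergeWrap_S20_GensCusp_EvalMatrix -- from S20/GensCusp/EvalMatrix.lean

set_option autoImplicit false
set_option linter.unusedSectionVars false

namespace Fermat.Agent.S20

open UpperHalfPlane hiding I
open ModularForm CongruenceSubgroup Filter Topology Complex
open scoped MatrixGroups ModularForm Manifold Real

namespace Gens

variable {N : ℕ} [NeZero N] (𝔊 : Gens N)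

/-- the matrix of values of the translates of the generators, rows indexed via `e : X ≃ J`. -/
noncomputable def evalMatrix (e : CosetX N ≃ 𝔊.J) (z : ℍ) : Matrix (CosetX N) (CosetX N) ℂ :=
  Matrix.of fun i x => 𝔊.vec (e i) z x

omit [NeZero N] in
@[simp] lemma evalMatrix_apply (e : CosetX N ≃ 𝔊.J) (z : ℍ) (i x : CosetX N) :
    𝔊.evalMatrix e z i x = 𝔊.vec (e i) z x := rfl

end Gens

end Fermat.Agent.S20
end MergeWrap_S20_GensCusp_EvalMatrix

section MergeWrap_S20_GensCusp_DivDisc -- from S20/GensCusp/DivDisc.lean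

set_option autoImplicit false

namespace Fermat.Agent.S20

open UpperHalfPlane ModularForm CongruenceSubgroup Filter Topology
open scoped MatrixGroups ModularForm Manifold Real

/-- `Δ` is invariant under the weight `12` slash action of `SL(2, ℤ)`. -/
lemma divDisc_discriminant_slash (γ : SL(2, ℤ)) :
    ModularForm.discriminant ∣[(12 : ℤ)] γ = ModularForm.discriminant :=
  SlashInvariantForm.slash_action_generators_SL2Z discriminant_S_invariant
    discriminant_T_invariant γ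

lemma divDisc_discriminant_mdiff : MDiff ModularForm.discriminant :=
  CuspForm.discriminant.holo'

/-- `‖exp (2πiz)‖ = exp (-2π im z)`. -/
lemma divDisc_norm_exp (z : ℍ) :
    ‖Complex.exp (2 * π * Complex.I * z)‖ = Real.exp (-2 * π * z.im) := by
  rw [Complex.norm_exp]
  congr 1
  simp [Complex.mul_re, Complex.mul_im]

theorem exists_isMF_discriminant_mul_eq {N : ℕ} [NeZero N] {k : ℤ} {f : ℍ → ℂ} (hf : IsMF N k f)
    (hO : ∀ x : SL(2, ℤ) ⧸ Gamma0 N,
      tr N k f x =O[atImInfty] (fun z : ℍ => Complex.exp (2 * π * Complex.I * z))) :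
    ∃ h : ℍ → ℂ, IsMF N (k - 12) h ∧ f = ModularForm.discriminant * h := by
  have hΔne : ∀ z : ℍ, ModularForm.discriminant z ≠ 0 := discriminant_ne_zero
  let h : ℍ → ℂ := fun z => f z / ModularForm.discriminant z
  have hmul : f = ModularForm.discriminant * h := by
    ext z
    simp only [Pi.mul_apply, h]
    rw [mul_div_cancel₀ _ (hΔne z)]
  have hholo : MDiff h := by
    have h1 := UpperHalfPlane.mdifferentiable_iff.1 hf.holo
    have h2 := UpperHalfPlane.mdifferentiable_iff.1 divDisc_discriminant_mdiff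
    rw [UpperHalfPlane.mdifferentiable_iff]
    have h3 : DifferentiableOn ℂ
        (fun w => (f ∘ ofComplex) w / (ModularForm.discriminant ∘ ofComplex) w)
        upperHalfPlaneSet := by
      refine DifferentiableOn.div h1 h2 ?_
      intro w _
      exact hΔne _
    exact h3.congr fun w _ => rfl
  -- the slash relation `f ∣[k] γ = Δ * (h ∣[k - 12] γ)` for all `γ`
  have hslash : ∀ γ : SL(2, ℤ), f ∣[k] γ = ModularForm.discriminant * (h ∣[k - 12] γ) := by
    intro γ
    have h1 : f ∣[k] γ = (ModularForm.discriminant * h) ∣[(12 : ℤ) + (k - 12)] γ := by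
      rw [← hmul]
      congr 1
      ring
    rw [h1, mul_slash_SL2, divDisc_discriminant_slash]
  have hslash' : ∀ (γ : SL(2, ℤ)) (z : ℍ),
      (h ∣[k - 12] γ) z = (f ∣[k] γ) z / ModularForm.discriminant z := by
    intro γ z
    have := congrFun (hslash γ) z
    simp only [Pi.mul_apply] at this
    rw [this, mul_div_cancel_left₀ _ (hΔne z)]
  refine ⟨h, ⟨hholo, ?_, ?_⟩, hmul⟩
  · intro γ hγ
    ext z
    rw [hslash' γ z, hf.slash γ hγ]
  · intro γ
    have h1 : (f ∣[k] γ) =O[atImInfty] (fun z : ℍ => Complex.exp (2 * π * Complex.I * z)) := by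
      rw [hf.slash_eq_tr γ]
      exact hO _
    have h2 : (fun z : ℍ => Complex.exp (2 * π * Complex.I * z)) =O[atImInfty]
        ModularForm.discriminant := by
      refine Asymptotics.IsBigO.trans ?_ exp_isBigO_discriminant
      refine Asymptotics.IsBigO.of_bound 1 (Eventually.of_forall fun z => ?_)
      rw [divDisc_norm_exp, one_mul, Real.norm_eq_abs, abs_of_pos (Real.exp_pos _)]
    have h3 : (f ∣[k] γ) =O[atImInfty] ModularForm.discriminant := h1.trans h2
    obtain ⟨c, hc⟩ := h3.bound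
    refine Asymptotics.IsBigO.of_bound c ?_
    filter_upwards [hc] with z hz
    rw [hslash' γ z, norm_div]
    have hpos : 0 < ‖ModularForm.discriminant z‖ := norm_pos_iff.2 (hΔne z)
    rw [div_le_iff₀ hpos]
    simpa using hz

end Fermat.Agent.S20
end MergeWrap_S20_GensCusp_DivDisc

section MergeWrap_S20_GensCusp_LeadDet -- from S20/GensCusp/LeadDet.lean

set_option autoImplicit false
set_option linter.unusedSectionVars false

namespace Fermat.Agent.S20

open UpperHalfPlane hiding I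
open ModularForm CongruenceSubgroup Filter Topology Complex Asymptotics
open scoped MatrixGroups ModularForm Manifold Real

local notation "Δ" => ModularForm.discriminant

namespace Gens

variable {N : ℕ} [NeZero N] (𝔊 : Gens N)

/-- a level one form is bounded at `i∞`. -/
lemma leadDet_bdd {k : ℤ} {Q : ℍ → ℂ} (hQ : IsMF 1 k Q) : IsBoundedAtImInfty Q := by
  have h := hQ.bdd 1
  rwa [SlashAction.slash_one] at h

/-- if `c • G = Δ * Q` with `G → 1` and `Q` bounded at `i∞`, then `c = 0`. -/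
lemma leadDet_eq_zero_of_smul_eq {c : ℂ} {G Q : ℍ → ℂ} (hG : Tendsto G atImInfty (𝓝 1))
    (hQ : IsBoundedAtImInfty Q) (h : c • G = Δ * Q) : c = 0 := by
  have h1 : Tendsto (c • G) atImInfty (𝓝 (c • (1 : ℂ))) := hG.const_smul c
  have hΔ : ZeroAtFilter atImInfty (Δ : ℍ → ℂ) := ModularForm.discriminant_isZeroAtImInfty
  have h2 : Tendsto ((Δ : ℍ → ℂ) * Q) atImInfty (𝓝 0) := hΔ.mul_boundedAtFilter hQ
  rw [h] at h1
  have := tendsto_nhds_unique h1 h2
  simpa using this

/-- **Step A.** The matrix of leading coefficients of the generators is nonsingular.  Here `L` is any linear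
map with the properties (∞1), (∞2) of `exists_leadingCoeff`. -/
lemma det_leadingCoeff_ne_zero [Fintype (CosetX N)] [DecidableEq (CosetX N)]
    (L : CuspFamily (permT N) →ₗ[ℂ] (CosetX N → ℂ))
    (h1 : ∀ f : CuspFamily (permT N), L f = 0 →
      ∀ x, (f.1 x) =O[atImInfty] (fun z : ℍ => Complex.exp (2 * π * I * z)))
    (h2 : ∀ (f Pf : CuspFamily (permT N)) (P : ℍ → ℂ) (p : ℂ), Tendsto P atImInfty (𝓝 p) →
      (∀ x, Pf.1 x = P * f.1 x) → L Pf = p • L f)
    (e : CosetX N ≃ 𝔊.J) :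
    Matrix.det (Matrix.of fun i y => L (famOf (𝔊.isMF (e i))) y) ≠ 0 := by
  intro hdet
  obtain ⟨c, hc0, hc⟩ := Matrix.exists_vecMul_eq_zero_iff.mpr hdet
  -- weights
  set K : ℤ := 4 + ∑ i, 𝔊.κ (e i) with hK
  have hκle : ∀ j, 𝔊.κ j ≤ ∑ i, 𝔊.κ (e i) := by
    intro j
    have := Finset.single_le_sum (f := fun i => 𝔊.κ (e i)) (fun i _ => 𝔊.κ_nonneg (e i))
      (Finset.mem_univ (e.symm j))
    simpa using this
  have hm0 : ∀ j, 0 ≤ K - 𝔊.κ j := fun j => by have := hκle j; omega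
  have hm2 : ∀ j, K - 𝔊.κ j ≠ 2 := fun j => by have := hκle j; omega
  have hmev : ∀ j, Even (K - 𝔊.κ j) := by
    intro j
    refine Even.sub (Even.add (by decide) (Finset.even_sum _ fun i _ => 𝔊.κ_even (e i)))
      (𝔊.κ_even j)
  choose G hG hGlim _ using fun j => exists_monomial (hm0 j) (hm2 j) (hmev j)
  -- the forms G_j F_j
  have hGF : ∀ j, IsMF N K (G j * 𝔊.F j) := fun j =>
    ((hG j).of_one.mul (𝔊.isMF j)).cast (by ring)
  -- the form f
  let f : ℍ → ℂ := ∑ i, c i • (G (e i) * 𝔊.F (e i))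
  have hf : IsMF N K f := IsMF.sum _ fun i _ => (hGF (e i)).smul (c i)
  -- famOf f = ∑ c i • famOf (G F)
  have hfam : famOf hf = ∑ i, c i • famOf (hGF (e i)) := by
    apply Subtype.ext
    funext x
    rw [famOf_apply]
    simp only [Submodule.coe_sum, Submodule.coe_smul, Finset.sum_apply, Pi.smul_apply, famOf_apply]
    rw [tr_sum]
    refine Finset.sum_congr rfl fun i _ => ?_
    rw [tr_smul]
  have hLGF : ∀ j, L (famOf (hGF j)) = L (famOf (𝔊.isMF j)) := by
    intro j
    have := h2 (famOf (𝔊.isMF j)) (famOf (hGF j)) (G j) 1 (hGlim j) (fun x => by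
      rw [famOf_apply, famOf_apply]
      exact GensRankAux.tr_mul_of_one' (by ring) (hG j) _ x)
    rw [this, one_smul]
  have hLf : L (famOf hf) = 0 := by
    rw [hfam, map_sum]
    simp only [map_smul, hLGF]
    funext y
    have := congrFun hc y
    simpa [Matrix.vecMul, dotProduct, Finset.sum_apply] using this
  have hO := h1 _ hLf
  obtain ⟨h, hh, hfh⟩ := exists_isMF_discriminant_mul_eq hf (fun x => by simpa using hO x)
  -- transport to J
  let _instJ : Fintype 𝔊.J := Fintype.ofEquiv _ e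
  have hsum : ∑ j ∈ (Finset.univ : Finset 𝔊.J), (c (e.symm j)) • (G j * 𝔊.F j) = Δ * h := by
    rw [← hfh]
    show _ = ∑ i, c i • (G (e i) * 𝔊.F (e i))
    rw [← Equiv.sum_comp e]
    simp
  have key := 𝔊.exists_eq_mul_of_sum_eq_mul K 12 Finset.univ (fun j => c (e.symm j)) G
    (fun j _ => hG j) Δ h isMF_discriminant hh hsum
  apply hc0
  funext i
  obtain ⟨Q, hQ, hQeq⟩ := key (e i) (Finset.mem_univ _)
  have := leadDet_eq_zero_of_smul_eq (hGlim (e i)) (leadDet_bdd hQ) hQeq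
  simpa using this

end Gens

end Fermat.Agent.S20
end MergeWrap_S20_GensCusp_LeadDet

section MergeWrap_S20_GensCusp_DetHolo -- from S20/GensCusp/DetHolo.lean

set_option autoImplicit false

namespace Fermat.Agent.S20

open UpperHalfPlane Filter
open scoped Manifold

/-- The determinant, written pointwise as a finite sum of signed finite products of functions. -/
lemma detHolo_det_eq {X : Type} [Fintype X] [DecidableEq X] (A : X → X → ℍ → ℂ) :
    (fun z : ℍ => Matrix.det (Matrix.of fun i x => A i x z)) =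
      ∑ σ : Equiv.Perm X,
        (Function.const ℍ ((Equiv.Perm.sign σ : ℤ) : ℂ)) * ∏ i : X, A (σ i) i := by
  funext z
  rw [Matrix.det_apply]
  simp only [Finset.sum_apply, Pi.mul_apply, Finset.prod_apply, Function.const_apply,
    Matrix.of_apply]
  refine Finset.sum_congr rfl fun σ _ => ?_
  rw [Units.smul_def, zsmul_eq_mul]

lemma mdiff_det {X : Type} [Fintype X] [DecidableEq X] (A : X → X → ℍ → ℂ)
    (hA : ∀ i x, MDiff (A i x)) :
    MDiff (fun z : ℍ => Matrix.det (Matrix.of fun i x => A i x z)) := by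
  rw [detHolo_det_eq]
  refine MDifferentiable.sum fun σ _ => ?_
  refine MDifferentiable.mul mdifferentiable_const ?_
  exact MDifferentiable.prod fun i _ => hA (σ i) i

lemma isBoundedAtImInfty_det {X : Type} [Fintype X] [DecidableEq X] (A : X → X → ℍ → ℂ)
    (hA : ∀ i x, IsBoundedAtImInfty (A i x)) :
    IsBoundedAtImInfty (fun z : ℍ => Matrix.det (Matrix.of fun i x => A i x z)) := by
  rw [detHolo_det_eq]
  unfold IsBoundedAtImInfty at hA ⊢
  refine (boundedFilterSubalgebra ℂ atImInfty).sum_mem fun σ _ => ?_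
  refine (boundedFilterSubalgebra ℂ atImInfty).mul_mem ?_ ?_
  · exact const_boundedAtFilter atImInfty _
  · exact BoundedAtFilter.prod (l := atImInfty) (f := fun i => A (σ i) i) Finset.univ
      fun i _ => hA (σ i) i

end Fermat.Agent.S20
end MergeWrap_S20_GensCusp_DetHolo

section MergeWrap_S20_GensCusp_Weight -- from S20/GensCusp/Weight.lean

set_option autoImplicit false
set_option linter.unusedSectionVars false

namespace Fermat.Agent.S20

open UpperHalfPlane hiding I
open ModularForm CongruenceSubgroup Filter Topology Complex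
open scoped MatrixGroups ModularForm Manifold Real

namespace Gens

variable {N : ℕ} [NeZero N] (𝔊 : Gens N)

section weight

variable [Fintype (CosetX N)] [DecidableEq (CosetX N)] (e : CosetX N ≃ 𝔊.J)

lemma weight_det_ne_zero (z : ℍ) : (𝔊.evalMatrix e z).det ≠ 0 := by
  have h : IsUnit (𝔊.evalMatrix e z).det := by
    rw [← Matrix.isUnit_iff_isUnit_det, ← Matrix.linearIndependent_rows_iff_isUnit]
    exact (𝔊.linearIndependent_vec z).comp e e.injective
  exact h.ne_zero

lemma weight_mdiff_det : MDiff (fun z : ℍ => (𝔊.evalMatrix e z).det) :=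
  mdiff_det (fun i x => tr N (𝔊.κ (e i)) (𝔊.F (e i)) x)
    (fun i x => (𝔊.isMF (e i)).tr_holo x)

lemma weight_prod_zpow (a : ℂ) (ha : a ≠ 0) (s : Finset (CosetX N)) (k : CosetX N → ℤ) :
    ∏ i ∈ s, a ^ k i = a ^ ∑ i ∈ s, k i := by
  classical
  induction s using Finset.induction_on with
  | empty => simp
  | insert b s hb ih =>
    rw [Finset.prod_insert hb, Finset.sum_insert hb, ih, zpow_add₀ ha]

lemma weight_evalMatrix_smul (g : SL(2, ℤ)) (z : ℍ) :
    𝔊.evalMatrix e (g • z) =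
      Matrix.diagonal (fun i => denom g z ^ 𝔊.κ (e i)) *
        (𝔊.evalMatrix e z).submatrix id (MulAction.toPerm g⁻¹ : Equiv.Perm (CosetX N)) := by
  ext i x
  rw [Matrix.diagonal_mul, Matrix.submatrix_apply, evalMatrix_apply, evalMatrix_apply,
    𝔊.vec_smul]
  rfl

lemma weight_det_sq_smul (g : SL(2, ℤ)) (z : ℍ) :
    (𝔊.evalMatrix e (g • z)).det ^ 2 =
      denom g z ^ (2 * ∑ i, 𝔊.κ (e i)) * (𝔊.evalMatrix e z).det ^ 2 := by
  rw [weight_evalMatrix_smul, Matrix.det_mul, Matrix.det_diagonal, Matrix.det_permute',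
    weight_prod_zpow _ (denom_ne_zero g z)]
  have hs : (((Equiv.Perm.sign (MulAction.toPerm g⁻¹ : Equiv.Perm (CosetX N)) : ℤˣ) : ℤ) : ℂ) ^ 2
      = 1 := by
    rcases Int.units_eq_one_or (Equiv.Perm.sign (MulAction.toPerm g⁻¹ : Equiv.Perm (CosetX N)))
      with h | h <;> rw [h] <;> simp
  have h2 : denom g z ^ (2 * ∑ i, 𝔊.κ (e i)) = (denom g z ^ (∑ i, 𝔊.κ (e i))) ^ 2 := by
    rw [mul_comm, zpow_mul]
    rfl
  rw [h2]
  linear_combination (denom g z ^ (∑ i, 𝔊.κ (e i))) ^ 2 * (𝔊.evalMatrix e z).det ^ 2 * hs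


/-- `Δ(g • z) = Δ(z) · denom^12`. -/
lemma weight_discriminant_smul (g : SL(2, ℤ)) (z : ℍ) :
    ModularForm.discriminant (g • z) = ModularForm.discriminant z * denom g z ^ (12 : ℤ) :=
  isMF_discriminant.apply_smul_eq_mul g z

/-- holomorphy of an integer power of `Δ` -/
lemma weight_mdiff_discriminant_zpow (m : ℤ) :
    MDiff (fun z : ℍ => ModularForm.discriminant z ^ m) := by
  rw [UpperHalfPlane.mdifferentiable_iff]
  have h2 := UpperHalfPlane.mdifferentiable_iff.1 isMF_discriminant.holo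
  intro w hw
  have h3 : DifferentiableWithinAt ℂ (fun w => ((ModularForm.discriminant ∘ ofComplex) w) ^ m)
      upperHalfPlaneSet w :=
    (h2 w hw).zpow (Or.inl (discriminant_ne_zero _))
  exact h3

/-- `Δ^m · exp(-2πi m z)⁻¹ → 1`, in the form: `Δ(z)^(-m) · exp(2πi m z) → 1`. -/
lemma weight_tendsto_discriminant_zpow (m : ℤ) :
    Tendsto (fun z : ℍ => ModularForm.discriminant z ^ (-m) *
        Complex.exp ((2 * π * I * (m : ℂ)) * z)) atImInfty (𝓝 1) := by
  have h1 := tendsto_discriminant_mul_exp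
  have h2 : Tendsto (fun z : ℍ =>
      (ModularForm.discriminant z * Complex.exp (-(2 * π * I) * z)) ^ (-m)) atImInfty
      (𝓝 ((1 : ℂ) ^ (-m))) :=
    (continuousAt_zpow₀ (1 : ℂ) (-m) (Or.inl one_ne_zero)).tendsto.comp h1
  rw [one_zpow] at h2
  refine h2.congr fun z => ?_
  rw [mul_zpow, ← Complex.exp_int_mul]
  congr 2
  push_cast
  ring

/-- the function `Φ = D² Δ^{-m}` -/
noncomputable def weightPhi (m : ℤ) : ℍ → ℂ :=
  fun z => (𝔊.evalMatrix e z).det ^ 2 * ModularForm.discriminant z ^ (-m)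

/-- the function `Ψ = Δ^m D⁻²` -/
noncomputable def weightPsi (m : ℤ) : ℍ → ℂ :=
  fun z => ModularForm.discriminant z ^ m * ((𝔊.evalMatrix e z).det ^ 2)⁻¹

lemma weightPhi_mul_weightPsi (m : ℤ) : 𝔊.weightPhi e m * 𝔊.weightPsi e m = 1 := by
  funext z
  simp only [Pi.mul_apply, Pi.one_apply, weightPhi, weightPsi]
  have h1 := 𝔊.weight_det_ne_zero e z
  have h2 : ModularForm.discriminant z ≠ 0 := discriminant_ne_zero z
  rw [zpow_neg]
  field_simp

lemma weightPhi_smul (m : ℤ) (g : SL(2, ℤ)) (z : ℍ) :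
    𝔊.weightPhi e m (g • z) =
      𝔊.weightPhi e m z * denom g z ^ (2 * ∑ i, 𝔊.κ (e i) - 12 * m) := by
  simp only [weightPhi]
  rw [𝔊.weight_det_sq_smul e g z, weight_discriminant_smul, mul_zpow, ← zpow_mul,
    zpow_sub₀ (denom_ne_zero g z)]
  have h3 : denom g z ^ ((12 : ℤ) * -m) = (denom g z ^ (12 * m))⁻¹ := by
    rw [mul_neg, zpow_neg]
  rw [h3]
  ring

lemma weightPsi_smul (m : ℤ) (g : SL(2, ℤ)) (z : ℍ) :
    𝔊.weightPsi e m (g • z) =
      𝔊.weightPsi e m z * denom g z ^ (-(2 * ∑ i, 𝔊.κ (e i) - 12 * m)) := by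
  simp only [weightPsi]
  rw [𝔊.weight_det_sq_smul e g z, weight_discriminant_smul, mul_zpow, ← zpow_mul, mul_inv,
    neg_sub, zpow_sub₀ (denom_ne_zero g z)]
  ring

/-- a holomorphic function with the automorphy of weight `W` for all of `SL(2,ℤ)` which is bounded at
`i∞` is a level-one form. -/
lemma weight_isMF_of_smul {W : ℤ} {f : ℍ → ℂ} (hholo : MDiff f)
    (hsmul : ∀ (g : SL(2, ℤ)) (z : ℍ), f (g • z) = f z * denom g z ^ W)
    (hbdd : IsBoundedAtImInfty f) : IsMF 1 W f := by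
  have hslash : ∀ g : SL(2, ℤ), f ∣[W] g = f := by
    intro g
    funext z
    rw [ModularForm.SL_slash_apply, hsmul, mul_assoc, ← zpow_add₀ (denom_ne_zero g z),
      add_neg_cancel, zpow_zero, mul_one]
  exact ⟨hholo, fun γ _ => hslash γ, fun γ => by rw [hslash γ]; exact hbdd⟩


lemma sum_κ_of_tendsto {a : ℂ} (ha : a ≠ 0)
    (hlim : Tendsto (fun z : ℍ => (Matrix.det (𝔊.evalMatrix e z)) ^ 2 *
        Complex.exp (-(2 * π * I * ((Fintype.card (CosetX N) : ℂ) - (numOrbits (permT N) : ℂ))) * z))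
      atImInfty (𝓝 a)) :
    ∑ i, 𝔊.κ (e i) = 6 * ((Fintype.card (CosetX N) : ℤ) - (numOrbits (permT N) : ℤ)) := by
  set m : ℤ := (Fintype.card (CosetX N) : ℤ) - (numOrbits (permT N) : ℤ) with hm
  have hmC : ((Fintype.card (CosetX N) : ℂ) - (numOrbits (permT N) : ℂ)) = (m : ℂ) := by
    rw [hm]; push_cast; ring
  rw [hmC] at hlim
  -- the limit of `Φ`
  have hΦlim : Tendsto (𝔊.weightPhi e m) atImInfty (𝓝 a) := by
    have h := hlim.mul (weight_tendsto_discriminant_zpow m)
    rw [mul_one] at h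
    refine h.congr fun z => ?_
    simp only [weightPhi]
    have hexp : Complex.exp (-(2 * π * I * (m : ℂ)) * z) * Complex.exp ((2 * π * I * (m : ℂ)) * z)
        = 1 := by
      rw [← Complex.exp_add]
      simp
    linear_combination ((𝔊.evalMatrix e z).det ^ 2 * ModularForm.discriminant z ^ (-m)) * hexp
  have hΨlim : Tendsto (𝔊.weightPsi e m) atImInfty (𝓝 a⁻¹) := by
    have h := hΦlim.inv₀ ha
    refine h.congr fun z => ?_
    simp only [weightPhi, weightPsi]
    rw [mul_inv, zpow_neg, inv_inv, mul_comm]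
  have hΦ : IsMF 1 (2 * ∑ i, 𝔊.κ (e i) - 12 * m) (𝔊.weightPhi e m) := by
    refine weight_isMF_of_smul ?_ (𝔊.weightPhi_smul e m) ?_
    · exact ((𝔊.weight_mdiff_det e).pow 2).mul (weight_mdiff_discriminant_zpow (-m))
    · exact hΦlim.isBigO_one ℝ
  have hΨ : IsMF 1 (-(2 * ∑ i, 𝔊.κ (e i) - 12 * m)) (𝔊.weightPsi e m) := by
    refine weight_isMF_of_smul ?_ (𝔊.weightPsi_smul e m) ?_
    · refine (weight_mdiff_discriminant_zpow m).mul ?_
      have h1 : MDiff (fun z : ℍ => ((𝔊.evalMatrix e z).det ^ 2)) := (𝔊.weight_mdiff_det e).pow 2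
      have h2 : (fun z : ℍ => ((𝔊.evalMatrix e z).det ^ 2)⁻¹) =
          (fun _ : ℍ => (1 : ℂ)) / (fun z : ℍ => ((𝔊.evalMatrix e z).det ^ 2)) := by
        funext z
        simp
      rw [h2]
      exact MDifferentiable.div mdifferentiable_const h1
        (fun z => pow_ne_zero 2 (𝔊.weight_det_ne_zero e z))
    · exact hΨlim.isBigO_one ℝ
  have hW := weight_eq_zero_of_mul_eq_one hΦ hΨ (𝔊.weightPhi_mul_weightPsi e m)
  omega

end weight

end Gens

end Fermat.Agent.S20
end MergeWrap_S20_GensCusp_Weight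

section MergeWrap_S20_GensCusp -- from S20/GensCusp.lean

set_option autoImplicit false
set_option linter.unusedSectionVars false

namespace Fermat.Agent.S20

open UpperHalfPlane hiding I
open ModularForm CongruenceSubgroup Filter Topology Complex
open scoped MatrixGroups ModularForm Manifold Real

local notation "Δ" => ModularForm.discriminant

namespace Gens

variable {N : ℕ} [NeZero N] (𝔊 : Gens N)

/-! ### (G5) the cusps: sum of the weights -/

/-- decay of `Δ • (evalMatrix)⁻¹` at `i∞` (from (∞4) of `exists_leadingCoeff` and the nonvanishing of the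
leading-coefficient determinant). -/
lemma tendsto_discriminant_mul_inv [Fintype (CosetX N)] [DecidableEq (CosetX N)]
    (e : CosetX N ≃ 𝔊.J) (x i : CosetX N) :
    Tendsto (fun z : ℍ => ModularForm.discriminant z * (𝔊.evalMatrix e z)⁻¹ x i) atImInfty (𝓝 0) := by
  obtain ⟨L, C, -, h1, h2, -, h4⟩ := exists_leadingCoeff (permT N)
  have hdet := 𝔊.det_leadingCoeff_ne_zero L h1 h2 e
  exact h4 (fun i => famOf (𝔊.isMF (e i))) hdet x i

/-- `∑_j κ_j = 6 (n - c)`. See the blueprint: the leading-coefficient matrix of the generators is nonsingular (same argument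
as (G2) with `φ = Δ`, using (∞1), (∞2) of `exists_leadingCoeff` and division by `Δ`), so by (∞3)
`(det A)² / Δ^{n-c}` is a level-one form of weight `2 ∑ κ_j - 12 (n - c)` with no zeros (by `linearIndependent_vec`) and
nonzero limit at `i∞`; its inverse is a level-one form as well, hence the weight is `0`. -/
lemma sum_κ : ∑ᶠ j, 𝔊.κ j = 6 * ((Nat.card (CosetX N) : ℤ) - (ModularCurve.cuspCount N : ℤ)) := by
  classical
  have _hJ : Finite 𝔊.J := 𝔊.finite_J
  let _instX : Fintype (CosetX N) := Fintype.ofFinite _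
  obtain ⟨e⟩ : Nonempty (CosetX N ≃ 𝔊.J) := Finite.card_eq.mp 𝔊.card_J.symm
  obtain ⟨L, C, hC, h1, h2, h3, -⟩ := exists_leadingCoeff (permT N)
  have hdet := 𝔊.det_leadingCoeff_ne_zero L h1 h2 e
  have hlim := h3 (fun i => famOf (𝔊.isMF (e i)))
  have hsum := 𝔊.sum_κ_of_tendsto e (mul_ne_zero hC (pow_ne_zero 2 hdet)) hlim
  rw [← finsum_comp_equiv e, finsum_eq_sum_of_fintype, hsum, numOrbits_permT,
    Nat.card_eq_fintype_card]

end Gens

end Fermat.Agent.S20
end MergeWrap_S20_GensCusp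

section MergeWrap_S20_GensDual_Core -- from S20/GensDual/Core.lean

set_option autoImplicit false
set_option linter.unusedSectionVars false

namespace Fermat.Agent.S20

open UpperHalfPlane hiding I
open ModularForm CongruenceSubgroup Filter Topology Complex
open scoped MatrixGroups ModularForm Manifold Real Matrix

local notation "Δ" => ModularForm.discriminant

namespace GensDualAux

/-- holomorphy of the determinant of a matrix with holomorphic entries -/
lemma mdiff_det {X : Type} [Fintype X] [DecidableEq X] (M : ℍ → Matrix X X ℂ)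
    (hM : ∀ a b, MDiff (fun z => M z a b)) : MDiff (fun z => (M z).det) := by
  have h : (fun z => (M z).det) =
      ∑ σ : Equiv.Perm X, (fun _ : ℍ => (((Equiv.Perm.sign σ : ℤˣ) : ℤ) : ℂ)) *
        ∏ i, (fun z => M z (σ i) i) := by
    funext z
    rw [Matrix.det_apply', Finset.sum_apply]
    refine Finset.sum_congr rfl fun σ _ => ?_
    rw [Pi.mul_apply, Finset.prod_apply]
  rw [h]
  refine MDifferentiable.sum fun σ _ => ?_
  refine MDifferentiable.mul mdifferentiable_const ?_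
  exact MDifferentiable.prod fun i _ => hM (σ i) i

variable {N : ℕ} [NeZero N] (𝔊 : Gens N)

/-- the evaluation matrix (local copy of `Gens.evalMatrix`, definitionally equal to it). -/
noncomputable def mat (e : CosetX N ≃ 𝔊.J) (z : ℍ) : Matrix (CosetX N) (CosetX N) ℂ :=
  Matrix.of fun i x => 𝔊.vec (e i) z x

variable [Fintype (CosetX N)] [DecidableEq (CosetX N)] (e : CosetX N ≃ 𝔊.J)

lemma mat_apply (z : ℍ) (i x : CosetX N) :
    mat 𝔊 e z i x = tr N (𝔊.κ (e i)) (𝔊.F (e i)) x z := rfl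

lemma isUnit_det_mat (z : ℍ) : IsUnit (mat 𝔊 e z).det := by
  rw [← Matrix.isUnit_iff_isUnit_det, ← Matrix.linearIndependent_rows_iff_isUnit]
  exact (𝔊.linearIndependent_vec z).comp e e.injective

lemma det_mat_ne_zero (z : ℍ) : (mat 𝔊 e z).det ≠ 0 := (isUnit_det_mat 𝔊 e z).ne_zero

lemma mat_mul_inv (z : ℍ) : mat 𝔊 e z * (mat 𝔊 e z)⁻¹ = 1 :=
  Matrix.mul_nonsing_inv _ (isUnit_det_mat 𝔊 e z)

lemma inv_mul_mat (z : ℍ) : (mat 𝔊 e z)⁻¹ * mat 𝔊 e z = 1 :=
  Matrix.nonsing_inv_mul _ (isUnit_det_mat 𝔊 e z)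

lemma mdiff_mat (i x : CosetX N) : MDiff (fun z => mat 𝔊 e z i x) :=
  (𝔊.isMF (e i)).tr_holo x

lemma mdiff_inv (x i : CosetX N) : MDiff (fun z => (mat 𝔊 e z)⁻¹ x i) := by
  have h1 : (fun z => (mat 𝔊 e z)⁻¹ x i) =
      (fun z => ((mat 𝔊 e z).updateRow i (Pi.single x 1)).det) / (fun z => (mat 𝔊 e z).det) := by
    funext z
    rw [Matrix.inv_def, Matrix.smul_apply, Matrix.adjugate_apply, Ring.inverse_eq_inv',
      smul_eq_mul, Pi.div_apply, div_eq_inv_mul]
  rw [h1]
  refine MDifferentiable.div ?_ ?_ (det_mat_ne_zero 𝔊 e)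
  · refine mdiff_det _ fun a b => ?_
    by_cases h : a = i
    · subst h
      simp only [Matrix.updateRow_self]
      exact mdifferentiable_const
    · simp only [Matrix.updateRow_ne h]
      exact mdiff_mat 𝔊 e a b
  · exact mdiff_det _ fun a b => mdiff_mat 𝔊 e a b

lemma mat_smul (g : SL(2, ℤ)) (z : ℍ) (i x : CosetX N) :
    mat 𝔊 e (g • z) i x = denom g z ^ 𝔊.κ (e i) * mat 𝔊 e z i (g⁻¹ • x) :=
  𝔊.vec_smul (e i) g z x

lemma inv_smul (g : SL(2, ℤ)) (z : ℍ) (x i : CosetX N) :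
    (mat 𝔊 e (g • z))⁻¹ x i = denom g z ^ (-𝔊.κ (e i)) * (mat 𝔊 e z)⁻¹ (g⁻¹ • x) i := by
  have key : mat 𝔊 e (g • z) * (Matrix.of fun x i =>
      denom g z ^ (-𝔊.κ (e i)) * (mat 𝔊 e z)⁻¹ (g⁻¹ • x) i) = 1 := by
    ext i i'
    rw [Matrix.mul_apply]
    simp only [Matrix.of_apply, mat_smul]
    have h1 : ∀ x : CosetX N, denom g z ^ 𝔊.κ (e i) * mat 𝔊 e z i (g⁻¹ • x) *
        (denom g z ^ (-𝔊.κ (e i')) * (mat 𝔊 e z)⁻¹ (g⁻¹ • x) i') =
        denom g z ^ 𝔊.κ (e i) * denom g z ^ (-𝔊.κ (e i')) *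
          (fun y => mat 𝔊 e z i y * (mat 𝔊 e z)⁻¹ y i') (MulAction.toPerm g⁻¹ x) := by
      intro x
      simp only [MulAction.toPerm_apply]
      ring
    simp only [h1]
    rw [← Finset.mul_sum, Equiv.sum_comp (MulAction.toPerm g⁻¹)
      (fun y => mat 𝔊 e z i y * (mat 𝔊 e z)⁻¹ y i'), ← Matrix.mul_apply, mat_mul_inv]
    by_cases h : i = i'
    · subst h
      rw [Matrix.one_apply_eq, mul_one, ← zpow_add₀ (denom_ne_zero g z), add_neg_cancel, zpow_zero]
    · rw [Matrix.one_apply_ne h, mul_zero]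
  rw [Matrix.inv_eq_right_inv key]
  rfl

/-- the dual functions `H x i = Δ · (A⁻¹)_{x,i}`. -/
noncomputable def H (x i : CosetX N) : ℍ → ℂ := fun z => Δ z * (mat 𝔊 e z)⁻¹ x i

lemma H_apply (x i : CosetX N) (z : ℍ) : H 𝔊 e x i z = Δ z * (mat 𝔊 e z)⁻¹ x i := rfl

lemma mdiff_H (x i : CosetX N) : MDiff (H 𝔊 e x i) :=
  MDifferentiable.mul CuspForm.discriminant.holo' (mdiff_inv 𝔊 e x i)

lemma discriminant_smul (g : SL(2, ℤ)) (z : ℍ) : Δ (g • z) = Δ z * denom g z ^ (12 : ℤ) := by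
  have h := slash_apply_eq Δ 12 g z
  have h2 : (Δ ∣[(12 : ℤ)] g) = Δ :=
    SlashInvariantForm.slash_action_eqn CuspForm.discriminant _ ⟨g, rfl⟩
  rwa [h2] at h

lemma H_slash (g : SL(2, ℤ)) (x i : CosetX N) :
    (H 𝔊 e x i) ∣[12 - 𝔊.κ (e i)] g = H 𝔊 e (g⁻¹ • x) i := by
  funext z
  have h := slash_apply_eq (H 𝔊 e x i) (12 - 𝔊.κ (e i)) g z
  have hd := denom_ne_zero g z
  rw [H_apply, inv_smul, discriminant_smul] at h
  rw [H_apply]
  have h3 : denom g z ^ (12 - 𝔊.κ (e i)) ≠ 0 := zpow_ne_zero _ hd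
  apply mul_right_cancel₀ h3
  rw [← h, zpow_sub₀ hd, zpow_neg]
  field_simp


/-- the base point `x₀ = Γ₀(N)` of `X`. -/
noncomputable def x₀ (N : ℕ) : CosetX N := QuotientGroup.mk 1

omit [NeZero N] [Fintype (CosetX N)] [DecidableEq (CosetX N)] in
lemma smul_x₀_of_mem (γ : SL(2, ℤ)) (hγ : γ ∈ Gamma0 N) : γ⁻¹ • x₀ N = x₀ N := by
  change (QuotientGroup.mk (γ⁻¹ * 1) : CosetX N) = QuotientGroup.mk 1
  rw [QuotientGroup.eq]
  simpa using hγ

omit [NeZero N] [Fintype (CosetX N)] [DecidableEq (CosetX N)] in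
lemma exists_smul_x₀ (x : CosetX N) : ∃ g : SL(2, ℤ), g⁻¹ • x₀ N = x := by
  induction x using QuotientGroup.induction_on with
  | H a =>
    refine ⟨a⁻¹, ?_⟩
    change (QuotientGroup.mk (a⁻¹⁻¹ * 1) : CosetX N) = QuotientGroup.mk a
    rw [inv_inv, mul_one]

section decay

variable (hdecay : ∀ x i : CosetX N,
  Tendsto (fun z : ℍ => Δ z * (mat 𝔊 e z)⁻¹ x i) atImInfty (𝓝 0))

include hdecay

lemma isCF_H (i : CosetX N) : IsCF N (12 - 𝔊.κ (e i)) (H 𝔊 e (x₀ N) i) where
  holo := mdiff_H 𝔊 e _ i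
  slash γ hγ := by rw [H_slash, smul_x₀_of_mem γ hγ]
  zero g := by
    rw [H_slash]
    exact hdecay _ _

omit hdecay in
lemma H_ne_zero (i : CosetX N) : H 𝔊 e (x₀ N) i ≠ 0 := by
  intro h0
  have hall : ∀ x, H 𝔊 e x i = 0 := by
    intro x
    obtain ⟨g, rfl⟩ := exists_smul_x₀ x
    rw [← H_slash, h0]
    exact SlashAction.zero_slash _ _
  have hcol : ∀ x, (mat 𝔊 e UpperHalfPlane.I)⁻¹ x i = 0 := by
    intro x
    have := congrFun (hall x) UpperHalfPlane.I
    rw [H_apply, Pi.zero_apply] at this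
    exact (mul_eq_zero.mp this).resolve_left (discriminant_ne_zero _)
  have h1 := congrFun (congrFun (mat_mul_inv 𝔊 e UpperHalfPlane.I) i) i
  rw [Matrix.mul_apply, Matrix.one_apply_eq] at h1
  simp only [hcol, mul_zero, Finset.sum_const_zero] at h1
  exact zero_ne_one h1

lemma κ_lt_twelve (i : CosetX N) : 𝔊.κ (e i) < 12 := by
  by_contra hlt
  rw [not_lt] at hlt
  have hcf := isCF_H 𝔊 e hdecay i
  apply H_ne_zero 𝔊 e i
  rcases hlt.lt_or_eq with h | h
  · exact hcf.isMF.eq_zero_of_neg (by linarith)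
  · have h0 : 12 - 𝔊.κ (e i) = 0 := by rw [← h]; ring
    obtain ⟨c, hc⟩ := (hcf.isMF.cast h0).eq_const_of_zero
    have hz : Tendsto (H 𝔊 e (x₀ N) i) atImInfty (𝓝 0) := by
      have := hcf.zero 1
      rwa [SlashAction.slash_one] at this
    rw [hc] at hz
    have hc0 : c = 0 := tendsto_nhds_unique tendsto_const_nhds hz
    rw [hc, hc0]
    rfl

lemma κ_le_ten_aux (j : 𝔊.J) : 𝔊.κ j ≤ 10 := by
  have h1 := κ_lt_twelve 𝔊 e hdecay (e.symm j)
  rw [e.apply_symm_apply] at h1
  obtain ⟨m, hm⟩ := 𝔊.κ_even j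
  omega

end decay


/-! ### The pairing with a cusp form of weight 2 -/

omit [NeZero N] in
lemma IsCF_cast {k k' : ℤ} {f : ℍ → ℂ} (h : k = k') (hf : IsCF N k f) : IsCF N k' f := h ▸ hf

/-- bundle a level one cusp form as a Mathlib level one cusp form -/
noncomputable def toCF1 {k : ℤ} {f : ℍ → ℂ} (h : IsCF 1 k f) : CuspForm 𝒮ℒ k where
  toFun := f
  slash_action_eq' := by
    rintro _ ⟨γ, rfl⟩
    exact h.isMF.slash_one γ
  holo' := h.holo
  zero_at_cusps' {c} hc := by
    rw [OnePoint.isZeroAt_iff_forall_SL2Z hc]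
    exact fun γ _ => h.zero γ

lemma coe_toCF1 {k : ℤ} {f : ℍ → ℂ} (h : IsCF 1 k f) : ⇑(toCF1 h) = f := rfl

/-- the pairing `P_i = ∑_x F_{i,x} f_x` of the generator `F_i` with `f`. -/
noncomputable def pairing (f : ℍ → ℂ) (i : CosetX N) : ℍ → ℂ :=
  ∑ x : CosetX N, tr N (𝔊.κ (e i)) (𝔊.F (e i)) x * tr N 2 f x

lemma pairing_apply (f : ℍ → ℂ) (i : CosetX N) (z : ℍ) :
    pairing 𝔊 e f i z = ∑ x : CosetX N, mat 𝔊 e z i x * tr N 2 f x z := by
  unfold pairing
  rw [Finset.sum_apply]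
  rfl

lemma pairing_slash {f : ℍ → ℂ} (hf : IsCF N 2 f) (i : CosetX N) (g : SL(2, ℤ)) :
    (pairing 𝔊 e f i) ∣[𝔊.κ (e i) + 2] g = pairing 𝔊 e f i := by
  unfold pairing
  rw [SlashAction.sum_slash]
  simp only [ModularForm.mul_slash_SL2, (𝔊.isMF (e i)).tr_slash, hf.isMF.tr_slash]
  exact Equiv.sum_comp (MulAction.toPerm g⁻¹)
    (fun y => tr N (𝔊.κ (e i)) (𝔊.F (e i)) y * tr N 2 f y)

lemma pairing_zero_at {f : ℍ → ℂ} (hf : IsCF N 2 f) (i : CosetX N) :
    IsZeroAtImInfty (pairing 𝔊 e f i) := by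
  unfold pairing
  have h : ∀ x : CosetX N, Tendsto (tr N (𝔊.κ (e i)) (𝔊.F (e i)) x * tr N 2 f x) atImInfty (𝓝 0) :=
    fun x => ((𝔊.isMF (e i)).tr_bdd x).mul_zeroAtFilter (hf.tr_zero x)
  have h2 := tendsto_finsetSum (Finset.univ : Finset (CosetX N)) (fun x _ => h x)
  simp only [Finset.sum_const_zero] at h2
  unfold IsZeroAtImInfty ZeroAtFilter
  convert h2 using 1
  funext z
  rw [Finset.sum_apply]

lemma pairing_isCF {f : ℍ → ℂ} (hf : IsCF N 2 f) (i : CosetX N) :
    IsCF 1 (𝔊.κ (e i) + 2) (pairing 𝔊 e f i) where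
  holo := by
    unfold pairing
    exact MDifferentiable.sum fun x _ =>
      MDifferentiable.mul ((𝔊.isMF (e i)).tr_holo x) (hf.isMF.tr_holo x)
  slash γ _ := pairing_slash 𝔊 e hf i γ
  zero γ := by
    rw [pairing_slash 𝔊 e hf i γ]
    exact pairing_zero_at 𝔊 e hf i

section decay2

variable (hdecay : ∀ x i : CosetX N,
  Tendsto (fun z : ℍ => Δ z * (mat 𝔊 e z)⁻¹ x i) atImInfty (𝓝 0))

include hdecay

/-- `P_i = c_i Δ` with `c_i = 0` unless `κ_i = 10`. -/
lemma exists_const {f : ℍ → ℂ} (hf : IsCF N 2 f) (i : CosetX N) :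
    ∃ c : ℂ, (𝔊.κ (e i) ≠ 10 → c = 0) ∧ ∀ z, pairing 𝔊 e f i z = Δ z * c := by
  set Pcf := toCF1 (pairing_isCF 𝔊 e hf i) with hPcf
  set Q := CuspForm.discriminantEquiv Pcf with hQ
  have hPQ : ∀ z, pairing 𝔊 e f i z = Δ z * Q z := fun z =>
    (ModularForm.discriminant_mul_discriminantEquiv_apply Pcf z).symm
  have hQmf : IsMF 1 (𝔊.κ (e i) + 2 - 12) Q := isMF_one_coe Q
  have hlt := κ_lt_twelve 𝔊 e hdecay i
  obtain ⟨m, hm⟩ := 𝔊.κ_even (e i)
  by_cases h10 : 𝔊.κ (e i) = 10
  · obtain ⟨c, hc⟩ := (hQmf.cast (show 𝔊.κ (e i) + 2 - 12 = 0 by rw [h10]; norm_num)).eq_const_of_zero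
    refine ⟨c, fun h => absurd h10 h, fun z => ?_⟩
    rw [hPQ z, hc]
  · have hneg : 𝔊.κ (e i) + 2 - 12 < 0 := by omega
    have h0 := hQmf.eq_zero_of_neg hneg
    refine ⟨0, fun _ => rfl, fun z => ?_⟩
    rw [hPQ z, h0, Pi.zero_apply]

end decay2


/-! ### The basis of `S₂(Γ₀(N))` -/

lemma sum_subtype_eq {X : Type} [Fintype X] (p : X → Prop) [DecidablePred p]
    (c h : X → ℂ) (hc : ∀ i, ¬ p i → c i = 0) :
    ∑ i : {i // p i}, c i.1 * h i.1 = ∑ i, c i * h i := by
  rw [← Finset.sum_subtype (Finset.univ.filter p) (by simp) (fun i => c i * h i),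
    Finset.sum_filter]
  refine Finset.sum_congr rfl fun i _ => ?_
  split_ifs with hp
  · rfl
  · rw [hc i hp, zero_mul]

lemma H_slash_two (g : SL(2, ℤ)) (x i : CosetX N) (hi : 𝔊.κ (e i) = 10) :
    (H 𝔊 e x i) ∣[(2 : ℤ)] g = H 𝔊 e (g⁻¹ • x) i := by
  have h2 : (2 : ℤ) = 12 - 𝔊.κ (e i) := by rw [hi]; norm_num
  rw [h2]
  exact H_slash 𝔊 e g x i

/-- `∑_i c_i H_{x,i} = 0` for all `x` forces `c = 0`. -/
lemma eq_zero_of_sum_H (c : CosetX N → ℂ) (z : ℍ)
    (h : ∀ x, ∑ i, c i * H 𝔊 e x i z = 0) : c = 0 := by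
  have h1 : (mat 𝔊 e z)⁻¹ *ᵥ c = 0 := by
    funext x
    have hx := h x
    simp only [H_apply] at hx
    have h2 : ∑ i, c i * (Δ z * (mat 𝔊 e z)⁻¹ x i) = Δ z * ∑ i, (mat 𝔊 e z)⁻¹ x i * c i := by
      rw [Finset.mul_sum]
      exact Finset.sum_congr rfl fun i _ => by ring
    rw [h2] at hx
    have := (mul_eq_zero.mp hx).resolve_left (discriminant_ne_zero z)
    simpa [Matrix.mulVec, dotProduct] using this
  have h3 : mat 𝔊 e z *ᵥ ((mat 𝔊 e z)⁻¹ *ᵥ c) = c := by
    rw [Matrix.mulVec_mulVec, mat_mul_inv, Matrix.one_mulVec]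
  rw [← h3, h1, Matrix.mulVec_zero]

/-- if `A v = Δ c` then `v_x = ∑_i c_i H_{x,i}`. -/
lemma eq_sum_H (c v : CosetX N → ℂ) (z : ℍ)
    (h : ∀ i, ∑ x, mat 𝔊 e z i x * v x = Δ z * c i) (x : CosetX N) :
    v x = ∑ i, c i * H 𝔊 e x i z := by
  have h1 : mat 𝔊 e z *ᵥ v = Δ z • c := by
    funext i
    simpa [Matrix.mulVec, dotProduct] using h i
  have h3 : (mat 𝔊 e z)⁻¹ *ᵥ (mat 𝔊 e z *ᵥ v) = v := by
    rw [Matrix.mulVec_mulVec, inv_mul_mat, Matrix.one_mulVec]
  rw [← h3, h1]
  simp only [Matrix.mulVec, dotProduct, H_apply, Pi.smul_apply, smul_eq_mul]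
  exact Finset.sum_congr rfl fun i _ => by ring

section decay3

variable (hdecay : ∀ x i : CosetX N,
  Tendsto (fun z : ℍ => Δ z * (mat 𝔊 e z)⁻¹ x i) atImInfty (𝓝 0))

/-- the cusp forms of weight 2 dual to the generators of weight 10. -/
noncomputable def Hcf (i : {i : CosetX N // 𝔊.κ (e i) = 10}) : CuspForm (Gamma0 N) 2 :=
  IsCF.toCF (IsCF_cast (show 12 - 𝔊.κ (e i.1) = 2 by rw [i.2]; norm_num)
    (isCF_H 𝔊 e hdecay i.1))

lemma coe_Hcf (i : {i : CosetX N // 𝔊.κ (e i) = 10}) :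
    ⇑(Hcf 𝔊 e hdecay i) = H 𝔊 e (x₀ N) i.1 := rfl

lemma coe_sum_Hcf (c : {i : CosetX N // 𝔊.κ (e i) = 10} → ℂ) :
    ⇑(∑ i, c i • Hcf 𝔊 e hdecay i) = ∑ i, c i • H 𝔊 e (x₀ N) i.1 := by
  classical
  have : ∀ s : Finset {i : CosetX N // 𝔊.κ (e i) = 10},
      ⇑(∑ i ∈ s, c i • Hcf 𝔊 e hdecay i) = ∑ i ∈ s, c i • H 𝔊 e (x₀ N) i.1 := by
    intro s
    induction s using Finset.induction_on with
    | empty => simp
    | insert a s ha ih =>
      rw [Finset.sum_insert ha, Finset.sum_insert ha, FunLike.coe_add, ih]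
      rfl
  exact this _

lemma linearIndependent_Hcf : LinearIndependent ℂ (Hcf 𝔊 e hdecay) := by
  classical
  rw [Fintype.linearIndependent_iff]
  intro c hc i
  have hc' := congrArg (fun F : CuspForm (Gamma0 N) 2 => (⇑F : ℍ → ℂ)) hc
  simp only [coe_sum_Hcf] at hc'
  have hc'' : (∑ i, c i • H 𝔊 e (x₀ N) i.1 : ℍ → ℂ) = 0 := hc'
  set c' : CosetX N → ℂ := fun i => if h : 𝔊.κ (e i) = 10 then c ⟨i, h⟩ else 0 with hc'def
  have hc'0 : ∀ i, ¬ 𝔊.κ (e i) = 10 → c' i = 0 := fun i hi => dif_neg hi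
  have hc'1 : ∀ i : {i : CosetX N // 𝔊.κ (e i) = 10}, c' i.1 = c i := fun i => by
    simp only [hc'def, dif_pos i.2]
  have hall : ∀ x, ∑ i, c' i * H 𝔊 e x i UpperHalfPlane.I = 0 := by
    intro x
    obtain ⟨g, rfl⟩ := exists_smul_x₀ x
    rw [← sum_subtype_eq (fun i => 𝔊.κ (e i) = 10) c'
      (fun i => H 𝔊 e (g⁻¹ • x₀ N) i UpperHalfPlane.I) hc'0]
    have h1 := congrArg (fun F : ℍ → ℂ => (F ∣[(2 : ℤ)] g) UpperHalfPlane.I) hc''
    simp only [SlashAction.sum_slash, ModularForm.SL_smul_slash, SlashAction.zero_slash,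
      Finset.sum_apply, Pi.smul_apply, Pi.zero_apply, smul_eq_mul] at h1
    rw [← h1]
    refine Finset.sum_congr rfl fun i _ => ?_
    rw [hc'1, H_slash_two 𝔊 e g _ _ i.2]
  have h0 := eq_zero_of_sum_H 𝔊 e c' UpperHalfPlane.I hall
  rw [← hc'1, h0]
  rfl

include hdecay in
lemma exists_coeff (f : CuspForm (Gamma0 N) 2) :
    ∃ c : {i : CosetX N // 𝔊.κ (e i) = 10} → ℂ, f = ∑ i, c i • Hcf 𝔊 e hdecay i := by
  classical
  have hf : IsCF N 2 f := isCF_coe f
  choose c hc0 hc using exists_const 𝔊 e hdecay hf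
  refine ⟨fun i => c i.1, ?_⟩
  apply DFunLike.coe_injective
  rw [coe_sum_Hcf]
  funext z
  have h1 := eq_sum_H 𝔊 e c (fun x => tr N 2 f x z) z (fun i => by
    rw [← pairing_apply]
    exact hc i z) (x₀ N)
  have h2 : tr N 2 (⇑f) (x₀ N) z = f z := by
    unfold x₀
    rw [hf.isMF.tr_one]
  rw [h2] at h1
  rw [h1, ← sum_subtype_eq (fun i => 𝔊.κ (e i) = 10) c
      (fun i => H 𝔊 e (x₀ N) i z) (fun i hi => hc0 i hi)]
  simp only [Finset.sum_apply, Pi.smul_apply, smul_eq_mul]

/-- the basis of `S₂(Γ₀(N))` dual to the generators of weight 10. -/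
noncomputable def basisHcf :
    Module.Basis {i : CosetX N // 𝔊.κ (e i) = 10} ℂ (CuspForm (Gamma0 N) 2) :=
  Module.Basis.mk (linearIndependent_Hcf 𝔊 e hdecay) (by
    classical
    intro f _
    obtain ⟨c, hc⟩ := exists_coeff 𝔊 e hdecay f
    rw [hc]
    exact Submodule.sum_mem _ fun i _ =>
      Submodule.smul_mem _ _ (Submodule.subset_span ⟨i, rfl⟩))

include hdecay in
lemma finrank_aux :
    Module.finrank ℂ (CuspForm (Gamma0 N) 2) = Nat.card {j : 𝔊.J // 𝔊.κ j = 10} := by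
  rw [Module.finrank_eq_nat_card_basis (basisHcf 𝔊 e hdecay)]
  exact Nat.card_congr (e.subtypeEquiv fun i => Iff.rfl)

end decay3

end GensDualAux

end Fermat.Agent.S20
end MergeWrap_S20_GensDual_Core

section MergeWrap_S20_GensDual -- from S20/GensDual.lean

set_option autoImplicit false
set_option linter.unusedSectionVars false
set_option linter.style.haveILetI false

namespace Fermat.Agent.S20

open UpperHalfPlane hiding I
open ModularForm CongruenceSubgroup Filter Topology Complex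
open scoped MatrixGroups ModularForm Manifold Real

local notation "Δ" => ModularForm.discriminant

namespace Gens

variable {N : ℕ} [NeZero N] (𝔊 : Gens N)

/-! ### (G6) duality -/

/-- a bijection between the cosets and the generators (from `card_J`). -/
lemma nonempty_equiv_J : Nonempty (CosetX N ≃ 𝔊.J) := by
  haveI := 𝔊.finite_J
  exact Finite.card_eq.mp 𝔊.card_J.symm

lemma κ_le_ten (j : 𝔊.J) : 𝔊.κ j ≤ 10 := by
  classical
  letI : Fintype (CosetX N) := Fintype.ofFinite _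
  obtain ⟨e⟩ := 𝔊.nonempty_equiv_J
  exact GensDualAux.κ_le_ten_aux 𝔊 e (fun x i => 𝔊.tendsto_discriminant_mul_inv e x i) j

lemma finrank_cuspForm_two :
    Module.finrank ℂ (CuspForm (Gamma0 N) 2) = Nat.card {j : 𝔊.J // 𝔊.κ j = 10} := by
  classical
  letI : Fintype (CosetX N) := Fintype.ofFinite _
  obtain ⟨e⟩ := 𝔊.nonempty_equiv_J
  exact GensDualAux.finrank_aux 𝔊 e (fun x i => 𝔊.tendsto_discriminant_mul_inv e x i)

end Gens

end Fermat.Agent.S20
end MergeWrap_S20_GensDual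

section MergeWrap_S20_GensFinal -- from S20/GensFinal.lean

set_option autoImplicit false
set_option linter.unusedSectionVars false

namespace Fermat.Agent.S20

open UpperHalfPlane hiding I
open ModularForm CongruenceSubgroup Filter Topology Complex
open scoped MatrixGroups ModularForm Manifold Real

namespace Gens

variable {N : ℕ} [NeZero N] (𝔊 : Gens N)

/-- `Nat.card` of a subtype of a fintype as an integer sum of indicators. -/
lemma natCard_subtype_eq_sum {J : Type} [Fintype J] (P : J → Prop) [DecidablePred P] :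
    (Nat.card {j : J // P j} : ℤ) = ∑ j : J, (if P j then (1 : ℤ) else 0) := by
  rw [Nat.card_eq_fintype_card, Fintype.card_subtype, Finset.card_filter]
  push_cast
  rfl

/-- the pointwise identity behind the count. -/
lemma count_pointwise (k : ℤ) (h0 : 0 ≤ k) (he : Even k) (h10 : k ≤ 10) :
    12 * (if k = 10 then (1 : ℤ) else 0) =
      12 * (if k = 0 then (1 : ℤ) else 0) - 6 * (if (4 : ℤ) ∣ k then (1 : ℤ) else 0)
        - 6 * (if (6 : ℤ) ∣ k then (1 : ℤ) else 0) + k
        - 2 * (if k % 6 = 2 then (1 : ℤ) else 0) + 2 * (if k % 6 = 4 then (1 : ℤ) else 0) := by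
  obtain ⟨r, hr⟩ := he
  have hr0 : 0 ≤ r := by omega
  have hr5 : r ≤ 5 := by omega
  interval_cases r <;> subst hr <;> norm_num

lemma twelve_mul_card_weight_ten :
    12 * (Nat.card {j : 𝔊.J // 𝔊.κ j = 10} : ℤ) =
      12 + (Nat.card (CosetX N) : ℤ) - 3 * (ModularCurve.nuTwo N : ℤ)
        - 4 * (ModularCurve.nuThree N : ℤ) - 6 * (ModularCurve.cuspCount N : ℤ) := by
  classical
  have : Finite 𝔊.J := 𝔊.finite_J
  let _ : Fintype 𝔊.J := Fintype.ofFinite 𝔊.J
  -- the input equations, as integer identities on indicator sums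
  have hJ : (∑ _j : 𝔊.J, (1 : ℤ)) = (Nat.card (CosetX N) : ℤ) := by
    rw [← 𝔊.card_J, Nat.card_eq_fintype_card]
    simp
  have hZ : (∑ j : 𝔊.J, (if 𝔊.κ j = 0 then (1 : ℤ) else 0)) = 1 := by
    rw [← natCard_subtype_eq_sum, 𝔊.card_weight_zero]
    rfl
  have hF : 2 * (∑ j : 𝔊.J, (if (4 : ℤ) ∣ 𝔊.κ j then (1 : ℤ) else 0)) =
      (Nat.card (CosetX N) : ℤ) + (ModularCurve.nuTwo N : ℤ) := by
    rw [← natCard_subtype_eq_sum]
    exact_mod_cast 𝔊.two_mul_card_four_dvd
  have hS : 3 * (∑ j : 𝔊.J, (if (6 : ℤ) ∣ 𝔊.κ j then (1 : ℤ) else 0)) =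
      (Nat.card (CosetX N) : ℤ) + 2 * (ModularCurve.nuThree N : ℤ) := by
    rw [← natCard_subtype_eq_sum]
    exact_mod_cast 𝔊.three_mul_card_six_dvd
  have hP : 3 * (∑ j : 𝔊.J, (if 𝔊.κ j % 6 = 2 then (1 : ℤ) else 0)) +
      (ModularCurve.nuThree N : ℤ) = (Nat.card (CosetX N) : ℤ) := by
    rw [← natCard_subtype_eq_sum]
    exact_mod_cast 𝔊.three_mul_card_mod_six_two
  have hQ : 3 * (∑ j : 𝔊.J, (if 𝔊.κ j % 6 = 4 then (1 : ℤ) else 0)) +
      (ModularCurve.nuThree N : ℤ) = (Nat.card (CosetX N) : ℤ) := by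
    rw [← natCard_subtype_eq_sum]
    exact_mod_cast 𝔊.three_mul_card_mod_six_four
  have hK : (∑ j : 𝔊.J, 𝔊.κ j) =
      6 * ((Nat.card (CosetX N) : ℤ) - (ModularCurve.cuspCount N : ℤ)) := by
    rw [← finsum_eq_sum_of_fintype]
    exact 𝔊.sum_κ
  -- sum the pointwise identity
  have hsum : 12 * (∑ j : 𝔊.J, (if 𝔊.κ j = 10 then (1 : ℤ) else 0)) =
      12 * (∑ j : 𝔊.J, (if 𝔊.κ j = 0 then (1 : ℤ) else 0))
        - 6 * (∑ j : 𝔊.J, (if (4 : ℤ) ∣ 𝔊.κ j then (1 : ℤ) else 0))
        - 6 * (∑ j : 𝔊.J, (if (6 : ℤ) ∣ 𝔊.κ j then (1 : ℤ) else 0))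
        + (∑ j : 𝔊.J, 𝔊.κ j)
        - 2 * (∑ j : 𝔊.J, (if 𝔊.κ j % 6 = 2 then (1 : ℤ) else 0))
        + 2 * (∑ j : 𝔊.J, (if 𝔊.κ j % 6 = 4 then (1 : ℤ) else 0)) := by
    simp only [Finset.mul_sum, ← Finset.sum_sub_distrib, ← Finset.sum_add_distrib]
    refine Finset.sum_congr rfl fun j _ => ?_
    exact count_pointwise (𝔊.κ j) (𝔊.κ_nonneg j) (𝔊.κ_even j) (𝔊.κ_le_ten j)
  rw [natCard_subtype_eq_sum, hsum]
  generalize (∑ j : 𝔊.J, (if 𝔊.κ j = 0 then (1 : ℤ) else 0)) = z at hZ ⊢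
  generalize (∑ j : 𝔊.J, (if (4 : ℤ) ∣ 𝔊.κ j then (1 : ℤ) else 0)) = f at hF ⊢
  generalize (∑ j : 𝔊.J, (if (6 : ℤ) ∣ 𝔊.κ j then (1 : ℤ) else 0)) = s at hS ⊢
  generalize (∑ j : 𝔊.J, (if 𝔊.κ j % 6 = 2 then (1 : ℤ) else 0)) = u at hP ⊢
  generalize (∑ j : 𝔊.J, (if 𝔊.κ j % 6 = 4 then (1 : ℤ) else 0)) = v at hQ ⊢
  generalize (∑ j : 𝔊.J, 𝔊.κ j) = w at hK ⊢
  omega

end Gens

end Fermat.Agent.S20
end MergeWrap_S20_GensFinal

section MergeWrap_S20 -- from S20.lean

set_option autoImplicit false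
open CuspForm

namespace Fermat.Agent.S20

theorem result (N : ℕ) [NeZero N] :
    (Module.finrank ℂ (CuspForm (CongruenceSubgroup.Gamma0 N) 2) : ℚ) = ModularCurve.genusFormula N := by
  obtain ⟨𝔊⟩ := nonempty_gens N
  have h1 := 𝔊.finrank_cuspForm_two
  have h2 := 𝔊.twelve_mul_card_weight_ten
  have h3 := card_cosetX N
  rw [h1]
  have h2' : (12 : ℚ) * (Nat.card {j : 𝔊.J // 𝔊.κ j = 10} : ℚ) =
      12 + (ModularCurve.dedekindPsi N : ℚ) - 3 * (ModularCurve.nuTwo N : ℚ)
        - 4 * (ModularCurve.nuThree N : ℚ) - 6 * (ModularCurve.cuspCount N : ℚ) := by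
    rw [← h3]
    exact_mod_cast h2
  unfold ModularCurve.genusFormula
  linarith

end Fermat.Agent.S20
end MergeWrap_S20
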